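import Mathlib

/-!
Ideals with a complementary ideal: invertibility, localisation, multiples of invertible modules.
-/

set_option autoImplicit false

universe u

open scoped TensorProduct

namespace FermatLib.AV.Points

variable {A : Type u} [CommRing A]

/-- An ideal whose product with another one is generated by a regular element is invertible. -/
theorem invertible_of_mul_eq_span {I J : Ideal A} {P : A} (h : I * J = Ideal.span {P})
    (hP : IsSMulRegular A P) : Module.Invertible A I := by
  classical
  have hr : ∀ (i : I) (j : J), ∃ r : A, (i : A) * j = r * P := fun i j => by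
    have : (i : A) * j ∈ Ideal.span {P} := h ▸ Ideal.mul_mem_mul i.2 j.2
    obtain ⟨r, hr⟩ := Ideal.mem_span_singleton'.1 this
    exact ⟨r, hr.symm⟩
  choose r hr using hr
  have cancel : ∀ {a b : A}, a * P = b * P → a = b := fun {a b} hab =>
    hP (by simpa [smul_eq_mul, mul_comm] using hab)
  let μ : I →ₗ[A] J →ₗ[A] A := LinearMap.mk₂ A r
    (fun i i' j => cancel (by rw [add_mul, ← hr, ← hr, ← hr, Submodule.coe_add, add_mul]))
    (fun a i j => cancel (by rw [smul_eq_mul, mul_assoc, ← hr, ← hr, SetLike.val_smul,
      smul_eq_mul, mul_assoc]))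
    (fun i j j' => cancel (by rw [add_mul, ← hr, ← hr, ← hr, Submodule.coe_add, mul_add]))
    (fun a i j => cancel (by rw [smul_eq_mul, mul_assoc, ← hr, ← hr, SetLike.val_smul,
      smul_eq_mul, mul_left_comm]))
  let f : I ⊗[A] J →ₗ[A] A := TensorProduct.lift μ
  have hf : ∀ i j, f (i ⊗ₜ j) * P = (i : A) * j := fun i j => by
    simp only [f, TensorProduct.lift.tmul]; exact (hr i j).symm
  have key : ∀ x ∈ I * J, ∃ z : I ⊗[A] J, f z * P = x := by
    intro x hx
    refine Submodule.mul_induction_on hx (fun i hi j hj => ⟨⟨i, hi⟩ ⊗ₜ ⟨j, hj⟩, hf _ _⟩) ?_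
    rintro x y ⟨z, hz⟩ ⟨w, hw⟩
    exact ⟨z + w, by rw [map_add, add_mul, hz, hw]⟩
  obtain ⟨z₁, hz₁⟩ := key P (h ▸ Ideal.mem_span_singleton_self P)
  have hz₁' : f z₁ = 1 := cancel (by rw [hz₁, one_mul])
  have hexch : ∀ (i i' : I) (j j' : J),
      r i j • (i' ⊗ₜ[A] j' : I ⊗[A] J) = r i' j' • (i ⊗ₜ[A] j) := by
    intro i i' j j'
    have h1 : r i j • i' = r i' j • i := Subtype.ext (cancel (by
      simp only [SetLike.val_smul, smul_eq_mul]
      linear_combination (i : A) * hr i' j - (i' : A) * hr i j))
    have h2 : r i' j • j' = r i' j' • j := Subtype.ext (cancel (by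
      simp only [SetLike.val_smul, smul_eq_mul]
      linear_combination (j : A) * hr i' j' - (j' : A) * hr i' j))
    rw [TensorProduct.smul_tmul', h1, TensorProduct.smul_tmul, h2, TensorProduct.tmul_smul]
  have hswap : ∀ a b : I ⊗[A] J, f a • b = f b • a := by
    intro a b
    induction a using TensorProduct.induction_on with
    | zero => simp
    | tmul i j =>
      induction b using TensorProduct.induction_on with
      | zero => simp
      | tmul i' j' => simpa [f, μ] using hexch i i' j j'
      | add x y hx hy => simp only [map_add, smul_add, add_smul, hx, hy]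
    | add x y hx hy => simp only [map_add, smul_add, add_smul, hx, hy]
  refine Module.Invertible.left (LinearEquiv.ofBijective f ⟨fun a b hab => ?_, fun x => ?_⟩)
  · have ha := hswap a z₁
    have hb := hswap b z₁
    rw [hz₁', one_smul] at ha hb
    rw [← ha, ← hb, hab]
  · exact ⟨x • z₁, by rw [map_smul, hz₁', smul_eq_mul, mul_one]⟩

/-- Multiples of an invertible submodule by an invertible ideal are invertible. -/
theorem invertible_ideal_smul {M : Type u} [AddCommGroup M] [Module A M] (I : Ideal A)
    [Module.Invertible A I] (L : Submodule A M) [Module.Invertible A L] :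
    Module.Invertible A (I • L : Submodule A M) := by
  let μ : I →ₗ[A] L →ₗ[A] M :=
    ((LinearMap.lsmul A M).compl₂ L.subtype).comp I.subtype
  let f : I ⊗[A] L →ₗ[A] M := TensorProduct.lift μ
  have hfinj : Function.Injective f := by
    have h : f = L.subtype.comp ((TensorProduct.lid A L).toLinearMap.comp
        (I.subtype.rTensor L)) := by
      apply TensorProduct.ext'
      intro i l
      simp [f, μ]
    rw [h]
    exact L.injective_subtype.comp ((TensorProduct.lid A L).injective.comp
      (Module.Flat.rTensor_preserves_injective_linearMap _ I.injective_subtype))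
  have hrange : LinearMap.range f = I • L := by
    refine le_antisymm ?_ (Submodule.smul_le.2 fun a ha m hm => ⟨⟨a, ha⟩ ⊗ₜ ⟨m, hm⟩, rfl⟩)
    rintro _ ⟨z, rfl⟩
    induction z using TensorProduct.induction_on with
    | zero => rw [map_zero]; exact Submodule.zero_mem _
    | tmul i l => exact Submodule.smul_mem_smul i.2 l.2
    | add x y hx hy => rw [map_add]; exact Submodule.add_mem _ hx hy
  exact Module.Invertible.congr
    ((LinearEquiv.ofInjective f hfinj).trans (LinearEquiv.ofEq _ _ hrange))

/-- If `I` is locally generated by one element at every maximal ideal containing it, then it has a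
complement with respect to any of its elements. -/
theorem exists_mul_eq_span {I : Ideal A} {a : A} (ha : a ∈ I)
    (hloc : ∀ m : Ideal A, m.IsMaximal → I ≤ m →
      ∃ f ∈ I, ∃ s ∉ m, ∀ i ∈ I, ∃ v : A, s * i = v * f) :
    ∃ J : Ideal A, I * J = Ideal.span {a} := by
  let J : Ideal A := (Ideal.span {a}).colon (I : Set A)
  refine ⟨J, le_antisymm (Ideal.mul_le.2 fun i hi j hj => ?_) ?_⟩
  · have := Submodule.mem_colon.1 hj i hi
    rwa [smul_eq_mul, mul_comm] at this
  · let T : Ideal A := Submodule.colon (I * J) ({a} : Set A)
    suffices hT : T = ⊤ by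
      have := Submodule.mem_colon.1 ((Ideal.eq_top_iff_one T).1 hT) a rfl
      rw [one_smul] at this
      exact (Ideal.span_singleton_le_iff_mem _).2 this
    by_contra hne
    obtain ⟨m, hm, hle⟩ := Ideal.exists_le_maximal T hne
    by_cases hIm : I ≤ m
    · obtain ⟨f, hf, s, hs, hv⟩ := hloc m hm hIm
      obtain ⟨u₀, hu⟩ := hv a ha
      have hj : s * u₀ ∈ J := by
        refine Submodule.mem_colon.2 fun i hi => ?_
        obtain ⟨v, hvi⟩ := hv i hi
        rw [smul_eq_mul]
        refine Ideal.mem_span_singleton'.2 ⟨v * s, ?_⟩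
        linear_combination v * hu - u₀ * hvi
      have hmem : s * s ∈ T := by
        refine Submodule.mem_colon.2 fun z hz => ?_
        rw [Set.mem_singleton_iff.1 hz, smul_eq_mul]
        have : s * s * a = f * (s * u₀) := by linear_combination s * hu
        rw [this]
        exact Ideal.mul_mem_mul hf hj
      rcases hm.isPrime.mem_or_mem (hle hmem) with h | h <;> exact hs h
    · obtain ⟨t, ht, htm⟩ := SetLike.not_le_iff_exists.1 hIm
      have haJ : a ∈ J := Submodule.mem_colon.2 fun i _ => by
        rw [smul_eq_mul]
        exact Ideal.mul_mem_right _ _ (Ideal.mem_span_singleton_self a)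
      refine htm (hle (Submodule.mem_colon.2 fun z hz => ?_))
      rw [Set.mem_singleton_iff.1 hz, smul_eq_mul]
      exact Ideal.mul_mem_mul ht haJ

section Away

variable {S : Type u} [CommRing S] [Algebra A S] (y : A) [IsLocalization.Away y S]

include y in
/-- Every ideal of a localisation is generated by elements coming from below. -/
theorem map_comap_away (I : Ideal S) :
    Ideal.map (algebraMap A S) (Ideal.comap (algebraMap A S) I) = I :=
  IsLocalization.map_under (Submonoid.powers y) S I

/-- Complementary ideals of a localisation descend when the generator is prime to the inverted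
element. -/
theorem comap_mul_comap_away {I J : Ideal S} {P : A} (hy : ∃ a b : A, a * y + b * P = 1)
    (h : I * J = Ideal.span {algebraMap A S P})
    (hI : algebraMap A S P ∈ I) (hJ : algebraMap A S P ∈ J) :
    Ideal.comap (algebraMap A S) I * Ideal.comap (algebraMap A S) J = Ideal.span {P} := by
  obtain ⟨a, b, hab⟩ := hy
  have hco : ∀ N : ℕ, ∃ a' b' : A, a' * y ^ N + b' * P = 1 := by
    intro N
    induction N with
    | zero => exact ⟨1, 0, by simp⟩
    | succ N ih =>
      obtain ⟨a', b', h'⟩ := ih
      exact ⟨a' * a, a' * y ^ N * b + b', by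
        linear_combination a' * y ^ N * hab + h'⟩
  refine le_antisymm (fun z hz => ?_) ?_
  · have hz' : algebraMap A S z ∈ Ideal.span {algebraMap A S P} := by
      rw [← h]
      have hle : Ideal.map (algebraMap A S)
          (Ideal.comap (algebraMap A S) I * Ideal.comap (algebraMap A S) J) ≤ I * J := by
        rw [Ideal.map_mul]
        exact Ideal.mul_mono Ideal.map_comap_le Ideal.map_comap_le
      exact hle (Ideal.mem_map_of_mem _ hz)
    obtain ⟨w, hw⟩ := Ideal.mem_span_singleton'.1 hz'
    obtain ⟨⟨w₀, ⟨_, N, rfl⟩⟩, hw₀⟩ := IsLocalization.surj (Submonoid.powers y) w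
    have he : algebraMap A S (z * y ^ N) = algebraMap A S (w₀ * P) := by
      rw [map_mul, map_mul, ← hw, ← hw₀]
      simp only
      ring
    obtain ⟨⟨_, N', rfl⟩, hN'⟩ := IsLocalization.exists_of_eq (M := Submonoid.powers y) he
    obtain ⟨a', b', h'⟩ := hco (N + N')
    simp only at hN'
    refine Ideal.mem_span_singleton'.2 ⟨a' * y ^ N' * w₀ + b' * z, ?_⟩
    rw [pow_add] at h'
    linear_combination z * h' - a' * hN'
  · rw [Ideal.span_singleton_le_iff_mem]
    have hP : algebraMap A S P ∈ (Ideal.comap (algebraMap A S) I *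
        Ideal.comap (algebraMap A S) J).map (algebraMap A S) := by
      rw [Ideal.map_mul, map_comap_away y, map_comap_away y, h]
      exact Ideal.mem_span_singleton_self _
    obtain ⟨⟨⟨p, hp⟩, ⟨_, N, rfl⟩⟩, hpN⟩ :=
      (IsLocalization.mem_map_algebraMap_iff (Submonoid.powers y) S).1 hP
    rw [← map_mul] at hpN
    obtain ⟨⟨_, N', rfl⟩, hN'⟩ := IsLocalization.exists_of_eq (M := Submonoid.powers y) hpN
    obtain ⟨a', b', h'⟩ := hco (N + N')
    simp only at hN'
    have h2 : P * P ∈ Ideal.comap (algebraMap A S) I * Ideal.comap (algebraMap A S) J :=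
      Ideal.mul_mem_mul hI hJ
    have heq : P = a' * (y ^ N' * p) + b' * (P * P) := by
      rw [pow_add] at h'
      linear_combination -P * h' + a' * hN'
    rw [heq]
    exact Ideal.add_mem _ (Ideal.mul_mem_left _ _ (Ideal.mul_mem_left _ _ hp))
      (Ideal.mul_mem_left _ _ h2)

end Away

end FermatLib.AV.Points
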