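import Fermat.Agent.AV.Jac.Core.BaseChange
import Fermat.Agent.AV.Jac.Points.IdealPair

/-!
Effective divisors with complement on the two-chart curve over an affine base, and their change of
coefficients.
-/

set_option autoImplicit false

universe u

open scoped TensorProduct

namespace FermatLib.AV

namespace ChartData

variable {k : Type u} [Field k] (D : ChartData k)

theorem isLocalizationAway_r0 (R : Type u) [CommRing R] [Algebra k R] :
    letI := (D.r0 R).toRingHom.toAlgebra
    IsLocalization.Away (D.xR R) (D.R01 R) := by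
  let := (D.r0 R).toRingHom.toAlgebra
  exact
    { map_units := by
        rintro ⟨_, N, rfl⟩
        exact IsUnit.of_mul_eq_one (D.r1 R (D.yR R) ^ N) (by
          change D.r0 R (D.xR R ^ N) * _ = 1
          rw [map_pow, ← mul_pow, D.r0_x_mul_r1_y, one_pow])
      surj := fun a => by
        obtain ⟨N, a0, h⟩ := D.exists_pow_mul_r0 R a
        exact ⟨⟨a0, ⟨_, N, rfl⟩⟩, by rw [mul_comm]; simpa [RingHom.algebraMap_toAlgebra] using h⟩
      exists_of_eq := fun {a b} h => ⟨1, by rw [D.r0_injective R h]⟩ }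

theorem isLocalizationAway_r1 (R : Type u) [CommRing R] [Algebra k R] :
    letI := (D.r1 R).toRingHom.toAlgebra
    IsLocalization.Away (D.yR R) (D.R01 R) := by
  let := (D.r1 R).toRingHom.toAlgebra
  exact
    { map_units := by
        rintro ⟨_, N, rfl⟩
        exact IsUnit.of_mul_eq_one (D.r0 R (D.xR R) ^ N) (by
          change D.r1 R (D.yR R ^ N) * _ = 1
          rw [map_pow, ← mul_pow, mul_comm, D.r0_x_mul_r1_y, one_pow])
      surj := fun a => by
        obtain ⟨N, a0, h⟩ := D.exists_pow_mul_r1 R a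
        exact ⟨⟨a0, ⟨_, N, rfl⟩⟩, by rw [mul_comm]; simpa [RingHom.algebraMap_toAlgebra] using h⟩
      exists_of_eq := fun {a b} h => ⟨1, by rw [D.r1_injective h]⟩ }

/-- An effective divisor on the curve over `Spec R` together with a complement: on each chart the
product of the two ideals is generated by a function, and the two functions differ by the `d`-th
power of the coordinate. -/
structure Div (R : Type u) [CommRing R] [Algebra k R] : Type (u + 1) where
  I0 : Ideal (D.R0 R)
  J0 : Ideal (D.R0 R)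
  I1 : Ideal (D.R1 R)
  J1 : Ideal (D.R1 R)
  P0 : D.R0 R
  P1 : D.R1 R
  d : ℕ
  mul0 : I0 * J0 = Ideal.span {P0}
  mul1 : I1 * J1 = Ideal.span {P1}
  glueI : I0.map (D.r0 R) = I1.map (D.r1 R)
  glueJ : J0.map (D.r0 R) = J1.map (D.r1 R)
  hP : D.r0 R P0 = D.r0 R (D.xR R) ^ d * D.r1 R P1
  reg : ∀ (S : Type u) [CommRing S] [Algebra k S] (φ : R →ₐ[k] S),
    IsSMulRegular (D.R0 S) (D.map0 φ P0)

namespace Div

variable {D} {R : Type u} [CommRing R] [Algebra k R] (E : D.Div R)

/-- The ideal on the overlap. -/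
noncomputable def I01 : Ideal (D.R01 R) := E.I0.map (D.r0 R)

theorem I01_eq : E.I01 = E.I1.map (D.r1 R) := E.glueI

theorem r0_mem_I01 {a : D.R0 R} (ha : a ∈ E.I0) : D.r0 R a ∈ E.I01 := Ideal.mem_map_of_mem _ ha

theorem r1_mem_I01 {a : D.R1 R} (ha : a ∈ E.I1) : D.r1 R a ∈ E.I01 :=
  E.I01_eq ▸ Ideal.mem_map_of_mem _ ha

/-- The complementary divisor. -/
def swap : D.Div R where
  I0 := E.J0
  J0 := E.I0
  I1 := E.J1
  J1 := E.I1
  P0 := E.P0
  P1 := E.P1
  d := E.d
  mul0 := by rw [mul_comm, E.mul0]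
  mul1 := by rw [mul_comm, E.mul1]
  glueI := E.glueJ
  glueJ := E.glueI
  hP := E.hP
  reg := E.reg

theorem P0_mem : E.P0 ∈ E.I0 :=
  Ideal.mul_le_left (E.mul0 ▸ Ideal.mem_span_singleton_self E.P0)

theorem P1_mem : E.P1 ∈ E.I1 :=
  Ideal.mul_le_left (E.mul1 ▸ Ideal.mem_span_singleton_self E.P1)

theorem regular0 : IsSMulRegular (D.R0 R) E.P0 := by
  have h : D.map0 (AlgHom.id k R) E.P0 = E.P0 := by
    simp [ChartData.map0]
  exact h ▸ E.reg R (AlgHom.id k R)

theorem regular01 : IsSMulRegular (D.R01 R) (D.r0 R E.P0) := by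
  refine IsSMulRegular.of_right_eq_zero_of_smul fun z hz => ?_
  obtain ⟨N, a, ha⟩ := D.exists_pow_mul_r0 R z
  rw [smul_eq_mul] at hz
  have ha0 : a = 0 := E.regular0.right_eq_zero_of_smul (D.r0_injective R (by
    rw [smul_eq_mul, map_mul, map_zero, ← ha, mul_left_comm, hz, mul_zero]))
  rw [ha0, map_zero] at ha
  exact ((IsUnit.of_mul_eq_one _ (D.r0_x_mul_r1_y R)).pow N).mul_right_eq_zero.1 ha

theorem regular1 : IsSMulRegular (D.R1 R) E.P1 := by
  refine IsSMulRegular.of_right_eq_zero_of_smul fun z hz => D.r1_injective ?_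
  rw [map_zero]
  refine E.regular01.right_eq_zero_of_smul ?_
  rw [smul_eq_mul] at hz ⊢
  rw [E.hP, mul_assoc, ← map_mul, hz, map_zero, mul_zero]

theorem invertible_I0 : Module.Invertible (D.R0 R) E.I0 :=
  Points.invertible_of_mul_eq_span E.mul0 E.regular0

theorem invertible_I1 : Module.Invertible (D.R1 R) E.I1 :=
  Points.invertible_of_mul_eq_span E.mul1 E.regular1

variable {S : Type u} [CommRing S] [Algebra k S]

theorem map_map_congr {φ : R →ₐ[k] S} {I : Ideal (D.R0 R)} {I' : Ideal (D.R1 R)}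
    (h : I.map (D.r0 R) = I'.map (D.r1 R))
    (h0 : ∀ a, D.map01 φ (D.r0 R a) = D.r0 S (D.map0 φ a))
    (h1 : ∀ a, D.map01 φ (D.r1 R a) = D.r1 S (D.map1 φ a)) :
    (I.map (D.map0 φ)).map (D.r0 S) = (I'.map (D.map1 φ)).map (D.r1 S) := by
  have e0 : (I.map (D.map0 φ)).map (D.r0 S) = (I.map (D.r0 R)).map (D.map01 φ) := by
    rw [show I.map (D.map0 φ) = Ideal.span (D.map0 φ '' I) from rfl,
      show I.map (D.r0 R) = Ideal.span (D.r0 R '' I) from rfl, Ideal.map_span, Ideal.map_span,
      Set.image_image, Set.image_image]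
    simp only [h0]
  have e1 : (I'.map (D.map1 φ)).map (D.r1 S) = (I'.map (D.r1 R)).map (D.map01 φ) := by
    rw [show I'.map (D.map1 φ) = Ideal.span (D.map1 φ '' I') from rfl,
      show I'.map (D.r1 R) = Ideal.span (D.r1 R '' I') from rfl, Ideal.map_span, Ideal.map_span,
      Set.image_image, Set.image_image]
    simp only [h1]
  rw [e0, e1, h]

/-- Change of coefficients. -/
noncomputable def map (φ : R →ₐ[k] S) : D.Div S where
  I0 := E.I0.map (D.map0 φ)
  J0 := E.J0.map (D.map0 φ)
  I1 := E.I1.map (D.map1 φ)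
  J1 := E.J1.map (D.map1 φ)
  P0 := D.map0 φ E.P0
  P1 := D.map1 φ E.P1
  d := E.d
  mul0 := by rw [← Ideal.map_mul, E.mul0, Ideal.map_span, Set.image_singleton]
  mul1 := by rw [← Ideal.map_mul, E.mul1, Ideal.map_span, Set.image_singleton]
  glueI := Div.map_map_congr E.glueI
    (fun a => D.map01_r0 φ a) (fun a => D.map01_r1 φ a)
  glueJ := Div.map_map_congr E.glueJ
    (fun a => D.map01_r0 φ a) (fun a => D.map01_r1 φ a)
  hP := by
    rw [← D.map01_r0 φ, ← D.map01_r1 φ, E.hP, map_mul, map_pow, D.map01_r0, D.map0_xR]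
  reg := fun T _ _ ψ => by
    have h : D.map0 ψ (D.map0 φ E.P0) = D.map0 (ψ.comp φ) E.P0 := by
      induction E.P0 using TensorProduct.induction_on with
      | zero => simp
      | tmul r a => rfl
      | add a b ha hb => simp only [map_add, ha, hb]
    exact h ▸ E.reg T (ψ.comp φ)

end Div

end ChartData

end FermatLib.AV
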