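import Fermat.Agent.AV.Jac.Core.BaseChange
import Fermat.Agent.AV.Jac.Points.Div

/-!
Twisting bundles down by effective divisors.
-/

set_option autoImplicit false

universe u

open scoped TensorProduct

namespace FermatLib.AV

namespace ChartData

variable {k : Type u} [Field k] {D : ChartData k} {R : Type u} [CommRing R] [Algebra k R]

namespace Bundle

/-- Two bundles embedded in a third one with the same images of both lattices are isomorphic. -/
theorem isom_of_embed {B B' C : D.Bundle R} (f : B.M →ₗ[D.R01 R] C.M)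
    (f' : B'.M →ₗ[D.R01 R] C.M) (hf' : Function.Injective f')
    (h0 : B.L0.map (linear0 f) = B'.L0.map (linear0 f'))
    (h1 : B.L1.map (linear1 f) = B'.L1.map (linear1 f')) : B.Isom B' := by
  have hrange : ∀ m, f m ∈ LinearMap.range f' := fun m => by
    obtain ⟨N, hN⟩ := B.exists_mem0 m
    obtain ⟨a, -, ha⟩ := (h0 ▸ ⟨_, hN, rfl⟩ :
      linear0 f (D.xR R ^ N • m) ∈ B'.L0.map (linear0 f'))
    refine ⟨D.yR R ^ N • a, ?_⟩
    change linear1 f' _ = _
    rw [map_smul]
    change D.yR R ^ N • f' a = f m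
    rw [show f' a = linear0 f' a from rfl, ha, show linear0 f (D.xR R ^ N • m) =
      D.xR R ^ N • f m from map_xR_pow_smul f N m, C.yR_pow_smul_xR_pow_smul]
  let h : B.M →ₗ[D.R01 R] B'.M :=
    (LinearEquiv.ofInjective f' hf').symm.toLinearMap.comp (f.codRestrict _ hrange)
  have hh : ∀ m, f' (h m) = f m := fun m =>
    congrArg Subtype.val ((LinearEquiv.ofInjective f' hf').apply_symm_apply ⟨f m, hrange m⟩)
  refine isom_of_map_eq h ?_ ?_
  · refine Submodule.map_injective_of_injective (f := linear0 f') hf' ?_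
    rw [← h0, ← Submodule.map_comp]
    exact congrArg (B.L0.map ·) (LinearMap.ext hh)
  · refine Submodule.map_injective_of_injective (f := linear1 f') hf' ?_
    rw [← h1, ← Submodule.map_comp]
    exact congrArg (B.L1.map ·) (LinearMap.ext hh)

variable (B : D.Bundle R)

/-- The coordinate as a unit of the functions on the overlap. -/
noncomputable def xUnit (D : ChartData k) (R : Type u) [CommRing R] [Algebra k R] :
    (D.R01 R)ˣ := Units.mkOfMulEqOne _ _ (D.r0_x_mul_r1_y R)

theorem xAut_zpow_apply (d : ℤ) (m : B.M) :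
    (B.xAut ^ d) m = ((xUnit D R ^ d : (D.R01 R)ˣ) : D.R01 R) • m := by
  have h : ∀ m, B.xAut m = ((xUnit D R : (D.R01 R)ˣ) : D.R01 R) • m := fun _ => rfl
  induction d generalizing m with
  | zero => simp
  | succ n ih =>
    rw [zpow_add_one, zpow_add_one, LinearEquiv.mul_apply, h, ih, smul_smul, Units.val_mul]
  | pred n ih =>
    rw [zpow_sub_one, zpow_sub_one, LinearEquiv.mul_apply, ih, Units.val_mul, mul_smul]
    congr 1

theorem twistInfty_L1 (d : ℤ) :
    (B.twistInfty d).L1 = B.L1.map (linear1 (B := B) (B' := B) (B.xAut ^ d).toLinearMap) := rfl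

theorem twistInfty_zero : (B.twistInfty 0).Isom B := by
  refine isom_of_embed (C := B) (B := B.twistInfty 0) (B' := B) LinearMap.id LinearMap.id
    (fun _ _ h => h) rfl ?_
  ext m
  simp only [Submodule.mem_map]
  constructor
  · rintro ⟨a, ⟨b, hb, rfl⟩, rfl⟩
    exact ⟨b, hb, by rw [zpow_zero]; rfl⟩
  · rintro ⟨b, hb, rfl⟩
    exact ⟨_, ⟨b, hb, rfl⟩, by rw [zpow_zero]; rfl⟩

theorem twistInfty_twistInfty (a b : ℤ) :
    ((B.twistInfty a).twistInfty b).Isom (B.twistInfty (a + b)) := by
  refine isom_of_embed (C := B) (B := (B.twistInfty a).twistInfty b) (B' := B.twistInfty (a + b))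
    LinearMap.id LinearMap.id (fun _ _ h => h) rfl ?_
  have key : ∀ m, ((B.twistInfty a).xAut ^ b) ((B.xAut ^ a) m) = (B.xAut ^ (a + b)) m := fun m => by
    refine ((B.twistInfty a).xAut_zpow_apply b _).trans ?_
    rw [add_comm a b, xAut_zpow_apply B (b + a) m, zpow_add, Units.val_mul, mul_smul,
      ← xAut_zpow_apply B a m]
    rfl
  ext m
  simp only [Submodule.mem_map]
  constructor
  · rintro ⟨_, ⟨_, ⟨c, hc, rfl⟩, rfl⟩, rfl⟩
    exact ⟨_, ⟨c, hc, rfl⟩, (key c).symm⟩
  · rintro ⟨_, ⟨c, hc, rfl⟩, rfl⟩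
    exact ⟨_, ⟨_, ⟨c, hc, rfl⟩, rfl⟩, key c⟩

theorem Isom.twistInfty {B B' : D.Bundle R} (h : B.Isom B') (d : ℤ) :
    (B.twistInfty d).Isom (B'.twistInfty d) := by
  obtain ⟨e⟩ := h
  have key : ∀ m, e.toEquiv ((B.xAut ^ d) m) = (B'.xAut ^ d) (e.toEquiv m) := fun m => by
    rw [xAut_zpow_apply, xAut_zpow_apply, map_smul]
  refine ⟨⟨e.toEquiv, e.mem0, fun m => ⟨?_, ?_⟩⟩⟩
  · rintro ⟨a, ha, h⟩
    refine ⟨e.toEquiv.symm a, (e.mem1 _).1 (by rwa [LinearEquiv.apply_symm_apply]), ?_⟩
    exact e.toEquiv.injective (((key _).trans (by rw [LinearEquiv.apply_symm_apply])).trans h)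
  · rintro ⟨a, ha, rfl⟩
    exact ⟨e.toEquiv a, (e.mem1 a).2 ha, (key a).symm⟩

variable {S : Type u} [CommRing S] [Algebra k S]

theorem map_twistInfty (φ : R →ₐ[k] S) (d : ℤ) :
    ((B.twistInfty d).map φ).Isom ((B.map φ).twistInfty d) := by
  have key : ∀ m, B.mapHom φ ((B.xAut ^ d) m) = ((B.map φ).xAut ^ d) (B.mapHom φ m) := fun m => by
    rw [xAut_zpow_apply, mapHom_smul, xAut_zpow_apply]
    congr 1
    have hx : Units.map (D.map01 φ).toRingHom.toMonoidHom (xUnit D R) = xUnit D S :=
      Units.ext (by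
        change D.map01 φ (D.r0 R (D.xR R)) = D.r0 S (D.xR S)
        rw [D.map01_r0, D.map0_xR])
    rw [← hx, ← map_zpow]
    rfl
  refine IsPullback.isom_map (B := B.twistInfty d) (B' := (B.map φ).twistInfty d)
    (g := B.mapHom φ) ⟨B.mapHom_smul φ, rfl, ?_⟩
  rw [twistInfty_L1 (B.map φ)]
  change Submodule.span _ _ = Submodule.map _ (Submodule.span _ _)
  refine Eq.trans ?_ (Submodule.map_span _ _).symm
  apply congrArg
  ext z
  constructor
  · rintro ⟨_, ⟨m, hm, rfl⟩, rfl⟩
    exact ⟨_, ⟨m, hm, rfl⟩, (key m).symm⟩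
  · rintro ⟨_, ⟨m, hm, rfl⟩, rfl⟩
    exact ⟨_, ⟨m, hm, rfl⟩, key m⟩

end Bundle

namespace Div

variable (E : D.Div R) (B : D.Bundle R)

/-- Sections over the overlap of a bundle twisted down by a divisor. -/
def TwistM : Type u := ↥(E.I01 • (⊤ : Submodule (D.R01 R) B.M))

noncomputable instance instAddCommGroupTwistM : AddCommGroup (E.TwistM B) :=
  inferInstanceAs (AddCommGroup ↥(E.I01 • (⊤ : Submodule (D.R01 R) B.M)))

noncomputable instance instModule01TwistM : Module (D.R01 R) (E.TwistM B) :=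
  inferInstanceAs (Module (D.R01 R) ↥(E.I01 • (⊤ : Submodule (D.R01 R) B.M)))

noncomputable instance instModule0TwistM : Module (D.R0 R) (E.TwistM B) :=
  Module.compHom _ (D.r0 R).toRingHom

noncomputable instance instModule1TwistM : Module (D.R1 R) (E.TwistM B) :=
  Module.compHom _ (D.r1 R).toRingHom

noncomputable instance instModuleTwistM : Module R (E.TwistM B) :=
  Module.compHom _ (algebraMap R (D.R01 R))

instance instTower01TwistM : IsScalarTower R (D.R01 R) (E.TwistM B) :=
  IsScalarTower.of_algebraMap_smul fun _ _ => rfl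

instance instTower0TwistM : IsScalarTower R (D.R0 R) (E.TwistM B) :=
  IsScalarTower.of_algebraMap_smul fun s m => by
    change D.r0 R (algebraMap R (D.R0 R) s) • m = algebraMap R (D.R01 R) s • m
    rw [AlgHom.commutes]

instance instTower1TwistM : IsScalarTower R (D.R1 R) (E.TwistM B) :=
  IsScalarTower.of_algebraMap_smul fun s m => by
    change D.r1 R (algebraMap R (D.R1 R) s) • m = algebraMap R (D.R01 R) s • m
    rw [AlgHom.commutes]

/-- The inclusion of the twisted sections. -/
noncomputable def incl : E.TwistM B →ₗ[D.R01 R] B.M :=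
  (E.I01 • (⊤ : Submodule (D.R01 R) B.M)).subtype

theorem incl_injective : Function.Injective (E.incl B) := Subtype.val_injective

/-- The inclusion over the first chart. -/
noncomputable def incl0 : E.TwistM B →ₗ[D.R0 R] B.M where
  toFun := E.incl B
  map_add' := map_add _
  map_smul' a m := by
    rw [RingHom.id_apply, ← B.smul0, ← map_smul]
    rfl

/-- The inclusion over the second chart. -/
noncomputable def incl1 : E.TwistM B →ₗ[D.R1 R] B.M where
  toFun := E.incl B
  map_add' := map_add _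
  map_smul' a m := by
    rw [RingHom.id_apply, ← B.smul1, ← map_smul]
    rfl

theorem smul0_le : ∀ m ∈ E.I0 • B.L0, m ∈ E.I01 • (⊤ : Submodule (D.R01 R) B.M) := fun m hm => by
  refine Submodule.smul_induction_on hm (fun a ha n _ => ?_) fun x y hx hy => add_mem hx hy
  rw [← B.smul0]
  exact Submodule.smul_mem_smul (E.r0_mem_I01 ha) trivial

theorem smul1_le : ∀ m ∈ E.I1 • B.L1, m ∈ E.I01 • (⊤ : Submodule (D.R01 R) B.M) := fun m hm => by
  refine Submodule.smul_induction_on hm (fun a ha n _ => ?_) fun x y hx hy => add_mem hx hy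
  rw [← B.smul1]
  exact Submodule.smul_mem_smul (E.r1_mem_I01 ha) trivial

theorem map_comap_incl0 :
    ((E.I0 • B.L0).comap (E.incl0 B)).map (E.incl0 B) = E.I0 • B.L0 :=
  le_antisymm (Submodule.map_comap_le _ _) fun m hm =>
    ⟨⟨m, E.smul0_le B m hm⟩, hm, rfl⟩

theorem map_comap_incl1 :
    ((E.I1 • B.L1).comap (E.incl1 B)).map (E.incl1 B) = E.I1 • B.L1 :=
  le_antisymm (Submodule.map_comap_le _ _) fun m hm =>
    ⟨⟨m, E.smul1_le B m hm⟩, hm, rfl⟩

theorem invertible_comap0 :
    Module.Invertible (D.R0 R) ((E.I0 • B.L0).comap (E.incl0 B)) := by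
  have := E.invertible_I0
  have := Points.invertible_ideal_smul E.I0 B.L0
  exact Module.Invertible.congr ((Submodule.equivMapOfInjective (E.incl0 B) (E.incl_injective B) _).trans
    (LinearEquiv.ofEq _ _ (E.map_comap_incl0 B))).symm

theorem invertible_comap1 :
    Module.Invertible (D.R1 R) ((E.I1 • B.L1).comap (E.incl1 B)) := by
  have := E.invertible_I1
  have := Points.invertible_ideal_smul E.I1 B.L1
  exact Module.Invertible.congr ((Submodule.equivMapOfInjective (E.incl1 B) (E.incl_injective B) _).trans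
    (LinearEquiv.ofEq _ _ (E.map_comap_incl1 B))).symm

theorem exists_pow_smul0 {z : B.M} (hz : z ∈ E.I01 • (⊤ : Submodule (D.R01 R) B.M)) :
    ∃ N : ℕ, D.xR R ^ N • z ∈ E.I0 • B.L0 := by
  refine Submodule.smul_induction_on hz (fun a ha m _ => ?_) ?_
  · refine Submodule.span_induction
      (p := fun a _ => ∀ m : B.M, ∃ N : ℕ, D.xR R ^ N • a • m ∈ E.I0 • B.L0) ?_ ?_ ?_ ?_ ha m
    · rintro _ ⟨i, hi, rfl⟩ m
      obtain ⟨N, hN⟩ := B.exists_mem0 m
      exact ⟨N, by rw [B.smul0, smul_comm]; exact Submodule.smul_mem_smul hi hN⟩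
    · exact fun m => ⟨0, by simp⟩
    · intro a a' _ _ ha ha' m
      obtain ⟨N, hN⟩ := ha m
      obtain ⟨N', hN'⟩ := ha' m
      refine ⟨N + N', ?_⟩
      rw [add_smul, smul_add]
      refine add_mem ?_ ?_
      · rw [add_comm, pow_add, mul_smul]; exact Submodule.smul_mem _ _ hN
      · rw [pow_add, mul_smul]; exact Submodule.smul_mem _ _ hN'
    · intro c a _ ha m
      obtain ⟨N, hN⟩ := ha (c • m)
      exact ⟨N, by rwa [smul_assoc, smul_comm c a]⟩
  · rintro x y ⟨N, hN⟩ ⟨N', hN'⟩
    refine ⟨N + N', ?_⟩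
    rw [smul_add]
    refine add_mem ?_ ?_
    · rw [add_comm, pow_add, mul_smul]; exact Submodule.smul_mem _ _ hN
    · rw [pow_add, mul_smul]; exact Submodule.smul_mem _ _ hN'

theorem exists_pow_smul1 {z : B.M} (hz : z ∈ E.I01 • (⊤ : Submodule (D.R01 R) B.M)) :
    ∃ N : ℕ, D.yR R ^ N • z ∈ E.I1 • B.L1 := by
  rw [E.I01_eq] at hz
  refine Submodule.smul_induction_on hz (fun a ha m _ => ?_) ?_
  · refine Submodule.span_induction
      (p := fun a _ => ∀ m : B.M, ∃ N : ℕ, D.yR R ^ N • a • m ∈ E.I1 • B.L1) ?_ ?_ ?_ ?_ ha m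
    · rintro _ ⟨i, hi, rfl⟩ m
      obtain ⟨N, hN⟩ := B.exists_mem1 m
      exact ⟨N, by rw [B.smul1, smul_comm]; exact Submodule.smul_mem_smul hi hN⟩
    · exact fun m => ⟨0, by simp⟩
    · intro a a' _ _ ha ha' m
      obtain ⟨N, hN⟩ := ha m
      obtain ⟨N', hN'⟩ := ha' m
      refine ⟨N + N', ?_⟩
      rw [add_smul, smul_add]
      refine add_mem ?_ ?_
      · rw [add_comm, pow_add, mul_smul]; exact Submodule.smul_mem _ _ hN
      · rw [pow_add, mul_smul]; exact Submodule.smul_mem _ _ hN'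
    · intro c a _ ha m
      obtain ⟨N, hN⟩ := ha (c • m)
      exact ⟨N, by rwa [smul_assoc, smul_comm c a]⟩
  · rintro x y ⟨N, hN⟩ ⟨N', hN'⟩
    refine ⟨N + N', ?_⟩
    rw [smul_add]
    refine add_mem ?_ ?_
    · rw [add_comm, pow_add, mul_smul]; exact Submodule.smul_mem _ _ hN
    · rw [pow_add, mul_smul]; exact Submodule.smul_mem _ _ hN'

/-- A bundle twisted down by a divisor. -/
@[reducible] noncomputable def twist : D.Bundle R where
  M := E.TwistM B
  smul0 _ _ := rfl
  smul1 _ _ := rfl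
  L0 := (E.I0 • B.L0).comap (E.incl0 B)
  L1 := (E.I1 • B.L1).comap (E.incl1 B)
  invertible0 := E.invertible_comap0 B
  invertible1 := E.invertible_comap1 B
  exists_mem0 m := by
    obtain ⟨N, hN⟩ := E.exists_pow_smul0 B m.2
    refine ⟨N, ?_⟩
    rw [Submodule.mem_comap, map_smul]
    exact hN
  exists_mem1 m := by
    obtain ⟨N, hN⟩ := E.exists_pow_smul1 B m.2
    refine ⟨N, ?_⟩
    rw [Submodule.mem_comap, map_smul]
    exact hN

/-- The inclusion of the twist. -/
noncomputable def twistIncl : (E.twist B).M →ₗ[D.R01 R] B.M := E.incl B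

theorem map_twistIncl0 : (E.twist B).L0.map (Bundle.linear0 (E.twistIncl B)) = E.I0 • B.L0 := by
  rw [← E.map_comap_incl0 B]; rfl

theorem map_twistIncl1 : (E.twist B).L1.map (Bundle.linear1 (E.twistIncl B)) = E.I1 • B.L1 := by
  rw [← E.map_comap_incl1 B]; rfl

theorem twist_congr {E E' : D.Div R} (h0 : E.I0 = E'.I0) (h1 : E.I1 = E'.I1) :
    (E.twist B).Isom (E'.twist B) :=
  Bundle.isom_of_embed (C := B) (E.twistIncl B) (E'.twistIncl B) (E'.incl_injective B)
    (by rw [map_twistIncl0, map_twistIncl0, h0]) (by rw [map_twistIncl1, map_twistIncl1, h1])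

theorem isom_twist {B B' : D.Bundle R} (h : B.Isom B') : (E.twist B).Isom (E.twist B') := by
  obtain ⟨e⟩ := h
  refine Bundle.isom_of_embed (C := B') (e.toEquiv.toLinearMap.comp (E.twistIncl B))
    (E.twistIncl B') (E.incl_injective B') ?_ ?_
  · have he : B.L0.map (Bundle.linear0 e.toEquiv.toLinearMap) = B'.L0 := by
      ext m
      refine ⟨?_, fun hm => ⟨e.toEquiv.symm m, (e.mem0 _).1 ?_, e.toEquiv.apply_symm_apply m⟩⟩
      · rintro ⟨a, ha, rfl⟩
        exact (e.mem0 a).2 ha
      · rwa [LinearEquiv.apply_symm_apply]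
    rw [map_twistIncl0, show Bundle.linear0 (e.toEquiv.toLinearMap.comp (E.twistIncl B)) =
      (Bundle.linear0 e.toEquiv.toLinearMap).comp (Bundle.linear0 (E.twistIncl B)) from rfl,
      Submodule.map_comp, map_twistIncl0, Submodule.map_smul'', he]
  · have he : B.L1.map (Bundle.linear1 e.toEquiv.toLinearMap) = B'.L1 := by
      ext m
      refine ⟨?_, fun hm => ⟨e.toEquiv.symm m, (e.mem1 _).1 ?_, e.toEquiv.apply_symm_apply m⟩⟩
      · rintro ⟨a, ha, rfl⟩
        exact (e.mem1 a).2 ha
      · rwa [LinearEquiv.apply_symm_apply]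
    rw [map_twistIncl1, show Bundle.linear1 (e.toEquiv.toLinearMap.comp (E.twistIncl B)) =
      (Bundle.linear1 e.toEquiv.toLinearMap).comp (Bundle.linear1 (E.twistIncl B)) from rfl,
      Submodule.map_comp, map_twistIncl1, Submodule.map_smul'', he]

theorem twistInfty_twist (d : ℤ) :
    ((E.twist B).twistInfty d).Isom (E.twist (B.twistInfty d)) := by
  have key : ∀ m, E.twistIncl B (((E.twist B).xAut ^ d) m) = (B.xAut ^ d) (E.twistIncl B m) :=
    fun m => by rw [Bundle.xAut_zpow_apply, map_smul, Bundle.xAut_zpow_apply]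
  refine Bundle.isom_of_embed (C := B) (B := (E.twist B).twistInfty d)
    (B' := E.twist (B.twistInfty d)) (E.twistIncl B) (E.twistIncl (B.twistInfty d))
    (E.incl_injective _) ?_ ?_
  · exact (E.map_twistIncl0 B).trans (E.map_twistIncl0 (B.twistInfty d)).symm
  · refine Eq.trans ?_ (E.map_twistIncl1 (B.twistInfty d)).symm
    rw [Bundle.twistInfty_L1, Bundle.twistInfty_L1]
    change Submodule.map (Bundle.linear1 (B := E.twist B) (B' := B) (E.twistIncl B))
      (Submodule.map _ _) = E.I1 • Submodule.map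
        (Bundle.linear1 (B := B) (B' := B) (B.xAut ^ d).toLinearMap) B.L1
    rw [← Submodule.map_smul'', ← E.map_twistIncl1 B, ← Submodule.map_comp, ← Submodule.map_comp]
    exact congrArg (Submodule.map · _) (LinearMap.ext key)

/-- The inverse operation of twisting down. -/
noncomputable def untwist : D.Bundle R := (E.swap.twist B).twistInfty E.d

theorem swap_twist_twist : (E.swap.twist (E.twist B)).Isom (B.twistInfty (-(E.d : ℤ))) := by
  let c : B.M →ₗ[D.R01 R] B.M := LinearMap.lsmul (D.R01 R) B.M (D.r0 R E.P0)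
  refine Bundle.Isom.symm (Bundle.isom_of_embed (C := B) (B := B.twistInfty (-(E.d : ℤ)))
    (B' := E.swap.twist (E.twist B)) c
    ((E.twistIncl B).comp (E.swap.twistIncl (E.twist B)))
    ((E.incl_injective B).comp (E.swap.incl_injective _)) ?_ ?_)
  · rw [show Bundle.linear0 ((E.twistIncl B).comp (E.swap.twistIncl (E.twist B))) =
      (Bundle.linear0 (E.twistIncl B)).comp (Bundle.linear0 (E.swap.twistIncl (E.twist B)))
      from rfl, Submodule.map_comp, map_twistIncl0, Submodule.map_smul'', map_twistIncl0,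
      ← smul_assoc, smul_eq_mul, show E.swap.I0 * E.I0 = Ideal.span {E.P0} by
        rw [mul_comm]; exact E.mul0, Submodule.ideal_span_singleton_smul]
    ext m
    constructor
    · rintro ⟨a, ha, rfl⟩
      exact ⟨a, ha, (B.smul0 E.P0 a).symm⟩
    · rintro ⟨a, ha, rfl⟩
      exact ⟨a, ha, B.smul0 E.P0 a⟩
  · rw [show Bundle.linear1 ((E.twistIncl B).comp (E.swap.twistIncl (E.twist B))) =
      (Bundle.linear1 (E.twistIncl B)).comp (Bundle.linear1 (E.swap.twistIncl (E.twist B)))
      from rfl, Submodule.map_comp, map_twistIncl1, Submodule.map_smul'', map_twistIncl1,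
      ← smul_assoc, smul_eq_mul, show E.swap.I1 * E.I1 = Ideal.span {E.P1} by
        rw [mul_comm]; exact E.mul1, Submodule.ideal_span_singleton_smul]
    have key : ∀ a, D.r0 R E.P0 • (B.xAut ^ (-(E.d : ℤ))) a = E.P1 • a := fun a => by
      rw [Bundle.xAut_zpow_apply, ← B.smul1, E.hP, smul_smul]
      congr 1
      rw [show D.r0 R (D.xR R) ^ E.d =
        ((Bundle.xUnit D R ^ (E.d : ℤ) : (D.R01 R)ˣ) : D.R01 R) by
          rw [zpow_natCast, Units.val_pow_eq_pow_val]; rfl,
        mul_comm _ (D.r1 R E.P1), mul_assoc, ← Units.val_mul, ← zpow_add, add_neg_cancel, zpow_zero,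
        Units.val_one, mul_one]
    ext m
    constructor
    · rintro ⟨_, ⟨a, ha, rfl⟩, rfl⟩
      exact ⟨a, ha, (key a).symm⟩
    · rintro ⟨a, ha, rfl⟩
      exact ⟨_, ⟨a, ha, rfl⟩, key a⟩

theorem untwist_twist : (E.untwist (E.twist B)).Isom B :=
  (((E.swap_twist_twist B).twistInfty E.d).trans (B.twistInfty_twistInfty _ _)).trans
    (by rw [neg_add_cancel]; exact B.twistInfty_zero)

theorem twist_untwist : (E.twist (E.untwist B)).Isom B :=
  (((E.twistInfty_twist (E.swap.twist B) E.d).symm.trans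
    ((E.swap.swap_twist_twist B).twistInfty E.d)).trans (B.twistInfty_twistInfty _ _)).trans
    (by rw [show E.swap.d = E.d from rfl, neg_add_cancel]; exact B.twistInfty_zero)

theorem isom_untwist {B B' : D.Bundle R} (h : B.Isom B') : (E.untwist B).Isom (E.untwist B') :=
  (E.swap.isom_twist h).twistInfty _

theorem untwist_congr {E E' : D.Div R} (h0 : E.I0 = E'.I0) (h1 : E.I1 = E'.I1) :
    (E.untwist B).Isom (E'.untwist B) :=
  ((E'.untwist_twist (E.untwist B)).symm.trans
    (E'.isom_untwist ((Div.twist_congr (E.untwist B) h0 h1).symm.trans (E.twist_untwist B))))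

section Map

variable {S : Type u} [CommRing S] [Algebra k S] (φ : R →ₐ[k] S)

theorem mapHom_mem {z : B.M} (hz : z ∈ E.I01 • (⊤ : Submodule (D.R01 R) B.M)) :
    B.mapHom φ z ∈ (E.map φ).I01 • (⊤ : Submodule (D.R01 S) (B.map φ).M) := by
  refine Submodule.smul_induction_on hz (fun a ha m _ => ?_) fun x y hx hy => by
    rw [map_add]; exact add_mem hx hy
  rw [B.mapHom_smul]
  refine Submodule.smul_mem_smul ?_ trivial
  refine Submodule.span_induction (p := fun a _ => D.map01 φ a ∈ (E.map φ).I01) ?_ ?_ ?_ ?_ ha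
  · rintro _ ⟨i, hi, rfl⟩
    rw [D.map01_r0]
    exact (E.map φ).r0_mem_I01 (Ideal.mem_map_of_mem _ hi)
  · rw [map_zero]; exact zero_mem _
  · intro a a' _ _ ha ha'; rw [map_add]; exact add_mem ha ha'
  · intro c a _ ha; rw [smul_eq_mul, map_mul]; exact Ideal.mul_mem_left _ _ ha

theorem span_mapHom_smul0 :
    Submodule.span (D.R0 S) (B.mapHom φ '' (E.I0 • B.L0 : Submodule (D.R0 R) B.M)) =
      (E.map φ).I0 • (B.map φ).L0 := by
  refine le_antisymm (Submodule.span_le.2 ?_) (Submodule.smul_le.2 fun a ha m hm => ?_)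
  · rintro _ ⟨m, hm, rfl⟩
    refine Submodule.smul_induction_on hm (fun a ha n hn => ?_) fun x y hx hy => by
      rw [map_add]; exact add_mem hx hy
    rw [B.mapHom_smul0]
    exact Submodule.smul_mem_smul (Ideal.mem_map_of_mem _ ha) (Submodule.subset_span ⟨n, hn, rfl⟩)
  · refine Submodule.span_induction (p := fun a _ => a • m ∈ Submodule.span (D.R0 S)
      (B.mapHom φ '' (E.I0 • B.L0 : Submodule (D.R0 R) B.M))) ?_ ?_ ?_ ?_ ha
    · rintro _ ⟨i, hi, rfl⟩
      refine Submodule.span_induction ?_ ?_ ?_ ?_ hm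
      · rintro _ ⟨n, hn, rfl⟩
        rw [← B.mapHom_smul0]
        exact Submodule.subset_span ⟨i • n, Submodule.smul_mem_smul hi hn, rfl⟩
      · rw [smul_zero]; exact zero_mem _
      · intro x y _ _ hx hy; rw [smul_add]; exact add_mem hx hy
      · intro c x _ hx; rw [smul_comm]; exact Submodule.smul_mem _ _ hx
    · rw [zero_smul]; exact zero_mem _
    · intro a a' _ _ h h'; rw [add_smul]; exact add_mem h h'
    · intro c a _ h; rw [smul_assoc]; exact Submodule.smul_mem _ _ h

theorem span_mapHom_smul1 :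
    Submodule.span (D.R1 S) (B.mapHom φ '' (E.I1 • B.L1 : Submodule (D.R1 R) B.M)) =
      (E.map φ).I1 • (B.map φ).L1 := by
  refine le_antisymm (Submodule.span_le.2 ?_) (Submodule.smul_le.2 fun a ha m hm => ?_)
  · rintro _ ⟨m, hm, rfl⟩
    refine Submodule.smul_induction_on hm (fun a ha n hn => ?_) fun x y hx hy => by
      rw [map_add]; exact add_mem hx hy
    rw [B.mapHom_smul1]
    exact Submodule.smul_mem_smul (Ideal.mem_map_of_mem _ ha) (Submodule.subset_span ⟨n, hn, rfl⟩)
  · refine Submodule.span_induction (p := fun a _ => a • m ∈ Submodule.span (D.R1 S)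
      (B.mapHom φ '' (E.I1 • B.L1 : Submodule (D.R1 R) B.M))) ?_ ?_ ?_ ?_ ha
    · rintro _ ⟨i, hi, rfl⟩
      refine Submodule.span_induction ?_ ?_ ?_ ?_ hm
      · rintro _ ⟨n, hn, rfl⟩
        rw [← B.mapHom_smul1]
        exact Submodule.subset_span ⟨i • n, Submodule.smul_mem_smul hi hn, rfl⟩
      · rw [smul_zero]; exact zero_mem _
      · intro x y _ _ hx hy; rw [smul_add]; exact add_mem hx hy
      · intro c x _ hx; rw [smul_comm]; exact Submodule.smul_mem _ _ hx
    · rw [zero_smul]; exact zero_mem _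
    · intro a a' _ _ h h'; rw [add_smul]; exact add_mem h h'
    · intro c a _ h; rw [smul_assoc]; exact Submodule.smul_mem _ _ h

theorem map_twist : ((E.twist B).map φ).Isom ((E.map φ).twist (B.map φ)) := by
  let g : (E.twist B).M →+ ((E.map φ).twist (B.map φ)).M :=
    { toFun := fun z => ⟨B.mapHom φ (E.twistIncl B z), E.mapHom_mem B φ z.2⟩
      map_zero' := Subtype.ext ((congrArg (B.mapHom φ) (map_zero (E.twistIncl B))).trans
        (map_zero _))
      map_add' := fun a b => Subtype.ext ((congrArg (B.mapHom φ)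
        (map_add (E.twistIncl B) a b)).trans (map_add _ _ _)) }
  have hg : ∀ z, (E.map φ).twistIncl (B.map φ) (g z) = B.mapHom φ (E.twistIncl B z) := fun _ => rfl
  refine Bundle.IsPullback.isom_map (g := g) ⟨fun a m => ?_, ?_, ?_⟩
  · apply (E.map φ).incl_injective (B.map φ)
    refine ((hg (a • m)).trans ?_)
    refine ((congrArg (B.mapHom φ) (map_smul (E.twistIncl B) a m)).trans
      (B.mapHom_smul φ a _)).trans ?_
    exact (map_smul ((E.map φ).twistIncl (B.map φ)) (D.map01 φ a) (g m)).symm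
  · refine Submodule.map_injective_of_injective
      (f := Bundle.linear0 ((E.map φ).twistIncl (B.map φ))) ((E.map φ).incl_injective _) ?_
    rw [Submodule.map_span, map_twistIncl0, ← span_mapHom_smul0, ← Set.image_comp]
    apply congrArg
    rw [← E.map_twistIncl0 B, Submodule.map_coe, ← Set.image_comp]
    exact Set.image_congr fun z _ => hg z
  · refine Submodule.map_injective_of_injective
      (f := Bundle.linear1 ((E.map φ).twistIncl (B.map φ))) ((E.map φ).incl_injective _) ?_
    rw [Submodule.map_span, map_twistIncl1, ← span_mapHom_smul1, ← Set.image_comp]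
    apply congrArg
    rw [← E.map_twistIncl1 B, Submodule.map_coe, ← Set.image_comp]
    exact Set.image_congr fun z _ => hg z

theorem map_untwist :
    ((E.untwist B).map φ).Isom ((E.map φ).untwist (B.map φ)) :=
  ((E.swap.twist B).map_twistInfty φ E.d).trans ((E.swap.map_twist B φ).twistInfty _)

end Map

end Div

end ChartData

end FermatLib.AV
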