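import Fermat.Agent.AV.Jac.Core.Trivial
import Fermat.Agent.AV.Jac.Points.DivTwist

/-!
Twisting away from the marked section does not change rigidifiability.
-/

set_option autoImplicit false

universe u

open scoped TensorProduct

namespace FermatLib.AV

namespace ChartData

variable {k : Type u} [Field k] {D : ChartData k} {R : Type u} [CommRing R] [Algebra k R]

namespace Div

variable (E : D.Div R) (B : D.Bundle R)

theorem isRigidifiable_twist (h : IsUnit (D.εR R E.P0)) (hB : B.IsRigidifiable) :
    (E.twist B).IsRigidifiable := by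
  obtain ⟨e⟩ := hB
  obtain ⟨u, hu⟩ := h
  -- a multiple of `P0` congruent to one along the section
  let b : D.R0 R := algebraMap R (D.R0 R) (↑u⁻¹ : R) * E.P0
  have hb : (1 - b) ∈ RingHom.ker (D.εR R) := by
    simp only [b, RingHom.mem_ker, map_sub, map_mul, map_one, AlgHom.commutes, Algebra.algebraMap_self,
      RingHom.id_apply, ← hu, Units.inv_mul, sub_self]
  have hbI : b ∈ E.I0 := Ideal.mul_mem_left _ _ E.P0_mem
  have hsub : ∀ l : (E.twist B).L0, E.twistIncl B l ∈ B.L0 := fun l =>
    (Submodule.smul_le_right : E.I0 • B.L0 ≤ B.L0) l.2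
  let f : (E.twist B).L0 →ₗ[R] B.L0 :=
    { toFun := fun l => ⟨E.twistIncl B l, hsub l⟩
      map_add' := fun l l' => Subtype.ext (map_add (E.twistIncl B) _ _)
      map_smul' := fun r l => Subtype.ext ((E.twistIncl B).map_smul_of_tower r _) }
  let g : (E.twist B).L0 →ₗ[R] B.L0 ⧸ B.epsSubmodule :=
    ((Submodule.mkQ B.epsSubmodule).restrictScalars R).comp f
  have hgs : Function.Surjective g := fun z => by
    obtain ⟨l, rfl⟩ := Submodule.mkQ_surjective _ z
    have hmem : b • (l : B.M) ∈ E.I0 • B.L0 := Submodule.smul_mem_smul hbI l.2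
    refine ⟨⟨⟨_, E.smul0_le B _ hmem⟩, hmem⟩, (Submodule.Quotient.eq _).2 ?_⟩
    have : (⟨b • (l : B.M), B.L0.smul_mem b l.2⟩ : B.L0) - l = (-(1 - b)) • l :=
      Subtype.ext (by
        rw [Submodule.coe_sub, Submodule.coe_smul, neg_sub, sub_smul, one_smul])
    change (⟨b • (l : B.M), _⟩ : B.L0) - l ∈ B.epsSubmodule
    rw [this]
    exact Submodule.smul_mem_smul (neg_mem hb) trivial
  have hgk : LinearMap.ker g = (E.twist B).epsSubmodule.restrictScalars R := by
    ext l
    rw [LinearMap.mem_ker, Submodule.restrictScalars_mem]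
    change Submodule.Quotient.mk (f l) = 0 ↔ _
    rw [Submodule.Quotient.mk_eq_zero]
    let j : (E.twist B).L0 →ₗ[D.R0 R] B.M :=
      (Bundle.linear0 (E.twistIncl B)).comp (E.twist B).L0.subtype
    have hj : Function.Injective j := (E.incl_injective B).comp Subtype.val_injective
    have hmap : (E.twist B).epsSubmodule.map j =
        RingHom.ker (D.εR R) • (E.I0 • B.L0) := by
      rw [Bundle.epsSubmodule, Submodule.map_smul'']
      congr 1
      rw [show j = (Bundle.linear0 (E.twistIncl B)).comp (E.twist B).L0.subtype from rfl,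
        Submodule.map_comp, Submodule.map_subtype_top, map_twistIncl0]
    have hB0 : B.epsSubmodule.map B.L0.subtype = RingHom.ker (D.εR R) • B.L0 := by
      rw [Bundle.epsSubmodule, Submodule.map_smul'', Submodule.map_subtype_top]
    constructor
    · intro hl
      have h1 : j l ∈ RingHom.ker (D.εR R) • B.L0 := hB0 ▸ ⟨f l, hl, rfl⟩
      have h2 : j l ∈ E.I0 • B.L0 := l.2
      have h3 : j l ∈ RingHom.ker (D.εR R) • (E.I0 • B.L0) := by
        have he : j l = (1 - b) • j l + b • j l := by rw [← add_smul, sub_add_cancel, one_smul]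
        rw [he]
        refine add_mem (Submodule.smul_mem_smul hb h2) ?_
        refine Submodule.smul_induction_on h1 (fun a ha n hn => ?_) fun x y hx hy => by
          rw [smul_add]; exact add_mem hx hy
        rw [smul_comm b a n]
        exact Submodule.smul_mem_smul ha (Submodule.smul_mem_smul hbI hn)
      rw [← hmap] at h3
      obtain ⟨l', hl', he⟩ := h3
      exact hj he ▸ hl'
    · intro hl
      have h1 : j l ∈ RingHom.ker (D.εR R) • B.L0 := by
        have h := hmap ▸ Submodule.mem_map_of_mem (f := j) hl
        exact Submodule.smul_mono le_rfl Submodule.smul_le_right h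
      rw [← hB0] at h1
      obtain ⟨l', hl', he⟩ := h1
      have : f l = l' := Subtype.ext he.symm
      rw [this]
      exact hl'
  exact ⟨(((Submodule.Quotient.restrictScalarsEquiv R _).symm.trans
    (Submodule.quotEquivOfEq _ _ hgk.symm)).trans (g.quotKerEquivOfSurjective hgs)).trans e⟩

theorem isRigidifiable_untwist (h : IsUnit (D.εR R E.P0)) (hB : B.IsRigidifiable) :
    (E.untwist B).IsRigidifiable :=
  E.swap.isRigidifiable_twist B h hB

end Div

theorem Bundle.isRigidifiable_twistInfty {B : D.Bundle R} (d : ℤ) (hB : B.IsRigidifiable) :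
    (B.twistInfty d).IsRigidifiable :=
  hB

end ChartData

end FermatLib.AV
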