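import Fermat.Agent.AV.Jac.Points.TwistChi
import Fermat.Agent.AV.Jac.Points.Rigid

/-!
The standard twists: multiples of the fibre at infinity minus rational points of the overlap.
-/

set_option autoImplicit false
set_option linter.unusedSectionVars false

universe u

open scoped TensorProduct

namespace FermatLib.AV

namespace Points

/-- A nonzero element of a change of coefficients is nonzero at some rational point avoiding the
zeros of a given nonzero element. -/
theorem exists_point_ne_zero {k K A : Type u} [Field k] [IsAlgClosed k] [CommRing K] [Algebra k K]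
    [CommRing A] [Algebra k A] [IsDomain A] [Algebra.FiniteType k A] {z : K ⊗[k] A} (hz : z ≠ 0)
    {x : A} (hx : x ≠ 0) :
    ∃ q : A →ₐ[k] k, q x ≠ 0 ∧
      Algebra.TensorProduct.lift (AlgHom.id K K) ((Algebra.ofId k K).comp q)
        (fun _ _ => Commute.all _ _) z ≠ 0 := by
  classical
  let b := Module.Basis.ofVectorSpace k K
  let c : (i : Module.Basis.ofVectorSpaceIndex k K) → (K ⊗[k] A →ₗ[k] A) := fun i =>
    (TensorProduct.lid k A).toLinearMap.comp ((b.coord i).rTensor A)
  obtain ⟨i, hi⟩ : ∃ i, c i z ≠ 0 := by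
    by_contra h
    simp only [not_exists, not_not] at h
    refine hz ((TensorProduct.equivFinsuppOfBasisLeft b).injective ?_)
    rw [map_zero]
    ext i
    rw [Finsupp.zero_apply, ← h i]
    clear h hz
    induction z using TensorProduct.induction_on with
    | zero => simp
    | tmul r a => simp [c, TensorProduct.equivFinsuppOfBasisLeft_apply_tmul, LinearMap.rTensor_tmul,
        Module.Basis.coord_apply]
    | add a a' ha ha' => rw [map_add, map_add, Finsupp.add_apply, ha, ha']
  have hjac : Ideal.jacobson (⊥ : Ideal A) = ⊥ := by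
    have : IsJacobsonRing A := isJacobsonRing_of_finiteType (A := k)
    exact isJacobsonRing_iff.1 this ⊥ Ideal.isPrime_bot.isRadical
  obtain ⟨m, hm, hmem⟩ : ∃ m : Ideal A, m.IsMaximal ∧ c i z * x ∉ m := by
    by_contra h
    simp only [not_exists, not_and, not_not] at h
    have hmem : c i z * x ∈ Ideal.jacobson (⊥ : Ideal A) :=
      Submodule.mem_sInf.2 fun m hm => h m hm.2
    rw [hjac, Ideal.mem_bot] at hmem
    exact mul_ne_zero hi hx hmem
  let _ := Ideal.Quotient.field m
  have : Algebra.FiniteType k (A ⧸ m) :=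
    Algebra.FiniteType.of_surjective (Ideal.Quotient.mkₐ k m) (Ideal.Quotient.mkₐ_surjective k m)
  have : Module.Finite k (A ⧸ m) := finite_of_finite_type_of_isJacobsonRing k _
  have hbij : Function.Bijective (algebraMap k (A ⧸ m)) :=
    IsAlgClosed.algebraMap_bijective_of_isIntegral
  let q : A →ₐ[k] k :=
    (AlgEquiv.ofBijective (Algebra.ofId k _) hbij).symm.toAlgHom.comp (Ideal.Quotient.mkₐ k m)
  have hq : ∀ a, q a = 0 ↔ a ∈ m := fun a => by
    simp only [q, AlgHom.comp_apply, Ideal.Quotient.mkₐ_eq_mk]
    exact (map_eq_zero_iff _ (AlgEquiv.injective _)).trans Ideal.Quotient.eq_zero_iff_mem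
  refine ⟨q, fun h => hmem (Ideal.mul_mem_left _ _ ((hq x).1 h)), fun h => ?_⟩
  refine hmem (Ideal.mul_mem_right _ _ ((hq _).1 ?_))
  have key : ∀ w : K ⊗[k] A, q (c i w) = b.coord i
      (Algebra.TensorProduct.lift (AlgHom.id K K) ((Algebra.ofId k K).comp q)
        (fun _ _ => Commute.all _ _) w) := by
    intro w
    induction w using TensorProduct.induction_on with
    | zero => simp
    | tmul r a =>
      have h1 : c i (r ⊗ₜ a) = b.coord i r • a := by simp [c]
      rw [h1, map_smul, Algebra.TensorProduct.lift_tmul]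
      change b.coord i r • q a = b.coord i (r * algebraMap k K (q a))
      rw [mul_comm, ← Algebra.smul_def, map_smul, smul_eq_mul, smul_eq_mul, mul_comm]
    | add a a' ha ha' => simp only [map_add, ha, ha']
  rw [key, h, map_zero]

end Points

namespace ChartData

variable {k : Type u} [Field k] (D : ChartData k)

/-- Indices of the standard twists: a multiple of the fibre at infinity and a list of rational
points of the overlap. -/
abbrev TwistIndex : Type u := ℤ × List (D.A01 →ₐ[k] k)

variable {D} [IsAlgClosed k] {R : Type u} [CommRing R] [Algebra k R]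

/-- The divisor of a rational point of the overlap. -/
noncomputable def ratPoint (q : D.A01 →ₐ[k] k) (R : Type u) [CommRing R] [Algebra k R] : D.Div R :=
  point0 ((Algebra.ofId k R).comp (q.comp D.j0))

theorem ratPoint_x_ne_zero (q : D.A01 →ₐ[k] k) : q (D.j0 D.x) ≠ 0 := fun h => by
  have h' := congrArg q D.x_mul_y
  rw [map_mul, h, zero_mul, map_one] at h'
  exact zero_ne_one h'

/-- Twisting down by a list of rational points. -/
noncomputable def twistList : List (D.A01 →ₐ[k] k) → D.Bundle R → D.Bundle R
  | [], B => B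
  | q :: l, B => (ratPoint q R).twist (twistList l B)

/-- Twisting up by a list of rational points. -/
noncomputable def untwistList : List (D.A01 →ₐ[k] k) → D.Bundle R → D.Bundle R
  | [], B => B
  | q :: l, B => untwistList l ((ratPoint q R).untwist B)

/-- The twist with index `i`. -/
noncomputable def twistBy (i : D.TwistIndex) (B : D.Bundle R) : D.Bundle R :=
  twistList i.2 (B.twistInfty i.1)

/-- The inverse of the twist with index `i`. -/
noncomputable def untwistBy (i : D.TwistIndex) (B : D.Bundle R) : D.Bundle R :=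
  (untwistList i.2 B).twistInfty (-i.1)

/-- The change of the characteristic under a twist. -/
def twistShift (i : D.TwistIndex) : ℤ := i.1 * D.n - i.2.length

theorem isom_twistList (l : List (D.A01 →ₐ[k] k)) {B B' : D.Bundle R} (h : B.Isom B') :
    (twistList l B).Isom (twistList l B') := by
  induction l with
  | nil => exact h
  | cons q l ih => exact (ratPoint q R).isom_twist ih

theorem isom_untwistList (l : List (D.A01 →ₐ[k] k)) {B B' : D.Bundle R} (h : B.Isom B') :
    (untwistList l B).Isom (untwistList l B') := by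
  induction l generalizing B B' with
  | nil => exact h
  | cons q l ih => exact ih ((ratPoint q R).isom_untwist h)

theorem untwistList_twistList (l : List (D.A01 →ₐ[k] k)) (B : D.Bundle R) :
    (untwistList l (twistList l B)).Isom B := by
  induction l with
  | nil => exact Bundle.Isom.refl B
  | cons q l ih => exact (isom_untwistList l ((ratPoint q R).untwist_twist _)).trans ih

theorem twistList_untwistList (l : List (D.A01 →ₐ[k] k)) (B : D.Bundle R) :
    (twistList l (untwistList l B)).Isom B := by
  induction l generalizing B with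
  | nil => exact Bundle.Isom.refl B
  | cons q l ih => exact ((ratPoint q R).isom_twist (ih _)).trans ((ratPoint q R).twist_untwist B)

theorem isom_twistBy (i : D.TwistIndex) {B B' : D.Bundle R} (h : B.Isom B') :
    (twistBy i B).Isom (twistBy i B') :=
  isom_twistList _ (h.twistInfty _)

theorem isom_untwistBy (i : D.TwistIndex) {B B' : D.Bundle R} (h : B.Isom B') :
    (untwistBy i B).Isom (untwistBy i B') :=
  (isom_untwistList _ h).twistInfty _

theorem untwistBy_twistBy (i : D.TwistIndex) (B : D.Bundle R) :
    (untwistBy i (twistBy i B)).Isom B :=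
  (((untwistList_twistList _ _).twistInfty _).trans (B.twistInfty_twistInfty _ _)).trans
    (by rw [add_neg_cancel]; exact B.twistInfty_zero)

theorem twistBy_untwistBy (i : D.TwistIndex) (B : D.Bundle R) :
    (twistBy i (untwistBy i B)).Isom B :=
  (isom_twistList _ (((untwistList i.2 B).twistInfty_twistInfty _ _).trans
    (by rw [neg_add_cancel]; exact (untwistList i.2 B).twistInfty_zero))).trans
    (twistList_untwistList _ B)

variable {S : Type u} [CommRing S] [Algebra k S]

theorem map_ratPoint (q : D.A01 →ₐ[k] k) (φ : R →ₐ[k] S) :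
    ((ratPoint q R).map φ).I0 = (ratPoint q S).I0 ∧
      ((ratPoint q R).map φ).I1 = (ratPoint q S).I1 := by
  have h : φ.comp ((Algebra.ofId k R).comp (q.comp D.j0)) =
      (Algebra.ofId k S).comp (q.comp D.j0) := AlgHom.ext fun a => φ.commutes _
  exact ⟨(map_point0_I0 _ φ).trans (congrArg (fun c => (point0 c).I0) h),
    (map_point0_I1 _ φ).trans (congrArg (fun c => (point0 c).I1) h)⟩

theorem map_twistList (l : List (D.A01 →ₐ[k] k)) (φ : R →ₐ[k] S) (B : D.Bundle R) :
    ((twistList l B).map φ).Isom (twistList l (B.map φ)) := by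
  induction l with
  | nil => exact Bundle.Isom.refl _
  | cons q l ih =>
    exact ((Div.map_twist _ _ φ).trans (Div.isom_twist _ ih)).trans
      (Div.twist_congr _ (map_ratPoint q φ).1 (map_ratPoint q φ).2)

theorem map_untwistList (l : List (D.A01 →ₐ[k] k)) (φ : R →ₐ[k] S) (B : D.Bundle R) :
    ((untwistList l B).map φ).Isom (untwistList l (B.map φ)) := by
  induction l generalizing B with
  | nil => exact Bundle.Isom.refl _
  | cons q l ih =>
    exact (ih _).trans (isom_untwistList l ((Div.map_untwist _ _ φ).trans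
      (Div.untwist_congr _ (map_ratPoint q φ).1 (map_ratPoint q φ).2)))

theorem map_twistBy (i : D.TwistIndex) (φ : R →ₐ[k] S) (B : D.Bundle R) :
    ((twistBy i B).map φ).Isom (twistBy i (B.map φ)) :=
  (map_twistList _ φ _).trans (isom_twistList _ (B.map_twistInfty φ _))

theorem map_untwistBy (i : D.TwistIndex) (φ : R →ₐ[k] S) (B : D.Bundle R) :
    ((untwistBy i B).map φ).Isom (untwistBy i (B.map φ)) :=
  ((untwistList i.2 B).map_twistInfty φ _).trans ((map_untwistList _ φ B).twistInfty _)

theorem isUnit_εR_ratPoint (q : D.A01 →ₐ[k] k) :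
    IsUnit (D.εR R (ratPoint q R).P0) := by
  rw [ratPoint, εR_point0_P0]
  exact ((Ne.isUnit (ratPoint_x_ne_zero q)).map (algebraMap k R)).neg

theorem isRigidifiable_twistList (l : List (D.A01 →ₐ[k] k)) {B : D.Bundle R}
    (hB : B.IsRigidifiable) : (twistList l B).IsRigidifiable := by
  induction l with
  | nil => exact hB
  | cons q l ih => exact Div.isRigidifiable_twist _ _ (isUnit_εR_ratPoint q) ih

theorem isRigidifiable_untwistList (l : List (D.A01 →ₐ[k] k)) {B : D.Bundle R}
    (hB : B.IsRigidifiable) : (untwistList l B).IsRigidifiable := by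
  induction l generalizing B with
  | nil => exact hB
  | cons q l ih => exact ih (Div.isRigidifiable_untwist _ _ (isUnit_εR_ratPoint q) hB)

theorem isRigidifiable_twistBy (i : D.TwistIndex) {B : D.Bundle R} (hB : B.IsRigidifiable) :
    (twistBy i B).IsRigidifiable :=
  isRigidifiable_twistList _ (Bundle.isRigidifiable_twistInfty _ hB)

theorem isRigidifiable_untwistBy (i : D.TwistIndex) {B : D.Bundle R} (hB : B.IsRigidifiable) :
    (untwistBy i B).IsRigidifiable :=
  Bundle.isRigidifiable_twistInfty _ (isRigidifiable_untwistList _ hB)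

variable {K : Type u} [Field K] [Algebra k K]

theorem chi_twistInfty (B : D.Bundle K) (m : ℤ) : (B.twistInfty m).chi = B.chi + m * D.n := by
  have hnat : ∀ (B : D.Bundle K) (N : ℕ), (B.twistInfty N).chi = B.chi + N * D.n := fun B N => by
    rw [← B.chi_twist_xAut N, Bundle.twistInfty, zpow_natCast]
  rcases m with N | N
  · exact hnat B N
  · have h := hnat (B.twistInfty (Int.negSucc N)) (N + 1)
    rw [(B.twistInfty_twistInfty _ _).chi_eq,
      show Int.negSucc N + ((N + 1 : ℕ) : ℤ) = 0 by omega, B.twistInfty_zero.chi_eq] at h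
    rw [show (Int.negSucc N : ℤ) = -((N + 1 : ℕ) : ℤ) from rfl] at h ⊢
    linarith

theorem chi_twistList (l : List (D.A01 →ₐ[k] k)) (B : D.Bundle K) :
    (twistList l B).chi = B.chi - l.length := by
  induction l with
  | nil => simp [twistList]
  | cons q l ih =>
    rw [twistList, ratPoint, chi_twist_point0, ih, List.length_cons]
    push_cast
    ring

theorem chi_twistBy (i : D.TwistIndex) (B : D.Bundle K) :
    (twistBy i B).chi = B.chi + twistShift i := by
  rw [twistBy, chi_twistList, chi_twistInfty, twistShift]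
  ring

theorem chi_untwistBy (i : D.TwistIndex) (B : D.Bundle K) :
    (untwistBy i B).chi = B.chi - twistShift i := by
  have h := chi_twistBy i (untwistBy i B)
  rw [(twistBy_untwistBy i B).chi_eq] at h
  linarith

/-- A nonzero section does not vanish at some rational point of the overlap. -/
theorem exists_ratPoint_notMem (B : D.Bundle K) {s : B.M} (hs : s ∈ B.L0) (hs0 : s ≠ 0) :
    ∃ q : D.A01 →ₐ[k] k, s ∉ (ratPoint q K).I01 • (⊤ : Submodule (D.R01 K) B.M) := by
  have := D.isDomain_A0
  have := D.finiteType_A0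
  obtain ⟨r, e, f, -, hfsmul, hdec⟩ := B.exists_coords0
  obtain ⟨c, hc, hsum⟩ := hdec s hs
  obtain ⟨j, hj⟩ : ∃ j, c j ≠ 0 := by
    by_contra h
    simp only [not_exists, not_not] at h
    exact hs0 (by rw [hsum]; simp [h])
  obtain ⟨q0, hq0x, hq0⟩ := Points.exists_point_ne_zero hj D.x_ne_zero
  let := D.j0.toRingHom.toAlgebra
  have hsc : IsScalarTower k D.A0 D.A01 := IsScalarTower.of_algebraMap_eq fun a => (D.j0.commutes a).symm
  have := D.isLoc0
  have hu : IsUnit (q0 D.x) := Ne.isUnit hq0x
  let q : D.A01 →ₐ[k] k :=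
    IsLocalization.liftAlgHom (M := Submonoid.powers D.x) (f := q0) (S := D.A01) (by
      rintro ⟨_, N, rfl⟩
      simpa using hu.pow N)
  have hq : q.comp D.j0 = q0 := AlgHom.ext fun a =>
    IsLocalization.lift_eq (M := Submonoid.powers D.x) _ a
  refine ⟨q, fun hN => hq0 ?_⟩
  rw [ratPoint, hq] at hN
  have hx' : ((Algebra.ofId k K).comp q0) D.x ≠ 0 := (hu.map (algebraMap k K)).ne_zero
  have hI := mem_I0_smul _ B hx' hs hN
  have hjI : c j ∈ (point0 ((Algebra.ofId k K).comp q0)).I0 := by
    suffices ∀ m ∈ (point0 ((Algebra.ofId k K).comp q0)).I0 • B.L0,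
        ∃ a ∈ (point0 ((Algebra.ofId k K).comp q0)).I0, f j m = D.r0 K a by
      obtain ⟨a, ha, hfa⟩ := this s hI
      rw [hc] at hfa
      exact D.r0_injective K hfa ▸ ha
    intro m hm
    refine Submodule.smul_induction_on hm (fun a ha n hn => ?_) ?_
    · obtain ⟨cn, hcn, -⟩ := hdec n hn
      exact ⟨a * cn j, Ideal.mul_mem_right _ _ ha, by rw [← B.smul0, hfsmul, hcn, map_mul]⟩
    · rintro x y ⟨a, ha, hxa⟩ ⟨b, hb, hyb⟩
      exact ⟨a + b, add_mem ha hb, by rw [map_add, map_add, hxa, hyb]⟩
  rw [point0_I0_eq_ker] at hjI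
  exact hjI

/-- Cover lemma: every degree zero bundle has an acyclic standard twist. -/
theorem exists_twistBy_isAcyclic (B : D.Bundle K) (_hB : B.IsDegZero) :
    ∃ i : D.TwistIndex, (twistBy i B).IsAcyclic := by
  obtain ⟨N, hN⟩ := B.exists_twist_sup_eq_top
  let B₀ := B.twistInfty (N : ℤ)
  have h1 : Module.finrank K B₀.H1 = 0 := by
    have h := hN N le_rfl
    have : Subsingleton B₀.H1 := B₀.subsingleton_H1_iff.2 (by
      change B.L0.restrictScalars K ⊔ (B.twistL1 (B.xAut ^ (N : ℤ))).restrictScalars K = ⊤
      rw [zpow_natCast]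
      exact h)
    exact Module.finrank_zero_of_subsingleton
  suffices key : ∀ (h : ℕ) (B₀ : D.Bundle K), Module.finrank K B₀.H1 = 0 →
      Module.finrank K B₀.H0 = h → ∃ l, (twistList l B₀).IsAcyclic by
    obtain ⟨l, hl⟩ := key _ B₀ h1 rfl
    exact ⟨((N : ℤ), l), hl⟩
  intro h
  induction h using Nat.strong_induction_on with
  | _ h ih =>
  intro B₀ h1 h0
  have := B₀.finite_H0_field
  have := B₀.finite_H1
  have h1' : Subsingleton B₀.H1 := Module.finrank_zero_iff.1 h1
  by_cases hbot : B₀.H0 = ⊥
  · refine ⟨[], ?_⟩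
    exact ⟨disjoint_iff.2 hbot, codisjoint_iff.2 (B₀.subsingleton_H1_iff.1 h1')⟩
  obtain ⟨s, hs, hs0⟩ := (Submodule.ne_bot_iff _).1 hbot
  obtain ⟨q, hq⟩ := exists_ratPoint_notMem B₀ hs.1 hs0
  have hlt := finrank_H0_twist_lt _ B₀ hs hq
  have hchi : ((ratPoint q K).twist B₀).chi = B₀.chi - 1 := chi_twist_point0 _ B₀
  have hh1 : Module.finrank K ((ratPoint q K).twist B₀).H1 = 0 := by
    unfold Bundle.chi at hchi
    change Module.finrank K ((ratPoint q K).twist B₀).H0 < _ at hlt
    omega
  obtain ⟨l, hl⟩ := ih _ (h0 ▸ hlt) _ hh1 rfl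
  refine ⟨l ++ [q], ?_⟩
  have : ∀ l : List (D.A01 →ₐ[k] k),
      twistList (l ++ [q]) B₀ = twistList l ((ratPoint q K).twist B₀) := by
    intro l
    induction l with
    | nil => rfl
    | cons q' l ih => simp only [List.cons_append, twistList, ih]
  rw [this]
  exact hl

end ChartData

end FermatLib.AV
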