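import Fermat.Agent.AV.Jac.Points.Effective

/-!
Universal rings of tuples of sections, and integrality of sections over valuation rings.
-/

set_option autoImplicit false
set_option linter.unusedSectionVars false

universe u

open scoped TensorProduct

namespace FermatLib.AV

namespace ChartData

variable {k : Type u} [Field k] (D : ChartData k)

/-- Tensoring a domain with the coordinate ring of the first chart gives a domain. -/
theorem isDomain_tensor_A0 (S : Type u) [CommRing S] [Algebra k S] [IsDomain S] :
    IsDomain (S ⊗[k] D.A0) := by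
  let ι : S →ₐ[k] FractionRing S := IsScalarTower.toAlgHom k S (FractionRing S)
  have := D.isDomain0 (FractionRing S)
  have hinj : Function.Injective (Algebra.TensorProduct.map ι (AlgHom.id k D.A0)) :=
    Module.Flat.rTensor_preserves_injective_linearMap (M := D.A0) ι.toLinearMap
      (IsFractionRing.injective S (FractionRing S))
  exact hinj.isDomain _

/-- A ring carrying a universal tuple of sections of the first chart. -/
theorem exists_tupleRing (N : ℕ) :
    ∃ (R : Type u) (_ : CommRing R) (_ : Algebra k R) (φ : Fin N → (D.A0 →ₐ[k] R)),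
      Algebra.FiniteType k R ∧ (∀ (K : Type u) [Field K] [Algebra k K], IsDomain (K ⊗[k] R)) ∧
      ∀ (S : Type u) [CommRing S] [Algebra k S] (v : Fin N → (D.A0 →ₐ[k] S)),
        ∃ f : R →ₐ[k] S, ∀ i, f.comp (φ i) = v i := by
  induction N with
  | zero =>
    refine ⟨k, inferInstance, inferInstance, Fin.elim0, inferInstance, fun K _ _ => ?_,
      fun S _ _ _ => ⟨Algebra.ofId k S, fun i => i.elim0⟩⟩
    exact (Algebra.TensorProduct.rid k k K).injective.isDomain
      (Algebra.TensorProduct.rid k k K).toRingHom
  | succ N ih =>
    obtain ⟨R, _, _, φ, hfin, hdom, huniv⟩ := ih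
    refine ⟨R ⊗[k] D.A0, inferInstance, inferInstance,
      Fin.cons Algebra.TensorProduct.includeRight
        (fun i => Algebra.TensorProduct.includeLeft.comp (φ i)), ?_, fun K _ _ => ?_,
      fun S _ _ v => ?_⟩
    · have := D.finiteType_A0
      exact Algebra.FiniteType.trans (S := R) hfin inferInstance
    · have := hdom K
      have := D.isDomain_tensor_A0 (K ⊗[k] R)
      exact (Algebra.TensorProduct.assoc k k k K R D.A0).symm.injective.isDomain
        (Algebra.TensorProduct.assoc k k k K R D.A0).symm.toRingHom
    · obtain ⟨f, hf⟩ := huniv S fun i => v i.succ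
      refine ⟨Algebra.TensorProduct.lift f (v 0) fun _ _ => Commute.all _ _, fun i => ?_⟩
      refine Fin.cases ?_ (fun i => ?_) i
      · exact Algebra.TensorProduct.lift_comp_includeRight' _ _ _
      · rw [Fin.cons_succ, ← AlgHom.comp_assoc, Algebra.TensorProduct.lift_comp_includeLeft, hf]

/-- The first chart is finite over the polynomials in the coordinate. -/
theorem isIntegral_A0 (a : D.A0) : ∃ q : Polynomial (Polynomial k), q.Monic ∧
    Polynomial.eval₂ (Polynomial.aeval D.x).toRingHom a q = 0 := by
  let : Algebra (Polynomial k) D.A0 := (Polynomial.aeval D.x).toRingHom.toAlgebra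
  have : Module.Finite (Polynomial k) D.A0 := by
    classical
    refine ⟨⟨Finset.univ.image D.b0, eq_top_iff.2 fun a _ => ?_⟩⟩
    obtain ⟨p, rfl⟩ := D.basis0.2 a
    refine Submodule.sum_mem _ fun i _ => ?_
    have h : Polynomial.aeval D.x (p i) * D.b0 i = p i • D.b0 i := rfl
    rw [h]
    exact Submodule.smul_mem _ _ (Submodule.subset_span (Finset.mem_coe.2
      (Finset.mem_image.2 ⟨i, Finset.mem_univ _, rfl⟩)))
  exact Algebra.IsIntegral.isIntegral (R := Polynomial k) a

/-- The second chart is finite over the polynomials in the coordinate. -/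
theorem isIntegral_A1 (a : D.A1) : ∃ q : Polynomial (Polynomial k), q.Monic ∧
    Polynomial.eval₂ (Polynomial.aeval D.y).toRingHom a q = 0 := by
  let : Algebra (Polynomial k) D.A1 := (Polynomial.aeval D.y).toRingHom.toAlgebra
  have : Module.Finite (Polynomial k) D.A1 := by
    classical
    refine ⟨⟨Finset.univ.image D.b1, eq_top_iff.2 fun a _ => ?_⟩⟩
    obtain ⟨p, rfl⟩ := D.basis1.2 a
    refine Submodule.sum_mem _ fun i _ => ?_
    have h : Polynomial.aeval D.y (p i) * D.b1 i = p i • D.b1 i := rfl
    rw [h]
    exact Submodule.smul_mem _ _ (Submodule.subset_span (Finset.mem_coe.2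
      (Finset.mem_image.2 ⟨i, Finset.mem_univ _, rfl⟩)))
  exact Algebra.IsIntegral.isIntegral (R := Polynomial k) a

variable {D}

/-- A map into a field of a finite extension of polynomials lands in an integrally closed subring
containing the image of the coordinate. -/
theorem exists_factor_of_isIntegral {A V L : Type u} [CommRing A] [Algebra k A] [CommRing V]
    [IsDomain V] [IsIntegrallyClosed V] [Algebra k V] [Field L] [Algebra k L] [Algebra V L]
    [IsScalarTower k V L] (hV : Function.Injective (algebraMap V L))
    (hclosed : ∀ z : L, IsIntegral V z → z ∈ (algebraMap V L).range) {t : A}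
    (hint : ∀ a : A, ∃ q : Polynomial (Polynomial k), q.Monic ∧
      Polynomial.eval₂ (Polynomial.aeval t).toRingHom a q = 0)
    (f : A →ₐ[k] L) (ht : f t ∈ (algebraMap V L).range) :
    ∃ g : A →ₐ[k] V, (IsScalarTower.toAlgHom k V L).comp g = f := by
  obtain ⟨v, hv⟩ := ht
  have hmem : ∀ a, f a ∈ (IsScalarTower.toAlgHom k V L).range := fun a => by
    refine hclosed _ ?_
    obtain ⟨q, hq, hq0⟩ := hint a
    refine ⟨q.map (Polynomial.aeval v).toRingHom, hq.map _, ?_⟩
    have h := congrArg f hq0
    rw [map_zero] at h
    rw [Polynomial.eval₂_map, show (algebraMap V L).comp (Polynomial.aeval v).toRingHom =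
      f.toRingHom.comp (Polynomial.aeval t).toRingHom from Polynomial.ringHom_ext
        (fun r => by simp [← IsScalarTower.algebraMap_apply]) (by simp [hv]),
      show f a = f.toRingHom a from rfl, ← Polynomial.hom_eval₂]
    exact h
  let e := AlgEquiv.ofInjective (IsScalarTower.toAlgHom k V L) hV
  refine ⟨e.symm.toAlgHom.comp (f.codRestrict _ hmem), AlgHom.ext fun a => ?_⟩
  exact congrArg Subtype.val (e.apply_symm_apply ⟨f a, hmem a⟩)

end ChartData

end FermatLib.AV
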