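import Fermat.Agent.AV.Jac.DegreeEquiv
import Fermat.Agent.AV.Jac.Points.TupleRing

/-!
Bundles of degree zero over an algebraically closed field are algebraically equivalent to zero.
-/

set_option autoImplicit false
set_option linter.style.haveILetI false

universe u

open CategoryTheory CategoryTheory.Limits AlgebraicGeometry NeronModelInfra AlgebraicGeometry.RelPicard
open scoped TensorProduct

noncomputable section

namespace FermatLib.AV

/-- The spectrum of an algebra which stays a domain under field extensions is geometrically
integral. -/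
theorem geometricallyIntegral_specStr (K A : Type u) [Field K] [CommRing A] [Algebra K A]
    (hA : ∀ (L : Type u) [Field L] [Algebra K L], IsDomain (L ⊗[K] A)) :
    GeometricallyIntegral (specStr K A) := by
  constructor
  intro L _ y Z fst snd hpb
  obtain ⟨φ, rfl⟩ := Spec.map_surjective y
  algebraize [φ.hom]
  replace hpb : IsPullback fst snd (specStr K A) (specStr K L) := hpb
  have := hA L
  have : IsDomain (A ⊗[K] L) := (Algebra.TensorProduct.comm K A L).injective.isDomain
    (Algebra.TensorProduct.comm K A L).toRingHom
  have : IsIntegral (pullback (specStr K A) (specStr K L)) :=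
    IsIntegral.of_isIso (pullbackSpecIso K A L).inv
  exact IsIntegral.of_isIso hpb.isoPullback.inv

namespace ChartData

variable {k : Type u} [Field k] [IsAlgClosed k] (D : ChartData k)

/-- All bundles of degree zero over an algebraically closed field are members of one family over a
base which is geometrically integral and of finite type. -/
theorem exists_integral_family (K : Type u) [Field K] [Algebra k K] [IsAlgClosed K] :
    ∃ (A : Type u) (_ : CommRing A) (_ : Algebra K A) (_ : Algebra k A) (_ : IsScalarTower k K A)
      (BA : D.Bundle A), Algebra.FiniteType K A ∧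
      (∀ (L : Type u) [Field L] [Algebra K L], IsDomain (L ⊗[K] A)) ∧
      ∀ B : D.Bundle K, B.IsDegZero →
        ∃ f : A →ₐ[K] K, (BA.map (f.restrictScalars k)).Isom B := by
  obtain ⟨R, _, _, φ, hfin, hdom, huniv⟩ := D.exists_tupleRing (D.bigMult * D.n)
  let ι : R →ₐ[k] K ⊗[k] R := Algebra.TensorProduct.includeRight
  refine ⟨K ⊗[k] R, inferInstance, inferInstance, inferInstance, inferInstance,
    pointFamily D.bigMult ((List.ofFn φ).map ι.comp), inferInstance, fun L _ _ => ?_,
    fun B hB => ?_⟩
  · let : Algebra k L := ((algebraMap K L).comp (algebraMap k K)).toAlgebra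
    have : IsScalarTower k K L := IsScalarTower.of_algebraMap_eq fun _ => rfl
    have := hdom L
    exact (Algebra.TensorProduct.cancelBaseChange k K L L R).injective.isDomain
      (Algebra.TensorProduct.cancelBaseChange k K L L R).toRingHom
  · obtain ⟨l, hl, hiso⟩ := B.isDegZero_iff_exists_pointFamily.1 hB
    obtain ⟨f0, hf0⟩ := huniv K fun i => l.get (Fin.cast hl.symm i)
    refine ⟨Algebra.TensorProduct.lift (AlgHom.id K K) f0 fun _ _ => Commute.all _ _, ?_⟩
    refine (map_pointFamily _ _ _).trans ?_
    have hcomp : ((Algebra.TensorProduct.lift (AlgHom.id K K) f0 fun _ _ =>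
        Commute.all _ _).restrictScalars k).comp ι = f0 := AlgHom.ext fun r => by simp [ι]
    have hlist : ((List.ofFn φ).map ι.comp).map ((Algebra.TensorProduct.lift (AlgHom.id K K) f0
        fun _ _ => Commute.all _ _).restrictScalars k).comp = l := by
      rw [List.map_map, List.map_ofFn]
      refine List.ext_getElem (by simp [hl]) fun i h₁ h₂ => ?_
      simp only [List.getElem_ofFn, Function.comp_apply, ← AlgHom.comp_assoc, hcomp, hf0]
      simp
    rw [hlist]
    exact hiso.symm

end ChartData

namespace CurveCharts

variable {k : Type u} [Field k] [IsAlgClosed k] {C : Scheme.{u}}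
  {c : C ⟶ Spec (CommRingCat.of k)} {ε : SchemeHomOver (𝟙 (Spec (CommRingCat.of k))) c}
  (P : CurveCharts k c ε)

include P in
/-- Degree zero bundles on geometric fibres are algebraically equivalent to zero. -/
theorem isAlgEquivZero_of_isDegZero {K : Type u} [Field K] [IsAlgClosed K] [Algebra k K]
    (B : P.toChartData.Bundle K) (hB : B.IsDegZero) :
    IsAlgEquivZero (pullback.snd c (specStr k K)) (P.toModules B) := by
  obtain ⟨A, _, _, _, _, BA, hfin, hdom, hmem⟩ := P.toChartData.exists_integral_family K
  obtain ⟨f₁, hf₁⟩ := hmem B hB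
  obtain ⟨f₀, hf₀⟩ := hmem (P.toChartData.structBundle K) rfl
  have hbase : specStr K A ≫ specStr k K = specStr k A := by
    rw [specStr, specStr, specStr, ← Spec.map_comp, ← CommRingCat.ofHom_comp,
      ← IsScalarTower.algebraMap_eq]
  let E : pullback (pullback.snd c (specStr k K)) (specStr K A) ⟶ pullback c (specStr k A) :=
    pullback.lift (pullback.fst _ _ ≫ pullback.fst _ _) (pullback.snd _ _) (by
      rw [Category.assoc, pullback.condition, pullback.condition_assoc, hbase])
  have member : ∀ (f : A →ₐ[K] K) (B' : P.toChartData.Bundle K),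
      (BA.map (f.restrictScalars k)).Isom B' →
      ∃ t : SchemeHomOver (𝟙 (Spec (CommRingCat.of K))) (specStr K A),
        Nonempty ((Scheme.Modules.pullback (baseChangeSnd (pullback.snd c (specStr k K)) t)).obj
            ((Scheme.Modules.pullback E).obj (P.toModules BA)) ≅
          (Scheme.Modules.pullback (pullback.fst (pullback.snd c (specStr k K))
            (𝟙 (Spec (CommRingCat.of K))))).obj (P.toModules B')) := by
    intro f B' hi
    let t : SchemeHomOver (𝟙 (Spec (CommRingCat.of K))) (specStr K A) :=
      ⟨Spec.map (CommRingCat.ofHom f.toRingHom), by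
        rw [specStr, ← Spec.map_comp, ← CommRingCat.ofHom_comp, AlgHom.toRingHom_eq_coe,
          AlgHom.comp_algebraMap]
        exact Spec.map_id _⟩
    have hsq : baseChangeSnd (pullback.snd c (specStr k K)) t ≫ E =
        pullback.fst (pullback.snd c (specStr k K)) (𝟙 (Spec (CommRingCat.of K))) ≫
          baseChangeSnd c (specHom (f.restrictScalars k)) := by
      apply pullback.hom_ext
      · simp only [E, baseChangeSnd, Category.assoc, pullback.lift_fst, pullback.lift_fst_assoc,
          Category.comp_id]
      · simp only [E, baseChangeSnd, Category.assoc, pullback.lift_snd]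
        rw [pullback.condition_assoc, Category.id_comp]
        rfl
    obtain ⟨e⟩ := P.toModules_pullback (f.restrictScalars k) BA (BA.map (f.restrictScalars k))
      (BA.mapHom _) (BA.isPullback_map _)
    obtain ⟨e'⟩ := (P.isom_iff _ _).1 hi
    exact ⟨t, ⟨(Scheme.Modules.pullbackComp _ _).app _ ≪≫
      (Scheme.Modules.pullbackCongr hsq).app _ ≪≫ ((Scheme.Modules.pullbackComp _ _).app _).symm ≪≫
      (Scheme.Modules.pullback _).mapIso (e ≪≫ e')⟩⟩
  obtain ⟨t₀, ⟨e₀⟩⟩ := member f₀ _ hf₀
  obtain ⟨t₁, ⟨e₁⟩⟩ := member f₁ _ hf₁
  obtain ⟨e⟩ := (P.isTrivial_iff _).1 (P.toChartData.isTrivial_structBundle K)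
  have hlft : LocallyOfFiniteType (specStr K A) := by
    rw [specStr, HasRingHomProperty.Spec_iff (P := @LocallyOfFiniteType)]
    exact RingHom.finiteType_algebraMap.2 hfin
  exact ⟨_, specStr K A, hlft, geometricallyIntegral_specStr K A hdom,
    (Scheme.Modules.pullback E).obj (P.toModules BA), (P.isInvertible_toModules BA).pullback E,
    t₀, t₁,
    ⟨e₀ ≪≫ (Scheme.Modules.pullback _).mapIso e ≪≫ Scheme.Modules.pullbackUnitIso _⟩, ⟨e₁⟩⟩

end CurveCharts

end FermatLib.AV
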