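import Fermat.Agent.AV.Jac.Points.Classify
import Fermat.Agent.AV.Jac.Points.TupleRing

/-!
Tuples of points cover a scheme representing the degree zero functor: it is quasi-compact and
geometrically connected.
-/

set_option autoImplicit false
set_option linter.style.haveILetI false

universe u

open CategoryTheory CategoryTheory.Limits AlgebraicGeometry NeronModelInfra AlgebraicGeometry.RelPicard
  GoodReductionJacobian
open scoped TensorProduct

noncomputable section

namespace FermatLib.AV

lemma specHom_comp {k R S T : Type u} [Field k] [CommRing R] [Algebra k R] [CommRing S]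
    [Algebra k S] [CommRing T] [Algebra k T] (φ : R →ₐ[k] S) (ψ : S →ₐ[k] T) :
    (specHom ψ).1 ≫ (specHom φ).1 = (specHom (ψ.comp φ)).1 :=
  (Spec.map_comp _ _).symm

lemma specHom_injective {k R S : Type u} [Field k] [CommRing R] [Algebra k R] [CommRing S]
    [Algebra k S] {φ ψ : R →ₐ[k] S} (h : (specHom φ).1 = (specHom ψ).1) : φ = ψ :=
  AlgHom.ext fun r => congrArg (fun f => f.hom r) (Spec.map_injective h)

lemma specHom_id {k R : Type u} [Field k] [CommRing R] [Algebra k R] :
    (specHom (AlgHom.id k R)).1 = 𝟙 _ :=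
  Spec.map_id _

namespace CurveCharts

variable {k : Type u} [Field k] [IsAlgClosed k] {C : Scheme.{u}}
  {c : C ⟶ Spec (CommRingCat.of k)} {ε : SchemeHomOver (𝟙 (Spec (CommRingCat.of k))) c}
  (P : CurveCharts k c ε) {D : RelativePic0Designation k c}
  (h : RepresentsRelSubPic c ε P.degZeroCut D)

include P h in
/-- Every geometric point comes from a tuple of points. -/
theorem exists_tuple_of_point (x : D.P) :
    ∃ (L : Type u) (_ : Field L) (_ : Algebra k L) (l : List (P.toChartData.A0 →ₐ[k] L))
      (B' : P.toChartData.Bundle L) (hr : B'.IsRigidifiable) (hd : B'.IsFibrewiseDegZero),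
      l.length = P.toChartData.bigMult * P.toChartData.n ∧
      B'.Isom (ChartData.pointFamily P.toChartData.bigMult l) ∧
      (P.classifyBundle h B' hr hd).1 (IsLocalRing.closedPoint L) = x := by
  obtain ⟨K, _, _, g0, hg0⟩ := Glue.exists_field_point D.toBase x
  let gL : SchemeHomOver (specStr k (AlgebraicClosure K)) D.toBase :=
    postComp g0 (specHom (IsScalarTower.toAlgHom k K (AlgebraicClosure K)))
  obtain ⟨B', hr', hd', hgL⟩ := P.exists_classifyBundle_eq h gL
  obtain ⟨l, hl, hiso⟩ := B'.isDegZero_iff_exists_pointFamily.1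
    (P.isDegZero_of_isFibrewiseDegZero hd')
  refine ⟨AlgebraicClosure K, inferInstance, inferInstance, l, B', hr', hd', hl, hiso, ?_⟩
  have hmem : g0.1 ((specHom (IsScalarTower.toAlgHom k K (AlgebraicClosure K))).1
      (IsLocalRing.closedPoint (AlgebraicClosure K))) ∈ Set.range g0.1 := ⟨_, rfl⟩
  rw [hg0] at hmem
  rw [← hgL]
  exact hmem

include P h in
/-- Finitely many open pieces of a space of tuples cover the representing scheme, compatibly. -/
theorem exists_tupleCover :
    ∃ (R : Type u) (_ : CommRing R) (_ : Algebra k R)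
      (_ : ∀ (K : Type u) [Field K] [Algebra k K], IsDomain (K ⊗[k] R))
      (s : Finset R) (g : ∀ r : s, SchemeHomOver (specStr k (Localization.Away r.1)) D.toBase),
      Ideal.span (s : Set R) = ⊤ ∧ (∀ x : D.P, ∃ r, x ∈ Set.range (g r).1) ∧
      ∀ (r r' : s) (L : Type u) [Field L] [Algebra k L]
        (φ : Localization.Away r.1 →ₐ[k] L) (φ' : Localization.Away r'.1 →ₐ[k] L),
        φ.comp (IsScalarTower.toAlgHom k R _) = φ'.comp (IsScalarTower.toAlgHom k R _) →
          (specHom φ).1 ≫ (g r).1 = (specHom φ').1 ≫ (g r').1 := by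
  obtain ⟨R, _, _, φ, -, hdom, huniv⟩ :=
    P.toChartData.exists_tupleRing (P.toChartData.bigMult * P.toChartData.n)
  let B : P.toChartData.Bundle R :=
    ChartData.pointFamily P.toChartData.bigMult (List.ofFn φ)
  have hB : B.IsFibrewiseDegZero :=
    P.isFibrewiseDegZero_pointFamily _ _ List.length_ofFn
  let G : Set R := {r | (B.map (IsScalarTower.toAlgHom k R (Localization.Away r))).IsRigidifiable}
  have hG : Ideal.span G = ⊤ := by
    by_contra hne
    obtain ⟨m, hm, hle⟩ := Ideal.exists_le_maximal _ hne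
    obtain ⟨r, hr, hrig⟩ := P.exists_away_isRigidifiable B ⟨m, hm.isPrime⟩
    exact hr (hle (Ideal.subset_span hrig))
  obtain ⟨s, hs, hspan⟩ := (Ideal.span_eq_top_iff_finite _).1 hG
  let g : ∀ r : s, SchemeHomOver (specStr k (Localization.Away r.1)) D.toBase := fun r =>
    P.classifyBundle h _ (hs r.2) (B.isFibrewiseDegZero_map hB _)
  refine ⟨R, inferInstance, inferInstance, hdom, s, g, hspan, fun x => ?_,
    fun r r' L _ _ ψ ψ' hψ => ?_⟩
  · obtain ⟨L, _, _, l, B', hr', hd', hl, hiso, hx⟩ := P.exists_tuple_of_point h x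
    obtain ⟨f, hf⟩ := huniv L fun i => l.get (Fin.cast hl.symm i)
    have hlist : (List.ofFn φ).map f.comp = l := by
      rw [List.map_ofFn, show f.comp ∘ φ = fun i => l.get (Fin.cast hl.symm i) from funext hf]
      exact List.ext_getElem (by simp [hl]) fun i h₁ h₂ => by simp
    obtain ⟨r, hrs, hrf⟩ : ∃ r ∈ s, f r ≠ 0 := by
      by_contra hcon
      simp only [not_exists, not_and, not_not] at hcon
      have hle : Ideal.span (s : Set R) ≤ RingHom.ker f :=
        Ideal.span_le.2 fun r hr => RingHom.mem_ker.2 (hcon r hr)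
      rw [hspan] at hle
      exact one_ne_zero ((map_one f).symm.trans (RingHom.mem_ker.1 (hle trivial)))
    have hunit : ∀ z : Submonoid.powers r, IsUnit (f z) := by
      rintro ⟨_, n, rfl⟩
      change IsUnit (f (r ^ n))
      rw [map_pow]
      exact (Ne.isUnit hrf).pow n
    let f' : Localization.Away r →ₐ[k] L :=
      IsLocalization.liftAlgHom (M := Submonoid.powers r) (f := f) hunit
    have hf' : f'.comp (IsScalarTower.toAlgHom k R (Localization.Away r)) = f :=
      AlgHom.ext fun a => IsLocalization.lift_eq (M := Submonoid.powers r) hunit a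
    have hi : ((B.map (IsScalarTower.toAlgHom k R (Localization.Away r))).map f').Isom
        (B'.map (AlgHom.id k L)) :=
      ((B.isom_map_map _ f').trans (hf'.symm ▸ (ChartData.map_pointFamily _ _ f).trans
        (hlist.symm ▸ hiso.symm))).trans B'.isom_map_id.symm
    have heq := P.classifyBundle_congr h f' (AlgHom.id k L) _ B' (hs hrs)
      (B.isFibrewiseDegZero_map hB _) hr' hd' hi
    rw [specHom_id, Category.id_comp] at heq
    exact ⟨⟨r, hrs⟩, (specHom f').1 (IsLocalRing.closedPoint L),
      (congrArg (fun a : Spec (CommRingCat.of L) ⟶ D.P => a (IsLocalRing.closedPoint L)) heq).trans hx⟩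
  · refine P.classifyBundle_congr h ψ ψ' _ _ _ _ _ _ ?_
    refine (B.isom_map_map _ ψ).trans ?_
    rw [hψ]
    exact (B.isom_map_map _ ψ').symm

include P h in
/-- The representing scheme is quasi-compact. -/
theorem quasiCompact_toBase : QuasiCompact D.toBase := by
  obtain ⟨R, _, _, -, s, g, -, hcov, -⟩ := P.exists_tupleCover h
  have : CompactSpace D.P := by
    refine ⟨?_⟩
    have h : IsCompact (⋃ r : s, Set.range (g r).1) :=
      isCompact_iUnion fun r => isCompact_range (g r).1.continuous
    rwa [show (⋃ r : s, Set.range (g r).1) = Set.univ from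
      Set.eq_univ_of_forall fun x => Set.mem_iUnion.2 (hcov x)] at h
  exact (quasiCompact_iff_compactSpace D.toBase).2 ‹CompactSpace D.P›

include P h in
/-- The representing scheme is geometrically connected. -/
theorem geometricallyConnected_toBase : GeometricallyConnected D.toBase := by
  classical
  obtain ⟨R, _, _, hdom, s, g, hspan, hcov, hcompat⟩ := P.exists_tupleCover h
  constructor
  intro K _ y Z fst snd hpb
  obtain ⟨φ0, rfl⟩ := Spec.map_surjective y
  algebraize [φ0.hom]
  replace hpb : IsPullback fst snd D.toBase (specStr k K) := hpb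
  let W := pullback (specStr k R) (specStr k K)
  have hW : IsIntegral W := by
    have := hdom K
    have : IsDomain (R ⊗[k] K) := (Algebra.TensorProduct.comm k R K).injective.isDomain
      (Algebra.TensorProduct.comm k R K).toRingHom
    exact IsIntegral.of_isIso (pullbackSpecIso k R K).inv
  let α : ∀ r : s, SchemeHomOver (specStr k (Localization.Away r.1)) (specStr k R) := fun r =>
    specHom (IsScalarTower.toAlgHom k R _)
  have hα : ∀ r : s, IsOpenImmersion (α r).1 := fun r =>
    IsOpenImmersion.of_isLocalization r.1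
  let Wr : s → Scheme.{u} := fun r => pullback (α r).1 (pullback.fst (specStr k R) (specStr k K))
  let j : ∀ r, Wr r ⟶ W := fun r => pullback.snd _ _
  let θ : ∀ r, Wr r ⟶ Spec (CommRingCat.of (Localization.Away r.1)) := fun r => pullback.fst _ _
  have hθ : ∀ r, θ r ≫ (α r).1 = j r ≫ pullback.fst _ _ := fun r => pullback.condition
  have hθbase : ∀ r, θ r ≫ specStr k (Localization.Away r.1) =
      j r ≫ pullback.snd _ _ ≫ specStr k K := fun r => by
    rw [← (α r).2, reassoc_of% hθ r, pullback.condition]
  let η : ∀ r, Wr r ⟶ Z := fun r => hpb.lift (θ r ≫ (g r).1) (j r ≫ pullback.snd _ _) (by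
    rw [Category.assoc, (g r).2, hθbase, Category.assoc])
  -- the ranges cover
  have hcovZ : ∀ z : Z, ∃ r, z ∈ Set.range (η r) := fun z => by
    obtain ⟨r, q, hq⟩ := hcov (fst z)
    obtain ⟨w, hw, -⟩ := Scheme.Pullback.exists_preimage_pullback z q hq.symm
    let m : pullback fst (g r).1 ⟶ Wr r := pullback.lift (pullback.snd _ _)
      (pullback.lift (pullback.snd _ _ ≫ (α r).1) (pullback.fst _ _ ≫ snd) (by
        rw [Category.assoc, (α r).2, Category.assoc, ← hpb.w, pullback.condition_assoc, (g r).2]))
      (by rw [pullback.lift_fst])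
    have hm : m ≫ η r = pullback.fst fst (g r).1 := by
      apply hpb.hom_ext
      · rw [Category.assoc, hpb.lift_fst, ← Category.assoc, pullback.lift_fst, pullback.condition]
      · rw [Category.assoc, hpb.lift_snd, ← Category.assoc, pullback.lift_snd, pullback.lift_snd]
    refine ⟨r, m w, ?_⟩
    change (m ≫ η r) w = z
    rw [hm, hw]
  -- a common point
  let ξ : W := genericPoint W
  have hξ : ∀ r, Nonempty (Wr r) → ξ ∈ Set.range (j r) := fun r hr =>
    ((genericPoint_spec W).mem_open_set_iff (IsOpenImmersion.isOpen_range _)).2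
      ⟨j r (Classical.arbitrary _), trivial, ⟨_, rfl⟩⟩
  let e := W.fromSpecResidueField ξ
  let _ : Algebra k (W.residueField ξ) :=
    Glue.algebraOfSpecHom (e ≫ pullback.fst _ _ ≫ specStr k R)
  have he : specStr k (W.residueField ξ) = e ≫ pullback.fst _ _ ≫ specStr k R :=
    Glue.affStr_algebraOfSpecHom _
  have hlift : ∀ r, Nonempty (Wr r) → ∃ er : Spec (W.residueField ξ) ⟶ Wr r, er ≫ j r = e :=
    fun r hr => ⟨IsOpenImmersion.lift (j r) e (by
      rw [Scheme.range_fromSpecResidueField, Set.singleton_subset_iff]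
      exact hξ r hr), IsOpenImmersion.lift_fac _ _ _⟩
  have hagree : ∀ r r' (er : Spec (W.residueField ξ) ⟶ Wr r)
      (er' : Spec (W.residueField ξ) ⟶ Wr r'), er ≫ j r = e → er' ≫ j r' = e →
      er ≫ η r = er' ≫ η r' := by
    intro r r' er er' her her'
    have hpt : ∀ (r : s) (er : Spec (W.residueField ξ) ⟶ Wr r), er ≫ j r = e →
        ∃ φ : Localization.Away r.1 →ₐ[k] W.residueField ξ, (specHom φ).1 = er ≫ θ r := by
      intro r er her
      obtain ⟨φ, hφ⟩ := exists_specHom (S := W.residueField ξ)
        (⟨er ≫ θ r, by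
          rw [Category.assoc, hθbase, reassoc_of% her, he, pullback.condition]⟩ :
          SchemeHomOver (specStr k (W.residueField ξ)) (specStr k (Localization.Away r.1)))
      exact ⟨φ, (congrArg Subtype.val hφ).symm⟩
    obtain ⟨φ, hφ⟩ := hpt r er her
    obtain ⟨φ', hφ'⟩ := hpt r' er' her'
    have h' := hcompat r r' _ φ φ' (specHom_injective (by
      rw [← specHom_comp, ← specHom_comp, hφ, hφ', Category.assoc, Category.assoc, hθ, hθ,
        reassoc_of% her, reassoc_of% her']))
    rw [hφ, hφ'] at h'
    apply hpb.hom_ext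
    · rw [Category.assoc, Category.assoc, hpb.lift_fst, hpb.lift_fst]
      simpa only [Category.assoc] using h'
    · rw [Category.assoc, Category.assoc, hpb.lift_snd, hpb.lift_snd, reassoc_of% her,
        reassoc_of% her']
  -- some piece is nonempty
  obtain ⟨r₀, hr₀⟩ : ∃ r₀, Nonempty (Wr r₀) := by
    let p : PrimeSpectrum R := pullback.fst (specStr k R) (specStr k K) ξ
    obtain ⟨r, hrs, hr⟩ : ∃ r ∈ s, r ∉ p.asIdeal := by
      by_contra hcon
      simp only [not_exists, not_and, not_not] at hcon
      exact p.isPrime.ne_top (top_le_iff.1 (hspan ▸ Ideal.span_le.2 hcon))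
    have hp : p ∈ Set.range (α ⟨r, hrs⟩).1 := by
      have h := PrimeSpectrum.localization_away_comap_range (Localization.Away r) r
      exact (h.symm ▸ hr : p ∈ Set.range (PrimeSpectrum.comap (algebraMap R (Localization.Away r))))
    obtain ⟨q, hq⟩ := hp
    obtain ⟨w, -, -⟩ := Scheme.Pullback.exists_preimage_pullback (f := (α ⟨r, hrs⟩).1)
      (g := pullback.fst (specStr k R) (specStr k K)) q ξ hq
    exact ⟨⟨r, hrs⟩, ⟨w⟩⟩
  obtain ⟨e₀, he₀⟩ := hlift r₀ hr₀
  let z₀ : Z := (e₀ ≫ η r₀) (IsLocalRing.closedPoint (W.residueField ξ))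
  have huniv : (Set.univ : Set Z) = ⋃ r : {r : s // Nonempty (Wr r)}, Set.range (η r.1) := by
    refine (Set.eq_univ_of_forall fun z => ?_).symm
    obtain ⟨r, w, hw⟩ := hcovZ z
    exact Set.mem_iUnion.2 ⟨⟨r, ⟨w⟩⟩, w, hw⟩
  have : PreconnectedSpace Z := ⟨by
    rw [huniv]
    refine isPreconnected_iUnion ⟨z₀, Set.mem_iInter.2 fun r => ?_⟩ fun r => ?_
    · obtain ⟨er, her⟩ := hlift r.1 r.2
      refine ⟨er (IsLocalRing.closedPoint (W.residueField ξ)), ?_⟩
      change (er ≫ η r.1) _ = z₀
      rw [hagree r.1 r₀ er e₀ her he₀]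
    · have : PreirreducibleSpace (Wr r.1) := ⟨by
        have hopen := IsOpenImmersion.isOpen_range (j r.1)
        have h := (PreirreducibleSpace.isPreirreducible_univ (X := W)).open_subset hopen
          (Set.subset_univ _)
        simpa using h.preimage (j r.1).isOpenEmbedding⟩
      rw [← Set.image_univ]
      exact ((PreirreducibleSpace.isPreirreducible_univ (X := Wr r.1)).image _
        (η r.1).continuous.continuousOn).isPreconnected⟩
  exact ⟨⟨z₀⟩⟩

end CurveCharts

end FermatLib.AV
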