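import Fermat.Agent.AV.Jac.DegreeEquiv
import Fermat.Agent.AV.Jac.Points.AbelMap

/-!
The existence part of the valuative criterion for a scheme representing the degree zero functor.
-/

set_option autoImplicit false
set_option linter.style.haveILetI false

universe u

open CategoryTheory CategoryTheory.Limits AlgebraicGeometry NeronModelInfra AlgebraicGeometry.RelPicard
  GoodReductionJacobian
open scoped TensorProduct

noncomputable section

namespace FermatLib.AV

namespace ChartData

variable {k : Type u} [Field k] [IsAlgClosed k] {D : ChartData k}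

/-- A point over a field extends to a divisor over a valuation ring, from one chart or the
other. -/
theorem exists_div_lift {V L : Type u} [CommRing V] [IsDomain V] [IsIntegrallyClosed V]
    [Algebra k V] [Field L] [Algebra k L] [Algebra V L] [IsScalarTower k V L]
    (hV : Function.Injective (algebraMap V L))
    (hclosed : ∀ z : L, IsIntegral V z → z ∈ (algebraMap V L).range)
    (htot : ∀ z : L, z ∈ (algebraMap V L).range ∨ z⁻¹ ∈ (algebraMap V L).range)
    (c : D.A0 →ₐ[k] L) :
    ∃ E : D.Div V, (E.map (IsScalarTower.toAlgHom k V L)).I0 = (point0 c).I0 ∧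
      (E.map (IsScalarTower.toAlgHom k V L)).I1 = (point0 c).I1 := by
  by_cases hc : c D.x ∈ (algebraMap V L).range
  · obtain ⟨g, hg⟩ := exists_factor_of_isIntegral hV hclosed D.isIntegral_A0 c hc
    exact ⟨point0 g, (map_point0_I0 g _).trans (congrArg (fun c => (point0 c).I0) hg),
      (map_point0_I1 g _).trans (congrArg (fun c => (point0 c).I1) hg)⟩
  · have hinv := (htot (c D.x)).resolve_left hc
    have hx : c D.x ≠ 0 := fun h => hc (by rw [h]; exact zero_mem _)
    let := D.j0.toRingHom.toAlgebra
    have : IsScalarTower k D.A0 D.A01 :=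
      IsScalarTower.of_algebraMap_eq fun a => (D.j0.commutes a).symm
    have := D.isLoc0
    have hunit : ∀ z : Submonoid.powers D.x, IsUnit (c z) := by
      rintro ⟨_, N, rfl⟩
      change IsUnit (c (D.x ^ N))
      rw [map_pow]
      exact hx.isUnit.pow N
    let q : D.A01 →ₐ[k] L :=
      IsLocalization.liftAlgHom (M := Submonoid.powers D.x) (f := c) (S := D.A01) hunit
    have hq : q.comp D.j0 = c := AlgHom.ext fun a =>
      IsLocalization.lift_eq (M := Submonoid.powers D.x) hunit a
    have hy : (q.comp D.j1) D.y = (c D.x)⁻¹ := by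
      refine eq_inv_of_mul_eq_one_right ?_
      rw [← hq]
      change q (D.j0 D.x) * q (D.j1 D.y) = 1
      rw [← map_mul, D.x_mul_y, map_one]
    obtain ⟨g, hg⟩ := exists_factor_of_isIntegral hV hclosed D.isIntegral_A1 (q.comp D.j1)
      (hy ▸ hinv)
    obtain ⟨h0, h1⟩ := point0_eq_point1 q
    rw [hq] at h0 h1
    exact ⟨point1 g, ((map_point1_I0 g _).trans (congrArg (fun c => (point1 c).I0) hg)).trans h0.symm,
      ((map_point1_I1 g _).trans (congrArg (fun c => (point1 c).I1) hg)).trans h1.symm⟩

/-- A tuple of points over a field extends to a family of degree zero over a valuation ring. -/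
theorem exists_family_lift {V L : Type u} [CommRing V] [IsDomain V] [IsIntegrallyClosed V]
    [Algebra k V] [Field L] [Algebra k L] [Algebra V L] [IsScalarTower k V L]
    (hV : Function.Injective (algebraMap V L))
    (hclosed : ∀ z : L, IsIntegral V z → z ∈ (algebraMap V L).range)
    (htot : ∀ z : L, z ∈ (algebraMap V L).range ∨ z⁻¹ ∈ (algebraMap V L).range)
    (m : ℕ) (l : List (D.A0 →ₐ[k] L)) (hl : l.length = m * D.n) :
    ∃ B : D.Bundle V, (B.map (IsScalarTower.toAlgHom k V L)).Isom (pointFamily m l) ∧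
      B.IsFibrewiseDegZero := by
  choose E hE0 hE1 using exists_div_lift (D := D) hV hclosed htot
  let ι := IsScalarTower.toAlgHom k V L
  refine ⟨divFamily m (l.map E), ?_, ?_⟩
  · refine (map_divFamily m _ ι).trans ?_
    rw [List.map_map]
    exact divFamily_congr m l _ _ fun c _ => ⟨hE0 c, hE1 c⟩
  · intro p
    let B := divFamily m (l.map E)
    have hiso : (B.map ι).Isom (pointFamily m l) := by
      refine (map_divFamily m _ ι).trans ?_
      rw [List.map_map]
      exact divFamily_congr m l _ _ fun c _ => ⟨hE0 c, hE1 c⟩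
    let p0 : PrimeSpectrum V := ⟨⊥, Ideal.isPrime_bot⟩
    have h0 : (B.map ι).chi = (B.mapTo p0.asIdeal.ResidueField).chi :=
      B.chi_map_eq L ι p0 ((RingHom.injective_iff_ker_eq_bot _).1 hV)
    have hp := B.isLocallyConstant_chi.apply_eq_of_preconnectedSpace p p0
    have hdeg := isDegZero_pointFamily m l hl
    rw [Bundle.IsDegZero] at hdeg ⊢
    rw [hp, ← h0, hiso.chi_eq, hdeg, D.chi_structBundle L,
      D.chi_structBundle p.asIdeal.ResidueField]

end ChartData

namespace CurveCharts

variable {k : Type u} [Field k] [IsAlgClosed k] {C : Scheme.{u}}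
  {c : C ⟶ Spec (CommRingCat.of k)} {ε : SchemeHomOver (𝟙 (Spec (CommRingCat.of k))) c}
  (P : CurveCharts k c ε) {D : RelativePic0Designation k c}
  (h : RepresentsRelSubPic c ε P.degZeroCut D)

include P h in
/-- After a field extension, a generic point extends over a dominating valuation ring. -/
theorem exists_extension {R K : Type u} [CommRing R] [IsLocalRing R] [Algebra k R] [Field K]
    [Algebra k K] [Algebra R K] [IsScalarTower k R K]
    (g : SchemeHomOver (specStr k K) D.toBase) :
    ∃ (L : Type u) (_ : Field L) (_ : Algebra k L) (V : ValuationSubring L) (_ : Algebra k V)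
      (κ : K →ₐ[k] L) (ι : V →ₐ[k] L) (ρ : R →ₐ[k] V)
      (g' : SchemeHomOver (specStr k V) D.toBase),
      IsLocalHom ρ.toRingHom ∧ (∀ v : V, ι v = v) ∧
      ι.comp ρ = κ.comp (IsScalarTower.toAlgHom k R K) ∧
      (specHom ι).1 ≫ g'.1 = (specHom κ).1 ≫ g.1 := by
  obtain ⟨B, hr, hd, rfl⟩ := P.exists_classifyBundle_eq h g
  let L := AlgebraicClosure K
  let κ := IsScalarTower.toAlgHom k K L
  obtain ⟨l, hl, hiso⟩ :=
    (B.map κ).isDegZero_iff_exists_pointFamily.1 (P.map_isDegZero hd L κ)
  obtain ⟨V, hV, hloc⟩ :=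
    IsLocalRing.exists_factor_valuationRing ((algebraMap K L).comp (algebraMap R K))
  let ρ0 : R →+* V := ((algebraMap K L).comp (algebraMap R K)).codRestrict V.toSubring hV
  let algV : Algebra k V := (ρ0.comp (algebraMap k R)).toAlgebra
  have hT : IsScalarTower k V L := IsScalarTower.of_algebraMap_eq fun r => by
    change algebraMap k L r = algebraMap K L (algebraMap R K (algebraMap k R r))
    rw [← IsScalarTower.algebraMap_apply, ← IsScalarTower.algebraMap_apply]
  let ρ : R →ₐ[k] V := { ρ0 with commutes' := fun _ => rfl }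
  let ι := IsScalarTower.toAlgHom k V L
  obtain ⟨BV, hBV, hdV⟩ := ChartData.exists_family_lift (D := P.toChartData) (V := V) (L := L)
    Subtype.val_injective (fun z hz => IsIntegrallyClosed.isIntegral_iff.1 hz)
    (fun z => (V.mem_or_inv_mem z).imp (fun h => ⟨⟨z, h⟩, rfl⟩) fun h => ⟨⟨z⁻¹, h⟩, rfl⟩) _ l hl
  have hrV := P.isRigidifiable_of_isLocalRing BV
  exact ⟨L, inferInstance, inferInstance, V, algV, κ, ι, ρ, P.classifyBundle h BV hrV hdV, hloc,
    fun _ => rfl, AlgHom.ext fun _ => rfl,
    P.classifyBundle_congr h ι κ BV B hrV hdV hr hd (hBV.trans hiso.symm)⟩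

include P h in
/-- The existence part of the valuative criterion. -/
theorem valuativeExistence_toBase : ValuativeCriterion.Existence D.toBase := by
  intro S
  let : Algebra k S.R := Glue.algebraOfSpecHom S.i₂
  let : Algebra k S.K := ((algebraMap S.R S.K).comp (algebraMap k S.R)).toAlgebra
  have : IsScalarTower k S.R S.K := IsScalarTower.of_algebraMap_eq fun _ => rfl
  have hs : specStr k S.R = S.i₂ := Glue.affStr_algebraOfSpecHom S.i₂
  let φ := IsScalarTower.toAlgHom k S.R S.K
  have hsK : S.i₁ ≫ D.toBase = specStr k S.K := by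
    exact S.commSq.w.trans ((congrArg ((specHom φ).1 ≫ ·) hs.symm).trans (specHom φ).2)
  obtain ⟨L, _, _, V, _, κ, ι, ρ, g', hloc, hι, hcomp, hg⟩ :=
    P.exists_extension h (R := S.R) (⟨S.i₁, hsK⟩ : SchemeHomOver (specStr k S.K) D.toBase)
  -- an affine open containing the closed point
  obtain ⟨U, hU, hxU, -⟩ := exists_isAffineOpen_mem_and_subset
    (x := g'.1 (IsLocalRing.closedPoint V)) (U := ⊤) trivial
  have hr' : Set.range g'.1 ⊆ Set.range hU.fromSpec := by
    rw [hU.range_fromSpec]
    rintro _ ⟨q, rfl⟩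
    exact ((IsLocalRing.specializes_closedPoint q).map g'.1.continuous).mem_open U.2 hxU
  have hr : Set.range S.i₁ ⊆ Set.range hU.fromSpec := by
    rintro _ ⟨q, rfl⟩
    refine hr' ?_
    have : q = (specHom κ).1 (IsLocalRing.closedPoint L) :=
      Subsingleton.elim (α := PrimeSpectrum S.K) _ _
    subst this
    refine ⟨(specHom ι).1 (IsLocalRing.closedPoint L), ?_⟩
    exact congrArg (fun f : Spec (CommRingCat.of L) ⟶ D.P => f (IsLocalRing.closedPoint L)) hg
  obtain ⟨a, ha⟩ : ∃ a : Γ(D.P, U) ⟶ CommRingCat.of V, Spec.map a ≫ hU.fromSpec = g'.1 :=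
    ⟨Spec.preimage (IsOpenImmersion.lift hU.fromSpec g'.1 hr'), by
      rw [Spec.map_preimage]; exact IsOpenImmersion.lift_fac _ _ _⟩
  obtain ⟨b, hb⟩ : ∃ b : Γ(D.P, U) ⟶ CommRingCat.of S.K, Spec.map b ≫ hU.fromSpec = S.i₁ :=
    ⟨Spec.preimage (IsOpenImmersion.lift hU.fromSpec S.i₁ hr), by
      rw [Spec.map_preimage]; exact IsOpenImmersion.lift_fac _ _ _⟩
  have hab : a ≫ CommRingCat.ofHom ι.toRingHom = b ≫ CommRingCat.ofHom κ.toRingHom := by
    refine Spec.map_injective ?_
    rw [Spec.map_comp, Spec.map_comp, ← cancel_mono hU.fromSpec, Category.assoc, Category.assoc,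
      ha, hb]
    exact hg
  -- the valuation ring is recovered from the extension
  have hmem : ∀ z : S.K, κ z ∈ V → z ∈ (algebraMap S.R S.K).range := by
    intro z hz
    rcases ValuationRing.isInteger_or_isInteger S.R z with hint | hint
    · exact hint
    · obtain ⟨r, hr⟩ := hint
      by_cases hz0 : z = 0
      · rw [hz0]; exact zero_mem _
      have h1 : ρ r * ⟨κ z, hz⟩ = 1 := Subtype.ext (by
        change (ρ r : L) * κ z = 1
        rw [← hι (ρ r), show ι (ρ r) = κ (algebraMap S.R S.K r) from AlgHom.congr_fun hcomp r,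
          hr, ← map_mul, inv_mul_cancel₀ hz0, map_one])
      obtain ⟨v, hv⟩ := hloc.map_nonunit r (IsUnit.of_mul_eq_one _ h1)
      refine ⟨((v⁻¹ : S.Rˣ) : S.R), ?_⟩
      rw [map_units_inv, hv, hr, inv_inv]
  have hbmem : ∀ s : Γ(D.P, U), b.hom s ∈ (algebraMap S.R S.K).range := fun s => by
    refine hmem _ ?_
    have h : ι (a.hom s) = κ (b.hom s) := congrArg (fun f => f.hom s) hab
    rw [← h, hι]
    exact SetLike.coe_mem _
  let e : S.R ≃+* (algebraMap S.R S.K).range :=
    RingEquiv.ofBijective (algebraMap S.R S.K).rangeRestrict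
      ⟨fun x y hxy => IsFractionRing.injective S.R S.K (congrArg Subtype.val hxy),
        (algebraMap S.R S.K).rangeRestrict_surjective⟩
  let a0 : Γ(D.P, U) ⟶ CommRingCat.of S.R :=
    CommRingCat.ofHom (e.symm.toRingHom.comp (b.hom.codRestrict _ hbmem))
  have ha0 : a0 ≫ CommRingCat.ofHom (algebraMap S.R S.K) = b := by
    ext s
    exact congrArg Subtype.val (e.apply_symm_apply ⟨b.hom s, hbmem s⟩)
  have hleft : Spec.map (CommRingCat.ofHom (algebraMap S.R S.K)) ≫ Spec.map a0 ≫ hU.fromSpec =
      S.i₁ := by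
    rw [← Category.assoc, ← Spec.map_comp, ha0, hb]
  refine ⟨⟨{ l := Spec.map a0 ≫ hU.fromSpec, fac_left := hleft, fac_right := ?_ }⟩⟩
  obtain ⟨u, hu⟩ := Spec.map_surjective ((Spec.map a0 ≫ hU.fromSpec) ≫ D.toBase)
  obtain ⟨v, hv⟩ := Spec.map_surjective S.i₂
  rw [← hu, ← hv]
  congr 1
  have key : u ≫ CommRingCat.ofHom (algebraMap S.R S.K) =
      v ≫ CommRingCat.ofHom (algebraMap S.R S.K) := by
    refine Spec.map_injective ?_
    rw [Spec.map_comp, Spec.map_comp, hu, hv, ← Category.assoc, hleft]
    exact S.commSq.w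
  ext r
  exact IsFractionRing.injective S.R S.K (congrArg (fun f => f.hom r) key)

include P h in
/-- The representing scheme is universally closed. -/
theorem universallyClosed_toBase : UniversallyClosed D.toBase := by
  have := P.quasiCompact_toBase h
  exact UniversallyClosed.of_valuativeCriterion _ (P.valuativeExistence_toBase h)

end CurveCharts

end FermatLib.AV
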