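import Fermat.Agent.AV.Jac.AssemblyTwist
import Fermat.Agent.AV.Jac.Points.Valuative
import Fermat.Agent.AV.Jac.Points.AlgEquiv

/-!
The properties of the degree zero scheme coming from tuples of points.
-/

set_option autoImplicit false

universe u

open CategoryTheory CategoryTheory.Limits AlgebraicGeometry NeronModelInfra AlgebraicGeometry.RelPicard
  GoodReductionJacobian
open scoped TensorProduct

noncomputable section

namespace FermatLib.AV

namespace CurveCharts

variable {k : Type u} [Field k] [IsAlgClosed k] {C : Scheme.{u}}
  {c : C ⟶ Spec (CommRingCat.of k)} {ε : SchemeHomOver (𝟙 (Spec (CommRingCat.of k))) c}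
  (P : CurveCharts k c ε)

include P in
/-- A scheme representing the degree zero cut is universally closed and geometrically connected,
and degree zero bundles on its geometric fibres are algebraically equivalent to zero. -/
theorem abel_properties (D : RelativePic0Designation k c)
    (h : RepresentsRelSubPic c ε P.degZeroCut D) :
    UniversallyClosed D.toBase ∧ GeometricallyConnected D.toBase ∧
      ∀ (K : Type u) [Field K] [IsAlgClosed K] [Algebra k K] (B : P.toChartData.Bundle K),
        B.IsDegZero → P.IsRigidified B →
          IsAlgEquivZero (pullback.snd c (specStr k K)) (P.toModules B) :=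
  ⟨P.universallyClosed_toBase h, P.geometricallyConnected_toBase h,
    fun _ _ _ _ B hB _ => P.isAlgEquivZero_of_isDegZero B hB⟩

include P in
/-- The Jacobian of a curve with two charts exists. -/
theorem exists_jacobian_of_charts :
    ∃ D : RelativePic0Designation k c,
      Nonempty (RepresentsRelSubPic c ε (algEquivZeroCut c ε) D) ∧
        Smooth D.toBase ∧ IsProper D.toBase ∧ GeometricallyConnected D.toBase :=
  P.exists_jacobian_of_abel fun D h _ _ => P.abel_properties D h

end CurveCharts

end FermatLib.AV
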