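import Fermat.Agent.AV.Jac.Points.Section

/-!
Bundles of degree zero over an algebraically closed field come from families of points.
-/

set_option autoImplicit false
set_option linter.unusedSectionVars false

universe u

open scoped TensorProduct

namespace FermatLib.AV

namespace ChartData

variable {k : Type u} [Field k] {D : ChartData k}

section Ring

variable {R : Type u} [CommRing R] [Algebra k R] {S : Type u} [CommRing S] [Algebra k S]

/-- Twisting up by a list of divisors. -/
noncomputable def untwistDivs : List (D.Div R) → D.Bundle R → D.Bundle R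
  | [], B => B
  | E :: l, B => E.untwist (untwistDivs l B)

theorem isom_untwistDivs (l : List (D.Div R)) {B B' : D.Bundle R} (h : B.Isom B') :
    (untwistDivs l B).Isom (untwistDivs l B') := by
  induction l with
  | nil => exact h
  | cons E l ih => exact E.isom_untwist ih

theorem untwistDivs_congr {ι : Type*} (l : List ι) (f g : ι → D.Div R)
    (h : ∀ i ∈ l, (f i).I0 = (g i).I0 ∧ (f i).I1 = (g i).I1) (B : D.Bundle R) :
    (untwistDivs (l.map f) B).Isom (untwistDivs (l.map g) B) := by
  induction l with
  | nil => exact Bundle.Isom.refl B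
  | cons i l ih =>
    exact ((f i).isom_untwist (ih fun j hj => h j (List.mem_cons_of_mem _ hj))).trans
      (Div.untwist_congr _ (h i List.mem_cons_self).1 (h i List.mem_cons_self).2)

theorem map_untwistDivs (l : List (D.Div R)) (φ : R →ₐ[k] S) (B : D.Bundle R) :
    ((untwistDivs l B).map φ).Isom (untwistDivs (l.map fun E => E.map φ) (B.map φ)) := by
  induction l with
  | nil => exact Bundle.Isom.refl _
  | cons E l ih => exact (E.map_untwist _ φ).trans ((E.map φ).isom_untwist ih)

/-- The bundle of a family of divisors, corrected at infinity. -/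
noncomputable def divFamily (m : ℕ) (l : List (D.Div R)) : D.Bundle R :=
  (untwistDivs l (D.structBundle R)).twistInfty (-(m : ℤ))

theorem map_divFamily (m : ℕ) (l : List (D.Div R)) (φ : R →ₐ[k] S) :
    ((divFamily m l).map φ).Isom (divFamily m (l.map fun E => E.map φ)) :=
  ((untwistDivs l (D.structBundle R)).map_twistInfty φ _).trans
    (((map_untwistDivs l φ _).trans
      (isom_untwistDivs _ (Bundle.isom_map_structBundle φ))).twistInfty _)

theorem divFamily_congr {ι : Type*} (m : ℕ) (l : List ι) (f g : ι → D.Div R)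
    (h : ∀ i ∈ l, (f i).I0 = (g i).I0 ∧ (f i).I1 = (g i).I1) :
    (divFamily m (l.map f)).Isom (divFamily m (l.map g)) :=
  (untwistDivs_congr l f g h _).twistInfty _

variable [IsAlgClosed k]

/-- The bundle of a tuple of sections of the first chart. -/
noncomputable def pointFamily (m : ℕ) (l : List (D.A0 →ₐ[k] R)) : D.Bundle R :=
  divFamily m (l.map point0)

theorem map_pointFamily (m : ℕ) (l : List (D.A0 →ₐ[k] R)) (φ : R →ₐ[k] S) :
    ((pointFamily m l).map φ).Isom (pointFamily m (l.map φ.comp)) := by
  refine (map_divFamily m _ φ).trans ?_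
  rw [pointFamily, List.map_map, List.map_map]
  exact divFamily_congr m l _ _ fun c _ => ⟨map_point0_I0 c φ, map_point0_I1 c φ⟩

end Ring

section Field

variable [IsAlgClosed k] {K : Type u} [Field K] [Algebra k K]

theorem chi_untwist_point0 (c : D.A0 →ₐ[k] K) (B : D.Bundle K) :
    ((point0 c).untwist B).chi = B.chi + 1 := by
  have h := chi_twist_point0 c ((point0 c).untwist B)
  rw [((point0 c).twist_untwist B).chi_eq] at h
  linarith

theorem chi_untwistDivs_point0 (l : List (D.A0 →ₐ[k] K)) (B : D.Bundle K) :
    (untwistDivs (l.map point0) B).chi = B.chi + l.length := by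
  induction l with
  | nil => simp [untwistDivs]
  | cons c l ih =>
    rw [List.map_cons, untwistDivs, chi_untwist_point0, ih, List.length_cons]
    push_cast
    ring

theorem chi_pointFamily (m : ℕ) (l : List (D.A0 →ₐ[k] K)) :
    (pointFamily m l).chi = (D.structBundle K).chi + l.length - m * D.n := by
  rw [pointFamily, divFamily, chi_twistInfty, chi_untwistDivs_point0]
  ring

theorem isDegZero_pointFamily (m : ℕ) (l : List (D.A0 →ₐ[k] K)) (hl : l.length = m * D.n) :
    (pointFamily m l).IsDegZero := by
  rw [Bundle.IsDegZero, chi_pointFamily, hl]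
  push_cast
  ring

variable [IsAlgClosed K]

/-- A bundle with a section not vanishing at infinity is the bundle of its zeros. -/
theorem Bundle.exists_zeros (B : D.Bundle K) {s : B.M} (h0 : s ∈ B.L0) (h1 : s ∈ B.L1)
    (hs : s ≠ 0) (hgen : B.GenInfty s) :
    ∃ l : List (D.A0 →ₐ[k] K), B.Isom (untwistDivs (l.map point0) (D.structBundle K)) := by
  have bound : ∀ (B : D.Bundle K) (s : B.M), s ∈ B.L0 → s ∈ B.L1 → s ≠ 0 →
      1 ≤ B.chi + Module.finrank K (D.structBundle K).H1 := by
    intro B s h0 h1 hs
    have hle := Bundle.finrank_H1_le_of_embeds (B.embeds_of_section h0 h1 hs)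
      (D.structBundle K).nontrivial_M
    have := B.finite_H0_field
    have : Nontrivial B.H0 := ⟨⟨⟨s, h0, h1⟩, 0, fun h => hs (congrArg Subtype.val h)⟩⟩
    have : 0 < Module.finrank K B.H0 := Module.finrank_pos
    rw [Bundle.chi]
    omega
  suffices key : ∀ (N : ℕ) (B : D.Bundle K) (s : B.M), s ∈ B.L0 → s ∈ B.L1 → s ≠ 0 →
      B.GenInfty s → B.chi + Module.finrank K (D.structBundle K).H1 ≤ N →
      ∃ l : List (D.A0 →ₐ[k] K), B.Isom (untwistDivs (l.map point0) (D.structBundle K)) from
    key _ B s h0 h1 hs hgen (Int.self_le_toNat _)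
  intro N
  induction N with
  | zero => exact fun B s h0 h1 hs _ h => absurd (bound B s h0 h1 hs) (by omega)
  | succ N ih =>
    intro B s h0 h1 hs hgen hN
    by_cases hle : B.L0 ≤ Submodule.span (D.R0 K) {s}
    · exact ⟨[], (B.isom_struct_of_generates h0 h1 hgen hle).symm⟩
    obtain ⟨c, hc⟩ := B.exists_point_mem h0 hle
    let E := point0 c
    have hmem : s ∈ E.I01 • (⊤ : Submodule (D.R01 K) B.M) := E.smul0_le B s hc
    let s' : (E.twist B).M := ⟨s, hmem⟩
    have hgen' : (E.twist B).GenInfty s' := by
      intro l hl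
      have hl' : E.twistIncl B l ∈ E.I1 • B.L1 := hl
      obtain ⟨a, l', hl'1, he⟩ := hgen _ ((Submodule.smul_le_right : E.I1 • B.L1 ≤ B.L1) hl')
      have hy : D.yR K • l' ∈ E.I01 • (⊤ : Submodule (D.R01 K) B.M) := by
        rw [eq_sub_of_add_eq' he.symm]
        refine Submodule.sub_mem _ (E.smul1_le B _ hl') ?_
        rw [← B.smul1]
        exact Submodule.smul_mem _ _ hmem
      have hl'N : l' ∈ E.I01 • (⊤ : Submodule (D.R01 K) B.M) := by
        rw [← B.xR_smul_yR_smul l', ← B.smul0]
        exact Submodule.smul_mem _ _ hy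
      let l'' : (E.twist B).M := ⟨l', hl'N⟩
      refine ⟨a, l'', mem_I1_smul c B hl'1 hl'N, E.incl_injective B ?_⟩
      change E.twistIncl B l =
        Bundle.linear1 (B := E.twist B) (B' := B) (E.twistIncl B) (a • s' + D.yR K • l'')
      simp only [map_add, map_smul]
      exact he
    obtain ⟨l, hl⟩ := ih (E.twist B) s' hc (mem_I1_smul c B h1 hmem)
      (fun h => hs (congrArg Subtype.val h)) hgen'
      (by
        rw [show (E.twist B).chi = B.chi - 1 from chi_twist_point0 c B]
        push_cast at hN
        linarith)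
    exact ⟨c :: l, (E.untwist_twist B).symm.trans (E.isom_untwist hl)⟩

/-- Bundles of large characteristic have no first cohomology. -/
theorem Bundle.sup_eq_top_of_chi (B : D.Bundle K)
    (hB : 1 - (D.structBundle K).chi ≤ B.chi) :
    B.L0.restrictScalars K ⊔ B.L1.restrictScalars K = ⊤ := by
  obtain ⟨i, hi⟩ := exists_twistBy_isAcyclic (D.structBundle k) (rfl : (D.structBundle k).IsDegZero)
  have hG : (twistBy i (D.structBundle K)).IsAcyclic :=
    ((map_twistBy i (Algebra.ofId k K) (D.structBundle k)).trans
      (isom_twistBy i (Bundle.isom_map_structBundle _))).isAcyclic (hi.map _)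
  have hchi : twistShift i = -(D.structBundle K).chi := by
    have h := chi_twistBy i (D.structBundle K)
    have h0 : (twistBy i (D.structBundle K)).chi = 0 := by
      have hbot : (twistBy i (D.structBundle K)).H0 = ⊥ := disjoint_iff.1 hG.disjoint
      have := (twistBy i (D.structBundle K)).subsingleton_H1_iff.2 hG.sup_eq_top
      rw [Bundle.chi, hbot, finrank_bot, Module.finrank_zero_of_subsingleton]
      simp
    linarith
  let L := untwistBy i B
  have hL : 1 ≤ L.chi := by rw [chi_untwistBy, hchi]; linarith
  have := L.finite_H0_field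
  have hne : L.H0 ≠ ⊥ := fun h => by
    rw [Bundle.chi, h, finrank_bot] at hL
    omega
  obtain ⟨s, ⟨h0, h1⟩, hs⟩ := (Submodule.ne_bot_iff _).1 hne
  exact Bundle.sup_eq_top_of_embeds
    ((embeds_twistBy i (L.embeds_of_section h0 h1 hs)).trans (twistBy_untwistBy i B).embeds)
    (twistBy i (D.structBundle K)).nontrivial_M hG.sup_eq_top

/-- Over an algebraically closed field every bundle of degree zero comes from a fixed number of
points. -/
theorem Bundle.exists_isom_pointFamily (B : D.Bundle K) (hB : B.IsDegZero) {m : ℕ}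
    (hm : 1 - 2 * (D.structBundle K).chi ≤ ((m : ℤ) - 1) * D.n) :
    ∃ l : List (D.A0 →ₐ[k] K), l.length = m * D.n ∧ B.Isom (pointFamily m l) := by
  let B' := B.twistInfty (m : ℤ)
  have hchi : B'.chi = (D.structBundle K).chi + m * D.n := by
    rw [chi_twistInfty, hB]
  have htop := (B'.twistInfty (-1)).sup_eq_top_of_chi (by
    rw [chi_twistInfty, hchi]
    linarith)
  obtain ⟨s, h0, h1, hs, hgen⟩ := B'.exists_genInfty htop
  obtain ⟨l, hl⟩ := B'.exists_zeros h0 h1 hs hgen
  refine ⟨l, ?_, ?_⟩
  · have h := hl.chi_eq
    rw [chi_untwistDivs_point0, hchi] at h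
    have : (l.length : ℤ) = ((m * D.n : ℕ) : ℤ) := by push_cast; linarith
    exact_mod_cast this
  · refine Bundle.Isom.trans ?_ (hl.twistInfty (-(m : ℤ)))
    refine Bundle.Isom.symm ((B.twistInfty_twistInfty _ _).trans ?_)
    rw [add_neg_cancel]
    exact B.twistInfty_zero

variable (D) in
/-- A number of fibres at infinity which is large enough for every algebraically closed field. -/
noncomputable def bigMult : ℕ := (1 - 2 * (D.structBundle k).chi).natAbs + 1

theorem le_bigMult : 1 - 2 * (D.structBundle K).chi ≤ ((D.bigMult : ℤ) - 1) * D.n := by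
  have hK : (D.structBundle K).chi = (D.structBundle k).chi := by
    rw [← (D.structBundle k).chi_mapTo K]
    exact (Bundle.isom_map_structBundle _).chi_eq.symm
  have hn : (1 : ℤ) ≤ D.n := by exact_mod_cast D.n_pos
  rw [hK, bigMult]
  push_cast
  rw [add_sub_cancel_right]
  calc 1 - 2 * (D.structBundle k).chi ≤ |1 - 2 * (D.structBundle k).chi| := le_abs_self _
    _ ≤ |1 - 2 * (D.structBundle k).chi| * D.n := le_mul_of_one_le_right (abs_nonneg _) hn

/-- The degree zero bundles are exactly the bundles of point tuples. -/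
theorem Bundle.isDegZero_iff_exists_pointFamily (B : D.Bundle K) :
    B.IsDegZero ↔ ∃ l : List (D.A0 →ₐ[k] K),
      l.length = D.bigMult * D.n ∧ B.Isom (pointFamily D.bigMult l) := by
  refine ⟨fun hB => B.exists_isom_pointFamily hB le_bigMult, fun ⟨l, hl, h⟩ => ?_⟩
  rw [Bundle.IsDegZero, h.chi_eq]
  exact isDegZero_pointFamily _ l hl

end Field

end ChartData

end FermatLib.AV
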