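import Fermat.Agent.AV.Jac.ChartFamily
import Fermat.Agent.AV.Jac.Points.Effective

/-!
Bundles of the algebraic model as points of a scheme representing the degree zero functor.
-/

set_option autoImplicit false
set_option linter.style.haveILetI false

universe u

open CategoryTheory CategoryTheory.Limits AlgebraicGeometry NeronModelInfra AlgebraicGeometry.RelPicard
  GoodReductionJacobian
open scoped TensorProduct

noncomputable section

namespace FermatLib.AV

namespace CurveCharts

variable {k : Type u} [Field k] {C : Scheme.{u}} {c : C ⟶ Spec (CommRingCat.of k)}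
  {ε : SchemeHomOver (𝟙 (Spec (CommRingCat.of k))) c} (P : CurveCharts k c ε)
  {R : Type u} [CommRing R] [Algebra k R]

lemma isRigidifiable_congr {B B' : P.toChartData.Bundle R} (h : B.Isom B') (hB : B.IsRigidifiable) :
    B'.IsRigidifiable := by
  obtain ⟨e⟩ := (P.isom_iff _ _).1 h.symm
  exact P.isRigidifiable_of_bundle_iso B' (P.chartRigBundle B hB) e

/-- A bundle is rigidifiable near every point of the base. -/
theorem exists_away_isRigidifiable (B : P.toChartData.Bundle R) (p : PrimeSpectrum R) :
    ∃ r : R, r ∉ p.asIdeal ∧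
      (B.map (IsScalarTower.toAlgHom k R (Localization.Away r))).IsRigidifiable := by
  let N := (Scheme.Modules.pullback (rigSection c (specStr k R) ε)).obj (P.toModules B)
  obtain ⟨U, hpU, ⟨eU⟩⟩ := ((P.isInvertible_toModules B).pullback
    (rigSection c (specStr k R) ε)).exists_trivialization (p : Spec (CommRingCat.of R))
  obtain ⟨_, ⟨_, ⟨r, rfl⟩, rfl⟩, hpr, hrU⟩ :=
    PrimeSpectrum.isBasis_basic_opens.exists_subset_of_mem_open
      (show (p : PrimeSpectrum R) ∈ (U.1 : Set (PrimeSpectrum R)) from hpU) U.2
  refine ⟨r, hpr, ?_⟩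
  let φ := IsScalarTower.toAlgHom k R (Localization.Away r)
  have hr : Set.range (specHom φ).1 ⊆ Set.range U.ι := by
    rw [Scheme.Opens.range_ι]
    intro q hq
    refine hrU ?_
    rw [← PrimeSpectrum.localization_away_comap_range (Localization.Away r) r]
    exact hq
  let l := IsOpenImmersion.lift U.ι (specHom φ).1 hr
  have hl : l ≫ U.ι = (specHom φ).1 := IsOpenImmersion.lift_fac _ _ _
  obtain ⟨e⟩ := P.toModules_pullback φ B (B.map φ) (B.mapHom φ) (B.isPullback_map φ)
  refine (P.isRigidifiable_iff _).2 ⟨(Scheme.Modules.pullback _).mapIso e.symm ≪≫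
    (Scheme.Modules.pullbackComp _ _).app _ ≪≫
    (Scheme.Modules.pullbackCongr ((rigSection_baseChangeSnd c ε (specHom φ)).trans
      (congrArg (· ≫ rigSection c (specStr k R) ε) hl.symm))).app _ ≪≫
    ((Scheme.Modules.pullbackComp _ _).app _).symm ≪≫
    ((Scheme.Modules.pullbackComp l U.ι).app _).symm ≪≫
    (Scheme.Modules.pullback l).mapIso eU ≪≫ Scheme.Modules.pullbackUnitIso l⟩

/-- Over a local ring every bundle is rigidifiable. -/
theorem isRigidifiable_of_isLocalRing [IsLocalRing R] (B : P.toChartData.Bundle R) :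
    B.IsRigidifiable := by
  obtain ⟨r, hr, h⟩ := P.exists_away_isRigidifiable B (IsLocalRing.closedPoint R)
  have hu : IsUnit r := by
    by_contra hu
    exact hr ((IsLocalRing.mem_maximalIdeal r).2 hu)
  let e : Localization.Away r →ₐ[k] R := IsLocalization.liftAlgHom (M := Submonoid.powers r)
    (f := AlgHom.id k R) (by
      rintro ⟨_, n, rfl⟩
      exact hu.pow n)
  have he : e.comp (IsScalarTower.toAlgHom k R (Localization.Away r)) = AlgHom.id k R :=
    AlgHom.ext fun a => IsLocalization.lift_eq (M := Submonoid.powers r) _ a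
  refine P.isRigidifiable_congr ?_ (P.isRigidifiable_map e h)
  exact (B.isom_map_map _ e).trans (he ▸ B.isom_map_id)

variable {D : RelativePic0Designation k c} (h : RepresentsRelSubPic c ε P.degZeroCut D)

/-- The point defined by a rigidifiable fibrewise degree zero bundle. -/
def classifyBundle (B : P.toChartData.Bundle R) (hr : B.IsRigidifiable)
    (hd : B.IsFibrewiseDegZero) : SchemeHomOver (specStr k R) D.toBase :=
  h.classify _ (P.chartRigBundle B hr) ((P.degZeroCut_affine_iff _ B ⟨Iso.refl _⟩).2 hd)

theorem classifyBundle_spec (B : P.toChartData.Bundle R) (hr : B.IsRigidifiable)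
    (hd : B.IsFibrewiseDegZero) :
    Glue.BunIso (h.poincare.pullbackAlong (P.classifyBundle h B hr hd)) (P.chartRigBundle B hr) :=
  h.classify_spec _ _ _

/-- The points of two isomorphic bundles agree. -/
theorem classifyBundle_congr {S : Type u} [CommRing S] [Algebra k S] {L : Type u} [CommRing L]
    [Algebra k L] (φ : R →ₐ[k] L) (ψ : S →ₐ[k] L) (B : P.toChartData.Bundle R)
    (B' : P.toChartData.Bundle S) (hr : B.IsRigidifiable) (hd : B.IsFibrewiseDegZero)
    (hr' : B'.IsRigidifiable) (hd' : B'.IsFibrewiseDegZero) (hi : (B.map φ).Isom (B'.map ψ)) :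
    (specHom φ).1 ≫ (P.classifyBundle h B hr hd).1 =
      (specHom ψ).1 ≫ (P.classifyBundle h B' hr' hd').1 := by
  refine congrArg Subtype.val (h.ext_of_iso _ (postComp (P.classifyBundle h B hr hd) (specHom φ))
    (postComp (P.classifyBundle h B' hr' hd') (specHom ψ)) ?_)
  exact ((Glue.bunIso_pull_pull h.poincare _ (specHom φ) _ rfl).symm.trans
    ((P.classifyBundle_spec h B hr hd).pull (specHom φ))).trans
    ((P.bunIso_of_isom_map φ ψ B B' _ _ ⟨Iso.refl _⟩ ⟨Iso.refl _⟩ hi).trans
      (((P.classifyBundle_spec h B' hr' hd').pull (specHom ψ)).symm.trans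
        (Glue.bunIso_pull_pull h.poincare _ (specHom ψ) _ rfl)))

/-- A point is defined by the bundle pulled back along it. -/
theorem eq_classifyBundle (g : SchemeHomOver (specStr k R) D.toBase) (B : P.toChartData.Bundle R)
    (hr : B.IsRigidifiable) (hd : B.IsFibrewiseDegZero)
    (e : Nonempty (P.toModules B ≅ (h.poincare.pullbackAlong g).L)) :
    g = P.classifyBundle h B hr hd :=
  h.classify_unique _ _ _ g ⟨e.some.symm⟩

include h in
/-- Every affine valued point comes from a bundle. -/
theorem exists_classifyBundle_eq (g : SchemeHomOver (specStr k R) D.toBase) :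
    ∃ (B : P.toChartData.Bundle R) (hr : B.IsRigidifiable) (hd : B.IsFibrewiseDegZero),
      g = P.classifyBundle h B hr hd := by
  obtain ⟨B, hB⟩ := P.exists_bundle _ (h.poincare.pullbackAlong g).isInvertible
  have hr := P.isRigidifiable_of_bundle_iso B _ hB.some
  have hd := (P.degZeroCut_affine_iff (h.poincare.pullbackAlong g) B hB).1
    (P.degZeroCut.pullback_mem _ _ g _ h.poincare_mem)
  exact ⟨B, hr, hd, P.eq_classifyBundle h g B hr hd hB⟩

section Field

variable {K : Type u} [Field K] [Algebra k K]

lemma isDegZero_of_isFibrewiseDegZero {B : P.toChartData.Bundle K} (hd : B.IsFibrewiseDegZero) :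
    B.IsDegZero :=
  B.isom_map_id.chi_eq.symm.trans (P.map_isDegZero hd K (AlgHom.id k K))

end Field

/-- Tuples of sections give fibrewise degree zero bundles. -/
theorem isFibrewiseDegZero_pointFamily [IsAlgClosed k] (m : ℕ)
    (l : List (P.toChartData.A0 →ₐ[k] R)) (hl : l.length = m * P.toChartData.n) :
    (ChartData.pointFamily m l).IsFibrewiseDegZero := fun p => by
  rw [ChartData.Bundle.IsDegZero, (ChartData.map_pointFamily m l _).chi_eq]
  exact ChartData.isDegZero_pointFamily m _ (by rw [List.length_map, hl])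

end CurveCharts

end FermatLib.AV
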