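import Fermat.Agent.AV.Jac.Points.IdealPair

/-!
The diagonal ideal of a Dedekind algebra of finite type over an algebraically closed field has a
complement with respect to any of its elements of the form `1 ⊗ a - a ⊗ 1`.
-/

set_option autoImplicit false

universe u

open scoped TensorProduct

namespace FermatLib.AV.Points

variable (k : Type u) [Field k] (A : Type u) [CommRing A] [Algebra k A]

/-- The difference of the two images of an element in the tensor square. -/
noncomputable def diagDelta (a : A) : A ⊗[k] A := (1 : A) ⊗ₜ[k] a - a ⊗ₜ[k] (1 : A)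

/-- The ideal of the diagonal. -/
noncomputable def diagIdeal : Ideal (A ⊗[k] A) := Ideal.span (Set.range (diagDelta k A))

variable {k A}

theorem diagDelta_mem (a : A) : diagDelta k A a ∈ diagIdeal k A := Ideal.subset_span ⟨a, rfl⟩

theorem diagDelta_mul (a b : A) : diagDelta k A (a * b) =
    ((1 : A) ⊗ₜ[k] a) * diagDelta k A b + (b ⊗ₜ[k] (1 : A)) * diagDelta k A a := by
  simp only [diagDelta, mul_sub, Algebra.TensorProduct.tmul_mul_tmul, one_mul, mul_one,
    mul_comm b a]
  abel

theorem diagDelta_add (a b : A) : diagDelta k A (a + b) = diagDelta k A a + diagDelta k A b := by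
  simp only [diagDelta, TensorProduct.tmul_add, TensorProduct.add_tmul]
  abel

theorem diagDelta_algebraMap (r : k) : diagDelta k A (algebraMap k A r) = 0 := by
  simp only [diagDelta, Algebra.algebraMap_eq_smul_one, TensorProduct.tmul_smul,
    TensorProduct.smul_tmul', sub_self]

theorem exists_mul_diagIdeal [IsAlgClosed k] [IsDomain A] [IsDedekindRing A]
    [Algebra.FiniteType k A] (a : A) :
    ∃ J : Ideal (A ⊗[k] A), diagIdeal k A * J = Ideal.span {diagDelta k A a} := by
  have : IsDedekindDomain A := { }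
  refine exists_mul_eq_span (diagDelta_mem a) fun m hm hle => ?_
  have : Algebra.FiniteType k (A ⊗[k] A) :=
    Algebra.FiniteType.trans (S := A) inferInstance inferInstance
  have : IsNoetherianRing (A ⊗[k] A) := Algebra.FiniteType.isNoetherianRing k _
  let _ := Ideal.Quotient.field m
  have hft : Algebra.FiniteType k ((A ⊗[k] A) ⧸ m) :=
    Algebra.FiniteType.of_surjective (Ideal.Quotient.mkₐ k m) (Ideal.Quotient.mkₐ_surjective k m)
  have hfin : Module.Finite k ((A ⊗[k] A) ⧸ m) := finite_of_finite_type_of_isJacobsonRing k _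
  have hbij : Function.Bijective (algebraMap k ((A ⊗[k] A) ⧸ m)) :=
    IsAlgClosed.algebraMap_bijective_of_isIntegral
  let ψ : A ⊗[k] A →ₐ[k] k :=
    (AlgEquiv.ofBijective (Algebra.ofId k _) hbij).symm.toAlgHom.comp (Ideal.Quotient.mkₐ k m)
  have hψ : ∀ z, ψ z = 0 ↔ z ∈ m := fun z => by
    simp only [ψ, AlgHom.comp_apply, Ideal.Quotient.mkₐ_eq_mk]
    exact (map_eq_zero_iff _ (AlgEquiv.injective _)).trans Ideal.Quotient.eq_zero_iff_mem
  let q : A →ₐ[k] k := ψ.comp Algebra.TensorProduct.includeRight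
  have hq1 : ∀ z, ψ ((1 : A) ⊗ₜ[k] z) = q z := fun z => rfl
  have hq2 : ∀ z, ψ (z ⊗ₜ[k] (1 : A)) = q z := fun z => by
    have h := (hψ _).2 (hle (diagDelta_mem (k := k) z))
    rw [diagDelta, map_sub, hq1, sub_eq_zero] at h
    exact h.symm
  let n : Ideal A := RingHom.ker q
  have hn : n.IsMaximal := RingHom.ker_isMaximal_of_surjective q fun r => ⟨algebraMap k A r, by simp⟩
  obtain ⟨t, ht, htop⟩ : ∃ t ∈ n, n ≤ Ideal.span {t} ⊔ n * n := by
    by_cases h0 : n = ⊥
    · exact ⟨0, by simp, by simp [h0]⟩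
    · have hsq : ¬ n ≤ n ^ 2 := fun h => by
        have h2 := Ideal.pow_right_strictAnti n h0 hn.ne_top (show (1 : ℕ) < 2 by omega)
        simp only [pow_one] at h2
        exact h2.not_ge h
      obtain ⟨t, ht, ht'⟩ := SetLike.not_le_iff_exists.1 hsq
      refine ⟨t, ht, ?_⟩
      have hlt : n ^ (1 + 1) < Ideal.span {t} ⊔ n ^ 2 :=
        lt_of_le_of_ne le_sup_right fun h => ht'
          (h ▸ Submodule.mem_sup_left (Ideal.mem_span_singleton_self t))
      have hle' : Ideal.span {t} ⊔ n ^ 2 ≤ n ^ 1 := by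
        rw [pow_one]
        exact sup_le ((Ideal.span_singleton_le_iff_mem _).2 ht) (Ideal.pow_le_self two_ne_zero)
      have : n.IsPrime := hn.isPrime
      have h := Ideal.eq_prime_pow_of_succ_lt_of_le h0 hlt hle'
      rw [pow_one, pow_two] at h
      exact h.ge
  have hI : diagIdeal k A ≤ Ideal.span {diagDelta k A t} ⊔ m * diagIdeal k A := by
    refine Ideal.span_le.2 ?_
    rintro _ ⟨b, rfl⟩
    have hb : b - algebraMap k A (q b) ∈ n := by simp [n, RingHom.mem_ker]
    obtain ⟨_, hut, z, hz, hbz⟩ := Submodule.mem_sup.1 (htop hb)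
    obtain ⟨u, rfl⟩ := Ideal.mem_span_singleton'.1 hut
    have hb' : b = algebraMap k A (q b) + (u * t + z) := by linear_combination -hbz
    rw [SetLike.mem_coe, hb', diagDelta_add, diagDelta_algebraMap, zero_add, diagDelta_add,
      diagDelta_mul]
    refine Submodule.add_mem _ (Submodule.add_mem _ ?_ ?_) ?_
    · exact Submodule.mem_sup_left
        (Ideal.mul_mem_left _ _ (Ideal.mem_span_singleton_self _))
    · exact Submodule.mem_sup_right (Ideal.mul_mem_mul ((hψ _).1 ((hq2 t).trans ht))
        (diagDelta_mem u))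
    · refine Submodule.mul_induction_on hz (fun c hc e he => ?_) fun c e hc he => ?_
      · rw [diagDelta_mul]
        exact Submodule.mem_sup_right (Ideal.add_mem _
          (Ideal.mul_mem_mul ((hψ _).1 ((hq1 c).trans hc)) (diagDelta_mem e))
          (Ideal.mul_mem_mul ((hψ _).1 ((hq2 e).trans he)) (diagDelta_mem c)))
      · rw [diagDelta_add]
        exact Submodule.add_mem _ hc he
  let Q : Ideal (A ⊗[k] A) := Ideal.span {diagDelta k A t}
  have hN : Submodule.map Q.mkQ (diagIdeal k A) ≤ m • Submodule.map Q.mkQ (diagIdeal k A) := by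
    rw [← Submodule.map_smul'']
    refine (Submodule.map_mono hI).trans ?_
    rw [Submodule.map_sup, Submodule.mkQ_map_self, bot_sup_eq, smul_eq_mul]
  obtain ⟨r, hr, hr'⟩ := Submodule.exists_sub_one_mem_and_smul_eq_zero_of_fg_of_le_smul m _
    (Submodule.FG.map _ (IsNoetherian.noetherian _)) hN
  refine ⟨diagDelta k A t, diagDelta_mem t, r, fun hrm => hm.ne_top ?_, fun i hi => ?_⟩
  · exact (Ideal.eq_top_iff_one m).2 (by simpa using m.sub_mem hrm hr)
  · have h := hr' _ (Submodule.mem_map_of_mem hi)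
    rw [Submodule.mkQ_apply, ← Submodule.Quotient.mk_smul, Submodule.Quotient.mk_eq_zero,
      Ideal.mem_span_singleton'] at h
    obtain ⟨v, hv⟩ := h
    exact ⟨v, by rw [hv, smul_eq_mul]⟩

end FermatLib.AV.Points
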