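import Fermat.Agent.AV.Jac.Points.Twist

/-!
Injective morphisms of bundles over a field: cokernels are finite away from infinity, so vanishing
of the first cohomology propagates.
-/

set_option autoImplicit false
set_option linter.unusedSectionVars false

universe u

open scoped TensorProduct

namespace FermatLib.AV

namespace ChartData

variable {k : Type u} [Field k] {D : ChartData k}

section Ring

variable {R : Type u} [CommRing R] [Algebra k R]

namespace Bundle

theorem invertible_M_overlap (B : D.Bundle R) : Module.Invertible (D.R01 R) B.M := by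
  let : Algebra (D.R0 R) (D.R01 R) := (D.r0 R).toRingHom.toAlgebra
  have : IsScalarTower (D.R0 R) (D.R01 R) B.M := IsScalarTower.of_algebraMap_smul B.smul0
  have h := B.isLocalizedModule_L0
  exact Module.Invertible.congr h.equiv

/-- For an invertible module every functional satisfies the exchange identity. -/
theorem exchange (B : D.Bundle R) (φ : B.M →ₗ[D.R01 R] D.R01 R) (m n : B.M) :
    φ m • n = φ n • m := by
  have := B.invertible_M_overlap
  let μ : B.M ⊗[D.R01 R] B.M →ₗ[D.R01 R] B.M :=
    TensorProduct.lift (LinearMap.mk₂ (D.R01 R) (fun a b => φ a • b)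
      (fun a a' b => by rw [map_add, add_smul]) (fun c a b => by rw [map_smul, smul_assoc])
      (fun a b b' => smul_add _ _ _) (fun c a b => smul_comm _ _ _))
  exact congrArg μ (Module.Invertible.tmul_comm (R := D.R01 R) (m₁ := m) (m₂ := n))

/-- An injective morphism of bundles. -/
structure Emb (B B' : D.Bundle R) : Type u where
  map : B.M →ₗ[D.R01 R] B'.M
  injective : Function.Injective map
  mem0 : ∀ m ∈ B.L0, map m ∈ B'.L0
  mem1 : ∀ m ∈ B.L1, map m ∈ B'.L1

/-- There is an injective morphism. -/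
def Embeds (B B' : D.Bundle R) : Prop := Nonempty (B.Emb B')

theorem Isom.embeds {B B' : D.Bundle R} (h : B.Isom B') : B.Embeds B' := by
  obtain ⟨e⟩ := h
  exact ⟨⟨e.toEquiv.toLinearMap, e.toEquiv.injective, fun m => (e.mem0 m).2,
    fun m => (e.mem1 m).2⟩⟩

theorem Embeds.trans {B B' B'' : D.Bundle R} (h : B.Embeds B') (h' : B'.Embeds B'') :
    B.Embeds B'' := by
  obtain ⟨f⟩ := h
  obtain ⟨g⟩ := h'
  exact ⟨⟨g.map.comp f.map, g.injective.comp f.injective, fun m hm => g.mem0 _ (f.mem0 m hm),
    fun m hm => g.mem1 _ (f.mem1 m hm)⟩⟩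

theorem Embeds.twistInfty {B B' : D.Bundle R} (h : B.Embeds B') (d : ℤ) :
    (B.twistInfty d).Embeds (B'.twistInfty d) := by
  obtain ⟨f⟩ := h
  refine ⟨⟨f.map, f.injective, f.mem0, ?_⟩⟩
  rintro _ ⟨m, hm, rfl⟩
  refine ⟨f.map m, f.mem1 m hm, ?_⟩
  rw [B'.xAut_zpow_apply, B.xAut_zpow_apply]
  exact (map_smul f.map _ _).symm

end Bundle

theorem Div.embeds_twist (E : D.Div R) {B B' : D.Bundle R} (h : B.Embeds B') :
    (E.twist B).Embeds (E.twist B') := by
  obtain ⟨f⟩ := h
  have hmem : ∀ z ∈ E.I01 • (⊤ : Submodule (D.R01 R) B.M),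
      f.map z ∈ E.I01 • (⊤ : Submodule (D.R01 R) B'.M) := fun z hz => by
    refine Submodule.smul_induction_on hz (fun a ha m _ => ?_) fun x y hx hy => by
      rw [map_add]; exact add_mem hx hy
    rw [map_smul]
    exact Submodule.smul_mem_smul ha trivial
  let g : (E.twist B).M →ₗ[D.R01 R] (E.twist B').M :=
    { toFun := fun z => ⟨f.map (E.twistIncl B z), hmem _ z.2⟩
      map_add' := fun a b => Subtype.ext
        ((congrArg f.map (map_add (E.twistIncl B) a b)).trans (map_add _ _ _))
      map_smul' := fun r a => Subtype.ext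
        ((congrArg f.map (map_smul (E.twistIncl B) r a)).trans (map_smul _ _ _)) }
  refine ⟨⟨g, fun a b hab => E.incl_injective B (f.injective (congrArg Subtype.val hab)),
    fun m hm => ?_, fun m hm => ?_⟩⟩
  · have hm' : E.twistIncl B m ∈ E.I0 • B.L0 := hm
    change f.map (E.twistIncl B m) ∈ E.I0 • B'.L0
    refine Submodule.smul_induction_on hm' (fun a ha l hl => ?_) fun x y hx hy => by
      rw [map_add]; exact add_mem hx hy
    rw [← B.smul0, map_smul, B'.smul0]
    exact Submodule.smul_mem_smul ha (f.mem0 l hl)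
  · have hm' : E.twistIncl B m ∈ E.I1 • B.L1 := hm
    change f.map (E.twistIncl B m) ∈ E.I1 • B'.L1
    refine Submodule.smul_induction_on hm' (fun a ha l hl => ?_) fun x y hx hy => by
      rw [map_add]; exact add_mem hx hy
    rw [← B.smul1, map_smul, B'.smul1]
    exact Submodule.smul_mem_smul ha (f.mem1 l hl)

theorem embeds_twistBy [IsAlgClosed k] (i : D.TwistIndex) {B B' : D.Bundle R}
    (h : B.Embeds B') : (twistBy i B).Embeds (twistBy i B') := by
  have key : ∀ (l : List (D.A01 →ₐ[k] k)) {B B' : D.Bundle R}, B.Embeds B' →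
      (twistList l B).Embeds (twistList l B') := by
    intro l
    induction l with
    | nil => exact fun h => h
    | cons q l ih => exact fun h => (ratPoint q R).embeds_twist (ih h)
  exact key _ (h.twistInfty _)

end Ring

section Field

variable {K : Type u} [Field K] [Algebra k K]

theorem isDomain_overlap : IsDomain (D.R01 K) := by
  have := D.isDomain0 K
  let := (D.r0 K).toRingHom.toAlgebra
  have := D.isLocalizationAway_r0 K
  refine IsLocalization.isDomain_of_le_nonZeroDivisors (D.R01 K) (M := Submonoid.powers (D.xR K)) ?_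
  refine powers_le_nonZeroDivisors_of_noZeroDivisors fun h => ?_
  have h' := D.regular_xR_sub K 0
  rw [map_zero, sub_zero, h] at h'
  exact one_ne_zero (α := D.R0 K) (h' (a₁ := 1) (a₂ := 0) (by simp))

/-- A nonzero function on the overlap divides a polynomial in the coordinate with nonzero constant
term. -/
theorem exists_poly_mem {z : D.R01 K} (hz : z ≠ 0) :
    ∃ p : Polynomial K, p.coeff 0 ≠ 0 ∧
      D.r0 K (Polynomial.aeval (D.xR K) p) ∈ Ideal.span {z} := by
  have := D.isDomain0 K
  have hu : IsUnit (D.r0 K (D.xR K)) := IsUnit.of_mul_eq_one _ (D.r0_x_mul_r1_y K)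
  obtain ⟨N, z0, hz0⟩ := D.exists_pow_mul_r0 K z
  have hz0' : z0 ≠ 0 := fun h => hz (by
    rw [h, map_zero] at hz0
    exact (hu.pow N).mul_right_eq_zero.1 hz0)
  let : Algebra (Polynomial K) (D.R0 K) := (Polynomial.aeval (D.xR K)).toRingHom.toAlgebra
  have : Module.Finite (Polynomial K) (D.R0 K) := by
    classical
    refine ⟨⟨Finset.univ.image fun i => (1 : K) ⊗ₜ[k] D.b0 i, eq_top_iff.2 fun a _ => ?_⟩⟩
    rw [← (D.rBasis0 K).linearCombination_repr a, Finsupp.linearCombination_apply]
    refine Submodule.finsuppSum_mem _ _ _ _ fun p _ => ?_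
    rw [rBasis0_apply, show (D.rBasis0 K).repr a p • (D.xR K ^ p.2 * ((1 : K) ⊗ₜ[k] D.b0 p.1)) =
      (Polynomial.monomial p.2 ((D.rBasis0 K).repr a p) : Polynomial K) •
        ((1 : K) ⊗ₜ[k] D.b0 p.1) by
      rw [Algebra.smul_def, Algebra.smul_def, RingHom.algebraMap_toAlgebra]
      simp [Polynomial.aeval_monomial]]
    exact Submodule.smul_mem _ _ (Submodule.subset_span (Finset.mem_coe.2
      (Finset.mem_image.2 ⟨p.1, Finset.mem_univ _, rfl⟩)))
  obtain ⟨q, hq, hq0⟩ := (Submodule.ne_bot_iff _).1 (Ideal.comap_ne_bot_of_integral_mem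
    (I := Ideal.span {z0}) hz0' (Ideal.mem_span_singleton_self z0)
    (Algebra.IsIntegral.isIntegral (R := Polynomial K) z0))
  obtain ⟨p, hp, hdiv⟩ := q.exists_eq_pow_rootMultiplicity_mul_and_not_dvd hq0 0
  refine ⟨p, fun h => hdiv ?_, ?_⟩
  · rw [map_zero, sub_zero]
    exact Polynomial.X_dvd_iff.2 h
  · have hmem : Polynomial.aeval (D.xR K) q ∈ Ideal.span {z0} := hq
    rw [hp, map_zero, sub_zero, map_mul, map_pow, Polynomial.aeval_X] at hmem
    obtain ⟨a, ha⟩ := Ideal.mem_span_singleton'.1 hmem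
    refine (Ideal.unit_mul_mem_iff_mem _ (hu.pow (q.rootMultiplicity 0))).1
      (Ideal.mem_span_singleton'.2 ⟨D.r0 K a * D.r0 K (D.xR K) ^ N, ?_⟩)
    rw [mul_assoc, hz0, ← map_mul, ha, map_mul, map_pow]

/-- A submodule killing a polynomial with nonzero constant term spans with the first lattice. -/
theorem Bundle.mem_sup_L0_of_poly (B : D.Bundle K) {N : Submodule (D.R01 K) B.M}
    {p : Polynomial K} (hp : p.coeff 0 ≠ 0)
    (hN : ∀ m, Polynomial.aeval (D.xR K) p • m ∈ N) (m : B.M) :
    m ∈ N.restrictScalars K ⊔ B.L0.restrictScalars K := by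
  obtain ⟨e, he⟩ := B.exists_mem0 m
  obtain ⟨u, hu⟩ := Polynomial.X_dvd_sub_C (p := p)
  induction e generalizing m with
  | zero => exact Submodule.mem_sup_right (by simpa using he)
  | succ e ih =>
    have h : D.xR K • m ∈ N.restrictScalars K ⊔ B.L0.restrictScalars K :=
      ih _ (by rwa [← mul_smul, ← pow_succ])
    have hid : Polynomial.aeval (D.xR K) p • m = p.coeff 0 • m +
        Polynomial.aeval (D.xR K) u • (D.xR K • m) := by
      have hp' : Polynomial.aeval (D.xR K) p =
          algebraMap K (D.R0 K) (p.coeff 0) + Polynomial.aeval (D.xR K) u * D.xR K := by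
        have h' := congrArg (Polynomial.aeval (D.xR K)) hu
        rw [map_sub, map_mul, Polynomial.aeval_C, Polynomial.aeval_X] at h'
        rw [mul_comm, ← h', add_sub_cancel]
      rw [hp', add_smul, IsScalarTower.algebraMap_smul, mul_smul]
    have hm : m = (p.coeff 0)⁻¹ • (Polynomial.aeval (D.xR K) p • m) -
        (p.coeff 0)⁻¹ • (Polynomial.aeval (D.xR K) u • (D.xR K • m)) := by
      rw [hid, smul_add, add_sub_cancel_right, smul_smul, inv_mul_cancel₀ hp, one_smul]
    rw [hm]
    refine sub_mem (Submodule.smul_mem _ _ (Submodule.mem_sup_left (hN m)))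
      (Submodule.smul_mem _ _ ?_)
    obtain ⟨a, ha, b, hb, hab⟩ := Submodule.mem_sup.1 h
    rw [← hab, smul_add]
    refine add_mem (Submodule.mem_sup_left ?_) (Submodule.mem_sup_right (B.L0.smul_mem _ hb))
    change Polynomial.aeval (D.xR K) u • a ∈ N
    rw [← B.smul0]
    exact N.smul_mem _ ha

/-- The cokernel of an injective morphism on the overlap is absorbed by the first lattice. -/
theorem Bundle.mem_range_sup_of_emb {B B' : D.Bundle K} (f : B.Emb B') (hne : Nontrivial B.M)
    (m : B'.M) : ∃ z : B.M, ∃ l ∈ B'.L0, f.map z + l = m := by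
  obtain ⟨b, hb⟩ := exists_ne (0 : B.M)
  have hs : f.map b ≠ 0 := fun h => hb (f.injective (h.trans (map_zero f.map).symm))
  have := isDomain_overlap (D := D) (K := K)
  have := B'.invertible_M_overlap
  obtain ⟨φ, hφ⟩ : ∃ φ : B'.M →ₗ[D.R01 K] D.R01 K, φ (f.map b) ≠ 0 := by
    by_contra h
    simp only [not_exists, not_not] at h
    exact hs ((Module.forall_dual_apply_eq_zero_iff (D.R01 K) (f.map b)).1 h)
  obtain ⟨p, hp, hmem⟩ := exists_poly_mem hφ
  obtain ⟨a, ha⟩ := Ideal.mem_span_singleton'.1 hmem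
  have hN : ∀ m, Polynomial.aeval (D.xR K) p • m ∈ LinearMap.range f.map := fun m => by
    rw [← B'.smul0, ← ha, mul_smul, B'.exchange φ (f.map b) m]
    exact Submodule.smul_mem _ _ (Submodule.smul_mem _ _ ⟨b, rfl⟩)
  obtain ⟨_, ⟨z, rfl⟩, l, hl, h⟩ := Submodule.mem_sup.1 (B'.mem_sup_L0_of_poly hp hN m)
  exact ⟨z, l, hl, h⟩

/-- An injective morphism is surjective on first cohomology. -/
theorem Bundle.finrank_H1_le_of_embeds {B B' : D.Bundle K} (h : B.Embeds B')
    (hne : Nontrivial B.M) : Module.finrank K B'.H1 ≤ Module.finrank K B.H1 := by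
  obtain ⟨f⟩ := h
  have := B.finite_H1
  let q : B.H1 →ₗ[K] B'.H1 := Submodule.mapQ _ _ (f.map.restrictScalars K) (sup_le
    (fun z hz => Submodule.mem_sup_left (f.mem0 z hz))
    (fun z hz => Submodule.mem_sup_right (f.mem1 z hz)))
  refine LinearMap.finrank_le_finrank_of_surjective (f := q) fun w => ?_
  obtain ⟨m, rfl⟩ := Submodule.mkQ_surjective _ w
  obtain ⟨z, l, hl, rfl⟩ := Bundle.mem_range_sup_of_emb f hne m
  refine ⟨Submodule.Quotient.mk z, (Submodule.Quotient.eq _).2 ?_⟩
  change f.map z - (f.map z + l) ∈ _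
  rw [sub_add_cancel_left]
  exact Submodule.mem_sup_left (Submodule.neg_mem _ hl)

/-- Vanishing of the first cohomology propagates along injective morphisms. -/
theorem Bundle.sup_eq_top_of_embeds {B B' : D.Bundle K} (h : B.Embeds B') (hne : Nontrivial B.M)
    (htop : B.L0.restrictScalars K ⊔ B.L1.restrictScalars K = ⊤) :
    B'.L0.restrictScalars K ⊔ B'.L1.restrictScalars K = ⊤ := by
  have := B'.finite_H1
  have := B.subsingleton_H1_iff.2 htop
  refine B'.subsingleton_H1_iff.1 (Module.finrank_zero_iff (R := K).1 (Nat.le_zero.1 ?_))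
  exact (Bundle.finrank_H1_le_of_embeds h hne).trans (Module.finrank_zero_of_subsingleton).le

end Field

end ChartData

end FermatLib.AV
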