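import Fermat.Agent.AV.Jac.Points.Div
import Fermat.Agent.AV.Jac.Points.DiagIdeal

/-!
The divisor of a section of the curve lying in one of the two charts.
-/

set_option autoImplicit false

universe u

open scoped TensorProduct

namespace FermatLib.AV

namespace Points

/-- If multiplication by `w` shifts a basis indexed by `σ × ℕ` then `w` minus a scalar is regular. -/
theorem isSMulRegular_shift {R A : Type u} {σ : Type*} [CommRing R] [CommRing A] [Algebra R A]
    (b : Module.Basis (Σ _ : σ, ℕ) R A) {w : A} (hw : ∀ i e, w * b ⟨i, e⟩ = b ⟨i, e + 1⟩) (c : R) :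
    IsSMulRegular A (w - algebraMap R A c) := by
  refine IsSMulRegular.of_right_eq_zero_of_smul fun z hz => b.repr.injective ?_
  classical
  have hshift : ∀ i e (z : A), b.repr (w * z) ⟨i, e + 1⟩ = b.repr z ⟨i, e⟩ := by
    intro i e z
    have : ((Finsupp.lapply (⟨i, e + 1⟩ : Σ _ : σ, ℕ)).comp b.repr.toLinearMap).comp
        (LinearMap.mulLeft R w) =
          (Finsupp.lapply (⟨i, e⟩ : Σ _ : σ, ℕ)).comp b.repr.toLinearMap := by
      refine b.ext fun ⟨j, f⟩ => ?_
      simp [hw, Finsupp.single_apply]
    exact LinearMap.congr_fun this z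
  rw [smul_eq_mul, sub_mul, sub_eq_zero, ← Algebra.smul_def] at hz
  have hrec : ∀ i e, b.repr z ⟨i, e⟩ = c * b.repr z ⟨i, e + 1⟩ := fun i e => by
    rw [← hshift, hz, map_smul, Finsupp.smul_apply, smul_eq_mul]
  obtain ⟨N, hN⟩ : ∃ N, ∀ p ∈ (b.repr z).support, p.2 < N :=
    ⟨(b.repr z).support.sup (fun p => p.2) + 1, fun p hp =>
      Nat.lt_succ_of_le (Finset.le_sup (f := fun p : Σ _ : σ, ℕ => p.2) hp)⟩
  have : ∀ d e i, N ≤ e + d → b.repr z ⟨i, e⟩ = 0 := by
    intro d
    induction d with
    | zero => exact fun e i h => by_contra fun h' =>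
        absurd (hN _ (Finsupp.mem_support_iff.2 h')) (by simpa using h)
    | succ d ih => exact fun e i h => by rw [hrec, ih (e + 1) i (by omega), mul_zero]
  rw [map_zero]
  ext ⟨i, e⟩
  exact this N e i (Nat.le_add_left _ _)

theorem isDedekindRing_of_equiv {A B : Type u} [CommRing A] [CommRing B] [IsDomain A] [IsDomain B]
    [IsDedekindRing A] (e : A ≃+* B) : IsDedekindRing B :=
  { isNoetherianRing_of_ringEquiv A e with
    maximalOfPrime := fun {q} hq0 hq => by
      have hne : q.comap e.toRingHom ≠ ⊥ := fun h => hq0 (by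
        rw [eq_bot_iff]
        intro z hz
        have h2 : e.symm z ∈ q.comap e.toRingHom := by
          change e (e.symm z) ∈ q
          rwa [e.apply_symm_apply]
        rw [h, Ideal.mem_bot] at h2
        simpa using congrArg e h2)
      have hmax : (q.comap e.toRingHom).IsMaximal :=
        (Ideal.comap_isPrime e.toRingHom q).isMaximal hne
      have hq' : q = (q.comap e.toRingHom).map e.toRingHom :=
        (Ideal.map_comap_of_surjective _ e.surjective q).symm
      rw [hq']
      exact Ideal.map_isMaximal_of_equiv e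
    toIsIntegralClosure := (IsIntegrallyClosed.of_equiv e :) }

end Points

namespace ChartData

variable {k : Type u} [Field k] (D : ChartData k)

theorem isDomain_A0 : IsDomain D.A0 :=
  have := D.isDomain0 k
  (Algebra.TensorProduct.lid k D.A0).symm.injective.isDomain
    (Algebra.TensorProduct.lid k D.A0).symm.toRingHom

theorem isDomain_A1 : IsDomain D.A1 :=
  have := D.isDomain1 k
  (Algebra.TensorProduct.lid k D.A1).symm.injective.isDomain
    (Algebra.TensorProduct.lid k D.A1).symm.toRingHom

theorem isDedekindRing_A0 : IsDedekindRing D.A0 := by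
  have := D.isDomain_A0
  have := D.isDomain0 k
  have : IsDedekindDomain (k ⊗[k] D.A0) := { D.isDedekind0 k with }
  exact Points.isDedekindRing_of_equiv (Algebra.TensorProduct.lid k D.A0).toRingEquiv

theorem isDedekindRing_A1 : IsDedekindRing D.A1 := by
  have := D.isDomain_A1
  have := D.isDomain1 k
  have : IsDedekindDomain (k ⊗[k] D.A1) := { D.isDedekind1 k with }
  exact Points.isDedekindRing_of_equiv (Algebra.TensorProduct.lid k D.A1).toRingEquiv

theorem finiteType_A0 : Algebra.FiniteType k D.A0 := by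
  classical
  refine ⟨⟨insert D.x (Finset.univ.image D.b0), eq_top_iff.2 fun a _ => ?_⟩⟩
  obtain ⟨p, rfl⟩ := D.basis0.2 a
  refine sum_mem fun i _ => mul_mem ?_ (Algebra.subset_adjoin (by simp))
  exact Algebra.adjoin_mono (by simp) (Polynomial.aeval_mem_adjoin_singleton k D.x)

theorem finiteType_A1 : Algebra.FiniteType k D.A1 := by
  classical
  refine ⟨⟨insert D.y (Finset.univ.image D.b1), eq_top_iff.2 fun a _ => ?_⟩⟩
  obtain ⟨p, rfl⟩ := D.basis1.2 a
  refine sum_mem fun i _ => mul_mem ?_ (Algebra.subset_adjoin (by simp))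
  exact Algebra.adjoin_mono (by simp) (Polynomial.aeval_mem_adjoin_singleton k D.y)

variable (R : Type u) [CommRing R] [Algebra k R]

theorem regular_xR_sub (c : R) : IsSMulRegular (D.R0 R) (D.xR R - algebraMap R (D.R0 R) c) :=
  Points.isSMulRegular_shift (D.rBasis0 R) (fun i e => by
    rw [rBasis0_apply, rBasis0_apply, ← mul_assoc, ← pow_succ']) c

theorem regular_yR_sub (c : R) : IsSMulRegular (D.R1 R) (D.yR R - algebraMap R (D.R1 R) c) :=
  Points.isSMulRegular_shift (D.rBasis1 R) (fun i e => by
    rw [rBasis1_apply, rBasis1_apply, ← mul_assoc, ← pow_succ']) c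

theorem regular_one_sub_mul_xR (c : R) :
    IsSMulRegular (D.R0 R) (1 - algebraMap R (D.R0 R) c * D.xR R) := by
  refine IsSMulRegular.of_right_eq_zero_of_smul fun z hz => D.r0_injective R ?_
  rw [map_zero]
  obtain ⟨N, a, ha⟩ := D.exists_pow_mul_r1 R (D.r0 R z)
  have h : D.r0 R (1 - algebraMap R (D.R0 R) c * D.xR R) * D.r1 R (D.yR R) =
      D.r1 R (D.yR R - algebraMap R (D.R1 R) c) := by
    simp only [map_sub, map_mul, map_one, AlgHom.commutes]
    linear_combination -(algebraMap R (D.R01 R) c) * D.r0_x_mul_r1_y R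
  have hz' : (D.yR R - algebraMap R (D.R1 R) c) * a = 0 := D.r1_injective (by
    rw [smul_eq_mul] at hz
    rw [map_mul, map_zero, ← h, ← ha, show ∀ s t u v : D.R01 R,
      s * t * (u * v) = t * u * (s * v) from fun _ _ _ _ => by ring, ← map_mul, hz, map_zero,
      mul_zero])
  rw [(D.regular_yR_sub R c).right_eq_zero_of_smul hz', map_zero] at ha
  exact ((IsUnit.of_mul_eq_one _ (by rw [mul_comm]; exact D.r0_x_mul_r1_y R)).pow N
    ).mul_right_eq_zero.1 ha

section Univ

variable [IsAlgClosed k]

theorem exists_compl0 : ∃ J : Ideal (D.R0 D.A0), Points.diagIdeal k D.A0 * J =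
    Ideal.span {Points.diagDelta k D.A0 D.x} :=
  have := D.isDomain_A0
  have := D.isDedekindRing_A0
  have := D.finiteType_A0
  Points.exists_mul_diagIdeal D.x

theorem exists_compl1 : ∃ J : Ideal (D.R1 D.A1), Points.diagIdeal k D.A1 * J =
    Ideal.span {Points.diagDelta k D.A1 D.y} :=
  have := D.isDomain_A1
  have := D.isDedekindRing_A1
  have := D.finiteType_A1
  Points.exists_mul_diagIdeal D.y

/-- The diagonal over the first chart as a divisor. -/
noncomputable def univ0 : D.Div D.A0 :=
  letI : Algebra (D.R1 D.A0) (D.R01 D.A0) := (D.r1 D.A0).toRingHom.toAlgebra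
  haveI := D.isLocalizationAway_r1 D.A0
  { I0 := Points.diagIdeal k D.A0
    J0 := D.exists_compl0.choose
    I1 := ((Points.diagIdeal k D.A0).map (D.r0 D.A0)).comap (D.r1 D.A0)
    J1 := (D.exists_compl0.choose.map (D.r0 D.A0)).comap (D.r1 D.A0)
    P0 := Points.diagDelta k D.A0 D.x
    P1 := 1 - algebraMap D.A0 (D.R1 D.A0) D.x * D.yR D.A0
    d := 1
    mul0 := D.exists_compl0.choose_spec
    mul1 := by
      have hP : D.r0 D.A0 (Points.diagDelta k D.A0 D.x) = D.r0 D.A0 (D.xR D.A0) *
          D.r1 D.A0 (1 - algebraMap D.A0 (D.R1 D.A0) D.x * D.yR D.A0) := by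
        have hd : Points.diagDelta k D.A0 D.x = D.xR D.A0 - algebraMap D.A0 (D.R0 D.A0) D.x := by
          rw [Points.diagDelta, Algebra.TensorProduct.algebraMap_apply, Algebra.algebraMap_self,
            RingHom.id_apply]
        simp only [hd, map_sub, map_mul, map_one, AlgHom.commutes]
        linear_combination (algebraMap D.A0 (D.R01 D.A0) D.x) * D.r0_x_mul_r1_y D.A0
      have hu : IsUnit (D.r0 D.A0 (D.xR D.A0)) := IsUnit.of_mul_eq_one _ (D.r0_x_mul_r1_y D.A0)
      refine Points.comap_mul_comap_away (D.yR D.A0) ⟨algebraMap D.A0 (D.R1 D.A0) D.x, 1, by ring⟩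
        ?_ ?_ ?_
      · change (Points.diagIdeal k D.A0).map (D.r0 D.A0) *
          D.exists_compl0.choose.map (D.r0 D.A0) = Ideal.span {D.r1 D.A0 _}
        rw [← Ideal.map_mul, D.exists_compl0.choose_spec, Ideal.map_span, Set.image_singleton, hP,
          mul_comm, Ideal.span_singleton_mul_right_unit hu]
      · have h := Ideal.mem_map_of_mem (D.r0 D.A0) (Ideal.mul_le_left
          (D.exists_compl0.choose_spec ▸ Ideal.mem_span_singleton_self _))
        rw [hP] at h
        exact (Ideal.unit_mul_mem_iff_mem _ hu).1 h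
      · have h := Ideal.mem_map_of_mem (D.r0 D.A0) (Ideal.mul_le_right (I := Points.diagIdeal k D.A0)
          (D.exists_compl0.choose_spec ▸ Ideal.mem_span_singleton_self _))
        rw [hP] at h
        exact (Ideal.unit_mul_mem_iff_mem _ hu).1 h
    glueI := (Points.map_comap_away (S := D.R01 D.A0) (D.yR D.A0) _).symm
    glueJ := (Points.map_comap_away (S := D.R01 D.A0) (D.yR D.A0) _).symm
    hP := by
      have hd : Points.diagDelta k D.A0 D.x = D.xR D.A0 - algebraMap D.A0 (D.R0 D.A0) D.x := by
        rw [Points.diagDelta, Algebra.TensorProduct.algebraMap_apply, Algebra.algebraMap_self,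
          RingHom.id_apply]
      simp only [hd, map_sub, map_mul, map_one, AlgHom.commutes, pow_one]
      linear_combination (algebraMap D.A0 (D.R01 D.A0) D.x) * D.r0_x_mul_r1_y D.A0
    reg := fun S _ _ φ => by
      have h : D.map0 φ (Points.diagDelta k D.A0 D.x) =
          D.xR S - algebraMap S (D.R0 S) (φ D.x) := by
        simp [Points.diagDelta, ChartData.map0, map_sub]
      exact h ▸ D.regular_xR_sub S (φ D.x) }

/-- The diagonal over the second chart as a divisor. -/
noncomputable def univ1 : D.Div D.A1 :=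
  letI : Algebra (D.R0 D.A1) (D.R01 D.A1) := (D.r0 D.A1).toRingHom.toAlgebra
  haveI := D.isLocalizationAway_r0 D.A1
  { I1 := Points.diagIdeal k D.A1
    J1 := D.exists_compl1.choose
    I0 := ((Points.diagIdeal k D.A1).map (D.r1 D.A1)).comap (D.r0 D.A1)
    J0 := (D.exists_compl1.choose.map (D.r1 D.A1)).comap (D.r0 D.A1)
    P1 := Points.diagDelta k D.A1 D.y
    P0 := 1 - algebraMap D.A1 (D.R0 D.A1) D.y * D.xR D.A1
    d := 1
    mul1 := D.exists_compl1.choose_spec
    mul0 := by
      have hP : D.r1 D.A1 (Points.diagDelta k D.A1 D.y) = D.r1 D.A1 (D.yR D.A1) *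
          D.r0 D.A1 (1 - algebraMap D.A1 (D.R0 D.A1) D.y * D.xR D.A1) := by
        have hd : Points.diagDelta k D.A1 D.y = D.yR D.A1 - algebraMap D.A1 (D.R1 D.A1) D.y := by
          rw [Points.diagDelta, Algebra.TensorProduct.algebraMap_apply, Algebra.algebraMap_self,
            RingHom.id_apply]
        simp only [hd, map_sub, map_mul, map_one, AlgHom.commutes]
        linear_combination (algebraMap D.A1 (D.R01 D.A1) D.y) * D.r0_x_mul_r1_y D.A1
      have hu : IsUnit (D.r1 D.A1 (D.yR D.A1)) :=
        IsUnit.of_mul_eq_one _ (by rw [mul_comm]; exact D.r0_x_mul_r1_y D.A1)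
      refine Points.comap_mul_comap_away (D.xR D.A1) ⟨algebraMap D.A1 (D.R0 D.A1) D.y, 1, by ring⟩
        ?_ ?_ ?_
      · change (Points.diagIdeal k D.A1).map (D.r1 D.A1) *
          D.exists_compl1.choose.map (D.r1 D.A1) = Ideal.span {D.r0 D.A1 _}
        rw [← Ideal.map_mul, D.exists_compl1.choose_spec, Ideal.map_span, Set.image_singleton, hP,
          mul_comm, Ideal.span_singleton_mul_right_unit hu]
      · have h := Ideal.mem_map_of_mem (D.r1 D.A1) (Ideal.mul_le_left
          (D.exists_compl1.choose_spec ▸ Ideal.mem_span_singleton_self _))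
        rw [hP] at h
        exact (Ideal.unit_mul_mem_iff_mem _ hu).1 h
      · have h := Ideal.mem_map_of_mem (D.r1 D.A1) (Ideal.mul_le_right (I := Points.diagIdeal k D.A1)
          (D.exists_compl1.choose_spec ▸ Ideal.mem_span_singleton_self _))
        rw [hP] at h
        exact (Ideal.unit_mul_mem_iff_mem _ hu).1 h
    glueI := Points.map_comap_away (S := D.R01 D.A1) (D.xR D.A1) _
    glueJ := Points.map_comap_away (S := D.R01 D.A1) (D.xR D.A1) _
    hP := by
      have hd : Points.diagDelta k D.A1 D.y = D.yR D.A1 - algebraMap D.A1 (D.R1 D.A1) D.y := by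
        rw [Points.diagDelta, Algebra.TensorProduct.algebraMap_apply, Algebra.algebraMap_self,
          RingHom.id_apply]
      simp only [hd, map_sub, map_mul, map_one, AlgHom.commutes, pow_one]
      linear_combination -D.r0_x_mul_r1_y D.A1
    reg := fun S _ _ φ => by
      have h : D.map0 φ (1 - algebraMap D.A1 (D.R0 D.A1) D.y * D.xR D.A1) =
          1 - algebraMap S (D.R0 S) (φ D.y) * D.xR S := by
        rw [map_sub, map_one, map_mul, D.map0_algebraMap, D.map0_xR]
      exact h ▸ D.regular_one_sub_mul_xR S (φ D.y) }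

variable {D} {R}

/-- The divisor of a section in the first chart. -/
noncomputable def point0 (c : D.A0 →ₐ[k] R) : D.Div R := D.univ0.map c

/-- The divisor of a section in the second chart. -/
noncomputable def point1 (c : D.A1 →ₐ[k] R) : D.Div R := D.univ1.map c

end Univ

end ChartData

end FermatLib.AV
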