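import Fermat.Agent.AV.Jac.Points.PointDiv

/-!
Change of coefficients of the divisor of a section, and independence of the chart.
-/

set_option autoImplicit false
set_option linter.unusedSectionVars false

universe u

open scoped TensorProduct

namespace FermatLib.AV

namespace ChartData

variable {k : Type u} [Field k] [IsAlgClosed k] {D : ChartData k}
  {R S : Type u} [CommRing R] [Algebra k R] [CommRing S] [Algebra k S]

theorem map0_map0 {T : Type u} [CommRing T] [Algebra k T] (φ : R →ₐ[k] S) (ψ : S →ₐ[k] T)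
    (a : D.R0 R) : D.map0 ψ (D.map0 φ a) = D.map0 (ψ.comp φ) a := by
  induction a using TensorProduct.induction_on with
  | zero => simp
  | tmul r a => rfl
  | add a b ha hb => simp only [map_add, ha, hb]

theorem map1_map1 {T : Type u} [CommRing T] [Algebra k T] (φ : R →ₐ[k] S) (ψ : S →ₐ[k] T)
    (a : D.R1 R) : D.map1 ψ (D.map1 φ a) = D.map1 (ψ.comp φ) a := by
  induction a using TensorProduct.induction_on with
  | zero => simp
  | tmul r a => rfl
  | add a b ha hb => simp only [map_add, ha, hb]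

theorem ideal_map0_map0 {T : Type u} [CommRing T] [Algebra k T] (φ : R →ₐ[k] S) (ψ : S →ₐ[k] T)
    (I : Ideal (D.R0 R)) : (I.map (D.map0 φ)).map (D.map0 ψ) = I.map (D.map0 (ψ.comp φ)) := by
  rw [show I.map (D.map0 φ) = Ideal.span (D.map0 φ '' I) from rfl, Ideal.map_span, Set.image_image]
  simp only [map0_map0]
  rfl

theorem ideal_map1_map1 {T : Type u} [CommRing T] [Algebra k T] (φ : R →ₐ[k] S) (ψ : S →ₐ[k] T)
    (I : Ideal (D.R1 R)) : (I.map (D.map1 φ)).map (D.map1 ψ) = I.map (D.map1 (ψ.comp φ)) := by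
  rw [show I.map (D.map1 φ) = Ideal.span (D.map1 φ '' I) from rfl, Ideal.map_span, Set.image_image]
  simp only [map1_map1]
  rfl

theorem map_point0_I0 (c : D.A0 →ₐ[k] R) (φ : R →ₐ[k] S) :
    ((point0 c).map φ).I0 = (point0 (φ.comp c)).I0 :=
  ideal_map0_map0 c φ _

theorem map_point0_I1 (c : D.A0 →ₐ[k] R) (φ : R →ₐ[k] S) :
    ((point0 c).map φ).I1 = (point0 (φ.comp c)).I1 :=
  ideal_map1_map1 c φ _

theorem map_point1_I0 (c : D.A1 →ₐ[k] R) (φ : R →ₐ[k] S) :
    ((point1 c).map φ).I0 = (point1 (φ.comp c)).I0 :=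
  ideal_map0_map0 c φ _

theorem map_point1_I1 (c : D.A1 →ₐ[k] R) (φ : R →ₐ[k] S) :
    ((point1 c).map φ).I1 = (point1 (φ.comp c)).I1 :=
  ideal_map1_map1 c φ _

/-- Evaluation at a section in the first chart. -/
noncomputable def ev0 (c : D.A0 →ₐ[k] R) : D.R0 R →ₐ[R] R :=
  Algebra.TensorProduct.lift (AlgHom.id R R) c fun _ _ => Commute.all _ _

/-- Evaluation at a section in the second chart. -/
noncomputable def ev1 (c : D.A1 →ₐ[k] R) : D.R1 R →ₐ[R] R :=
  Algebra.TensorProduct.lift (AlgHom.id R R) c fun _ _ => Commute.all _ _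

/-- Evaluation at a section in both charts. -/
noncomputable def ev01 (c : D.A01 →ₐ[k] R) : D.R01 R →ₐ[R] R :=
  Algebra.TensorProduct.lift (AlgHom.id R R) c fun _ _ => Commute.all _ _

@[simp] theorem ev0_tmul (c : D.A0 →ₐ[k] R) (r : R) (a : D.A0) : ev0 c (r ⊗ₜ a) = r * c a := rfl
@[simp] theorem ev1_tmul (c : D.A1 →ₐ[k] R) (r : R) (a : D.A1) : ev1 c (r ⊗ₜ a) = r * c a := rfl
@[simp] theorem ev01_tmul (c : D.A01 →ₐ[k] R) (r : R) (a : D.A01) : ev01 c (r ⊗ₜ a) = r * c a :=
  rfl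

theorem point0_I0_eq (c : D.A0 →ₐ[k] R) : (point0 c).I0 =
    Ideal.span (Set.range fun a : D.A0 => (1 : R) ⊗ₜ[k] a - c a ⊗ₜ[k] (1 : D.A0)) := by
  change (Ideal.span (Set.range (Points.diagDelta k D.A0))).map (D.map0 c) = _
  rw [Ideal.map_span, ← Set.range_comp]
  congr 2
  ext a
  simp [Points.diagDelta, ChartData.map0]

theorem point1_I1_eq (c : D.A1 →ₐ[k] R) : (point1 c).I1 =
    Ideal.span (Set.range fun a : D.A1 => (1 : R) ⊗ₜ[k] a - c a ⊗ₜ[k] (1 : D.A1)) := by
  change (Ideal.span (Set.range (Points.diagDelta k D.A1))).map (D.map1 c) = _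
  rw [Ideal.map_span, ← Set.range_comp]
  congr 2
  ext a
  simp [Points.diagDelta, ChartData.map1]

theorem point0_I0_eq_ker (c : D.A0 →ₐ[k] R) : (point0 c).I0 = RingHom.ker (ev0 c) := by
  rw [point0_I0_eq]
  refine le_antisymm (Ideal.span_le.2 ?_) fun z hz => ?_
  · rintro _ ⟨a, rfl⟩
    simp [RingHom.mem_ker]
  · have key : ∀ z : D.R0 R, z - algebraMap R (D.R0 R) (ev0 c z) ∈
        Ideal.span (Set.range fun a : D.A0 => (1 : R) ⊗ₜ[k] a - c a ⊗ₜ[k] (1 : D.A0)) := by
      intro z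
      induction z using TensorProduct.induction_on with
      | zero => simp
      | tmul r a =>
        have h : r ⊗ₜ[k] a - algebraMap R (D.R0 R) (ev0 c (r ⊗ₜ a)) =
            algebraMap R (D.R0 R) r * ((1 : R) ⊗ₜ[k] a - c a ⊗ₜ[k] (1 : D.A0)) := by
          simp [Algebra.TensorProduct.tmul_mul_tmul, mul_sub]
        rw [h]
        exact Ideal.mul_mem_left _ _ (Ideal.subset_span ⟨a, rfl⟩)
      | add a b ha hb => rw [map_add, map_add, add_sub_add_comm]; exact add_mem ha hb
    simpa [RingHom.mem_ker.1 hz] using key z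

theorem point1_I1_eq_ker (c : D.A1 →ₐ[k] R) : (point1 c).I1 = RingHom.ker (ev1 c) := by
  rw [point1_I1_eq]
  refine le_antisymm (Ideal.span_le.2 ?_) fun z hz => ?_
  · rintro _ ⟨a, rfl⟩
    simp [RingHom.mem_ker]
  · have key : ∀ z : D.R1 R, z - algebraMap R (D.R1 R) (ev1 c z) ∈
        Ideal.span (Set.range fun a : D.A1 => (1 : R) ⊗ₜ[k] a - c a ⊗ₜ[k] (1 : D.A1)) := by
      intro z
      induction z using TensorProduct.induction_on with
      | zero => simp
      | tmul r a =>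
        have h : r ⊗ₜ[k] a - algebraMap R (D.R1 R) (ev1 c (r ⊗ₜ a)) =
            algebraMap R (D.R1 R) r * ((1 : R) ⊗ₜ[k] a - c a ⊗ₜ[k] (1 : D.A1)) := by
          simp [Algebra.TensorProduct.tmul_mul_tmul, mul_sub]
        rw [h]
        exact Ideal.mul_mem_left _ _ (Ideal.subset_span ⟨a, rfl⟩)
      | add a b ha hb => rw [map_add, map_add, add_sub_add_comm]; exact add_mem ha hb
    simpa [RingHom.mem_ker.1 hz] using key z

theorem ev01_r0 (c : D.A01 →ₐ[k] R) (z : D.R0 R) :
    ev01 c (D.r0 R z) = ev0 (c.comp D.j0) z := by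
  induction z using TensorProduct.induction_on with
  | zero => simp
  | tmul r a => simp
  | add a b ha hb => simp only [map_add, ha, hb]

theorem ev01_r1 (c : D.A01 →ₐ[k] R) (z : D.R1 R) :
    ev01 c (D.r1 R z) = ev1 (c.comp D.j1) z := by
  induction z using TensorProduct.induction_on with
  | zero => simp
  | tmul r a => simp
  | add a b ha hb => simp only [map_add, ha, hb]

/-- A section inside both charts has the same ideal on the overlap from either side. -/
theorem map_r0_ker (c : D.A01 →ₐ[k] R) :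
    (RingHom.ker (ev0 (c.comp D.j0))).map (D.r0 R) = RingHom.ker (ev01 c) := by
  refine le_antisymm (Ideal.map_le_iff_le_comap.2 fun z hz => ?_) fun z hz => ?_
  · rw [Ideal.mem_comap, RingHom.mem_ker, ev01_r0]; exact hz
  · obtain ⟨N, a, ha⟩ := D.exists_pow_mul_r0 R z
    have h : a ∈ RingHom.ker (ev0 (c.comp D.j0)) := by
      rw [RingHom.mem_ker, ← ev01_r0, ← ha, map_mul, RingHom.mem_ker.1 hz, mul_zero]
    have h' := Ideal.mem_map_of_mem (D.r0 R) h
    rw [← ha] at h'
    exact (Ideal.unit_mul_mem_iff_mem _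
      ((IsUnit.of_mul_eq_one _ (D.r0_x_mul_r1_y R)).pow N)).1 h'

theorem map_r1_ker (c : D.A01 →ₐ[k] R) :
    (RingHom.ker (ev1 (c.comp D.j1))).map (D.r1 R) = RingHom.ker (ev01 c) := by
  refine le_antisymm (Ideal.map_le_iff_le_comap.2 fun z hz => ?_) fun z hz => ?_
  · rw [Ideal.mem_comap, RingHom.mem_ker, ev01_r1]; exact hz
  · obtain ⟨N, a, ha⟩ := D.exists_pow_mul_r1 R z
    have h : a ∈ RingHom.ker (ev1 (c.comp D.j1)) := by
      rw [RingHom.mem_ker, ← ev01_r1, ← ha, map_mul, RingHom.mem_ker.1 hz, mul_zero]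
    have h' := Ideal.mem_map_of_mem (D.r1 R) h
    rw [← ha] at h'
    exact (Ideal.unit_mul_mem_iff_mem _ ((IsUnit.of_mul_eq_one _
      (show D.r1 R (D.yR R) * D.r0 R (D.xR R) = 1 by
        rw [mul_comm]; exact D.r0_x_mul_r1_y R)).pow N)).1 h'

theorem comap_r1_ker_ev01 (c : D.A01 →ₐ[k] R) :
    (RingHom.ker (ev01 c)).comap (D.r1 R) = RingHom.ker (ev1 (c.comp D.j1)) := by
  ext z; rw [Ideal.mem_comap, RingHom.mem_ker, RingHom.mem_ker, ev01_r1]

theorem comap_r0_ker_ev01 (c : D.A01 →ₐ[k] R) :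
    (RingHom.ker (ev01 c)).comap (D.r0 R) = RingHom.ker (ev0 (c.comp D.j0)) := by
  ext z; rw [Ideal.mem_comap, RingHom.mem_ker, RingHom.mem_ker, ev01_r0]

theorem Div.comap_r1_I01 (E : D.Div R) {a b : D.R1 R}
    (hab : a * D.yR R + b * E.P1 = 1) : E.I01.comap (D.r1 R) = E.I1 := by
  let : Algebra (D.R1 R) (D.R01 R) := (D.r1 R).toRingHom.toAlgebra
  have := D.isLocalizationAway_r1 R
  rw [E.I01_eq]
  refine le_antisymm (fun z hz => ?_) Ideal.le_comap_map
  obtain ⟨⟨⟨p, hp⟩, ⟨_, N, rfl⟩⟩, hpN⟩ :=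
    (IsLocalization.mem_map_algebraMap_iff (Submonoid.powers (D.yR R)) (D.R01 R)).1
      (Ideal.mem_comap.1 hz :)
  have hz' : D.yR R ^ N * z ∈ E.I1 := by
    have h : D.yR R ^ N * z = p := D.r1_injective (by
      rw [map_mul, mul_comm]; exact hpN)
    rw [h]; exact hp
  have key : ∀ N : ℕ, D.yR R ^ N * z ∈ E.I1 → z ∈ E.I1 := by
    intro N
    induction N with
    | zero => simp
    | succ N ih =>
      intro h
      refine ih ?_
      have he : D.yR R ^ N * z = a * (D.yR R ^ (N + 1) * z) + (b * D.yR R ^ N * z) * E.P1 := by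
        linear_combination -(D.yR R ^ N * z) * hab
      rw [he]
      exact add_mem (Ideal.mul_mem_left _ _ h) (Ideal.mul_mem_left _ _ E.P1_mem)
  exact key N hz'

theorem Div.comap_r0_I01 (E : D.Div R) {a b : D.R0 R}
    (hab : a * D.xR R + b * E.P0 = 1) : E.I01.comap (D.r0 R) = E.I0 := by
  let : Algebra (D.R0 R) (D.R01 R) := (D.r0 R).toRingHom.toAlgebra
  have := D.isLocalizationAway_r0 R
  refine le_antisymm (fun z hz => ?_) Ideal.le_comap_map
  obtain ⟨⟨⟨p, hp⟩, ⟨_, N, rfl⟩⟩, hpN⟩ :=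
    (IsLocalization.mem_map_algebraMap_iff (Submonoid.powers (D.xR R)) (D.R01 R)).1
      (Ideal.mem_comap.1 hz :)
  have hz' : D.xR R ^ N * z ∈ E.I0 := by
    have h : D.xR R ^ N * z = p := D.r0_injective R (by
      rw [map_mul, mul_comm]; exact hpN)
    rw [h]; exact hp
  have key : ∀ N : ℕ, D.xR R ^ N * z ∈ E.I0 → z ∈ E.I0 := by
    intro N
    induction N with
    | zero => simp
    | succ N ih =>
      intro h
      refine ih ?_
      have he : D.xR R ^ N * z = a * (D.xR R ^ (N + 1) * z) + (b * D.xR R ^ N * z) * E.P0 := by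
        linear_combination -(D.xR R ^ N * z) * hab
      rw [he]
      exact add_mem (Ideal.mul_mem_left _ _ h) (Ideal.mul_mem_left _ _ E.P0_mem)
  exact key N hz'

theorem point0_P1 (c : D.A0 →ₐ[k] R) :
    (point0 c).P1 = 1 - algebraMap R (D.R1 R) (c D.x) * D.yR R := by
  change D.map1 c (1 - algebraMap D.A0 (D.R1 D.A0) D.x * D.yR D.A0) = _
  simp [ChartData.map1, Algebra.TensorProduct.one_def]

theorem point1_P0 (c : D.A1 →ₐ[k] R) :
    (point1 c).P0 = 1 - algebraMap R (D.R0 R) (c D.y) * D.xR R := by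
  change D.map0 c (1 - algebraMap D.A1 (D.R0 D.A1) D.y * D.xR D.A1) = _
  simp [ChartData.map0, Algebra.TensorProduct.one_def]

theorem point0_comap (c : D.A0 →ₐ[k] R) : (point0 c).I01.comap (D.r1 R) = (point0 c).I1 :=
  (point0 c).comap_r1_I01 (a := algebraMap R (D.R1 R) (c D.x)) (b := 1) (by rw [point0_P1]; ring)

theorem point1_comap (c : D.A1 →ₐ[k] R) : (point1 c).I01.comap (D.r0 R) = (point1 c).I0 :=
  (point1 c).comap_r0_I01 (a := algebraMap R (D.R0 R) (c D.y)) (b := 1) (by rw [point1_P0]; ring)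

/-- For a section inside both charts the two constructions give the same divisor. -/
theorem point0_eq_point1 (c : D.A01 →ₐ[k] R) :
    (point0 (c.comp D.j0)).I0 = (point1 (c.comp D.j1)).I0 ∧
      (point0 (c.comp D.j0)).I1 = (point1 (c.comp D.j1)).I1 := by
  constructor
  · rw [point0_I0_eq_ker, ← point1_comap, Div.I01_eq, point1_I1_eq_ker, map_r1_ker,
      comap_r0_ker_ev01]
  · rw [point1_I1_eq_ker, ← point0_comap, Div.I01, point0_I0_eq_ker, map_r0_ker,
      comap_r1_ker_ev01]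

theorem εR_point0_P0 (c : D.A0 →ₐ[k] R) : D.εR R (point0 c).P0 = -c D.x := by
  change D.εR R (D.map0 c (Points.diagDelta k D.A0 D.x)) = _
  simp [Points.diagDelta, ChartData.map0, D.ε0_x]

end ChartData

end FermatLib.AV
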