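import Fermat.Agent.AV.Jac.Points.Embed
import Fermat.Agent.AV.Jac.Core.AcyclicFamily

/-!
Sections over an algebraically closed field: peeling a section not vanishing at infinity.
-/

set_option autoImplicit false
set_option linter.unusedSectionVars false

universe u

open scoped TensorProduct

namespace FermatLib.AV

namespace ChartData

variable {k : Type u} [Field k] {D : ChartData k}

section Field

variable {K : Type u} [Field K] [Algebra k K] {B : D.Bundle K}

theorem Bundle.nontrivial_M (B : D.Bundle K) : Nontrivial B.M := by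
  have := isDomain_overlap (D := D) (K := K)
  have := B.invertible_M_overlap
  by_contra h
  rw [not_nontrivial_iff_subsingleton] at h
  exact one_ne_zero (α := D.R01 K)
    ((Module.Invertible.linearEquiv (D.R01 K) B.M).symm.injective (Subsingleton.elim _ _))

theorem Bundle.smul_injective_of_ne_zero (B : D.Bundle K) {s : B.M} (hs : s ≠ 0) :
    Function.Injective fun a : D.R01 K => a • s := by
  have := isDomain_overlap (D := D) (K := K)
  have := B.invertible_M_overlap
  obtain ⟨φ, hφ⟩ : ∃ φ : B.M →ₗ[D.R01 K] D.R01 K, φ s ≠ 0 := by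
    by_contra h
    simp only [not_exists, not_not] at h
    exact hs ((Module.forall_dual_apply_eq_zero_iff (D.R01 K) s).1 h)
  intro a b hab
  have h := congrArg φ hab
  simp only [map_smul, smul_eq_mul] at h
  exact mul_right_cancel₀ hφ h

/-- A nonzero section gives an injection of the structure bundle. -/
theorem Bundle.embeds_of_section (B : D.Bundle K) {s : B.M} (h0 : s ∈ B.L0) (h1 : s ∈ B.L1)
    (hs : s ≠ 0) : (D.structBundle K).Embeds B := by
  refine ⟨⟨LinearMap.toSpanSingleton (D.R01 K) B.M s, B.smul_injective_of_ne_zero hs,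
    fun m hm => ?_, fun m hm => ?_⟩⟩
  · obtain ⟨a, rfl⟩ := Submodule.mem_span_singleton.1 hm
    change (D.r0 K a * 1) • s ∈ B.L0
    rw [mul_one, B.smul0]
    exact B.L0.smul_mem a h0
  · obtain ⟨a, rfl⟩ := Submodule.mem_span_singleton.1 hm
    change (D.r1 K a * 1) • s ∈ B.L1
    rw [mul_one, B.smul1]
    exact B.L1.smul_mem a h1

/-- The section generates the bundle along the fibre at infinity. -/
def Bundle.GenInfty (B : D.Bundle K) (s : B.M) : Prop :=
  ∀ l ∈ B.L1, ∃ a : D.R1 K, ∃ l' ∈ B.L1, l = a • s + D.yR K • l'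

/-- Surjectivity one step below gives a section not vanishing at infinity. -/
theorem Bundle.exists_genInfty (B : D.Bundle K)
    (h : (B.twistInfty (-1)).L0.restrictScalars K ⊔ (B.twistInfty (-1)).L1.restrictScalars K = ⊤) :
    ∃ s, s ∈ B.L0 ∧ s ∈ B.L1 ∧ s ≠ 0 ∧ B.GenInfty s := by
  let I : Ideal (D.R1 K) := Ideal.span {D.yR K ^ 1}
  let Q := D.R1 K ⧸ I
  have hQ : Module.Finite K Q := Module.Finite.equiv
    ((D.truncEquiv K 1).symm.trans (Submodule.Quotient.restrictScalarsEquiv K I))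
  have : IsArtinianRing Q := IsArtinianRing.of_finite K Q
  have hfree : Module.Free Q (Q ⊗[D.R1 K] B.L1) := inferInstance
  obtain ⟨e⟩ : Nonempty ((Q ⊗[D.R1 K] B.L1) ≃ₗ[Q] Q) :=
    Module.Invertible.free_iff_linearEquiv.1 hfree
  let e' : (B.L1 ⧸ (I • (⊤ : Submodule (D.R1 K) B.L1))) ≃ₗ[D.R1 K] Q :=
    (TensorProduct.quotTensorEquivQuotSMul B.L1 I).symm.trans (e.restrictScalars (D.R1 K))
  obtain ⟨w, hw⟩ := Submodule.mkQ_surjective _ (e'.symm 1)
  have hgen : ∀ l : B.L1, ∃ a : D.R1 K, ∃ l' ∈ B.L1,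
      (l : B.M) = a • (w : B.M) + D.yR K • l' := by
    intro l
    obtain ⟨a, ha⟩ := Submodule.mkQ_surjective _ (e' (Submodule.Quotient.mk l))
    refine ⟨a, ?_⟩
    have hmk : (Submodule.Quotient.mk (l - a • w) :
        B.L1 ⧸ (I • (⊤ : Submodule (D.R1 K) B.L1))) = 0 := by
      rw [Submodule.Quotient.mk_sub, Submodule.Quotient.mk_smul, sub_eq_zero]
      apply e'.injective
      rw [map_smul, ← Submodule.mkQ_apply (I • (⊤ : Submodule (D.R1 K) B.L1)) w, hw,
        e'.apply_symm_apply, ← ha, Submodule.mkQ_apply]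
      change _ = a • (Submodule.Quotient.mk (1 : D.R1 K) : Q)
      rw [← Submodule.Quotient.mk_smul, smul_eq_mul, mul_one]
    rw [Submodule.Quotient.mk_eq_zero] at hmk
    simp only [I, Submodule.ideal_span_singleton_smul, pow_one] at hmk
    obtain ⟨l', -, hl'⟩ := hmk
    refine ⟨l', l'.2, ?_⟩
    have h' : D.yR K • (l' : B.M) = (l : B.M) - a • (w : B.M) :=
      congrArg Subtype.val hl'
    rw [h', add_sub_cancel]
  have hwM : (w : B.M) ∈ B.L0.restrictScalars K ⊔ (B.twistInfty (-1)).L1.restrictScalars K := by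
    rw [show B.L0.restrictScalars K ⊔ (B.twistInfty (-1)).L1.restrictScalars K = ⊤ from h]
    trivial
  obtain ⟨s, hs0, _, ⟨b, hb, rfl⟩, hsb⟩ := Submodule.mem_sup.1 hwM
  have hb' : (B.xAut ^ (-1 : ℤ)) b = D.yR K • b := by
    rw [zpow_neg_one]
    exact B.xAut_symm_apply b
  have hsw : s = (w : B.M) - D.yR K • b := by
    rw [← hb', ← hsb]
    exact (add_sub_cancel_right _ _).symm
  have hs1 : s ∈ B.L1 := hsw ▸ B.L1.sub_mem w.2 (B.L1.smul_mem _ hb)
  have hgs : B.GenInfty s := fun l hl => by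
    obtain ⟨a, l', hl', he⟩ := hgen ⟨l, hl⟩
    refine ⟨a, a • b + l', B.L1.add_mem (B.L1.smul_mem _ hb) hl', ?_⟩
    rw [show l = a • (w : B.M) + D.yR K • l' from he, hsw, smul_sub, smul_add,
      smul_comm (D.yR K) a b]
    abel
  refine ⟨s, hs0, hs1, fun hs => ?_, hgs⟩
  have htop : I • (⊤ : Submodule (D.R1 K) B.L1) = ⊤ := eq_top_iff.2 fun l _ => by
    obtain ⟨a, l', hl', he⟩ := hgs l l.2
    rw [hs, smul_zero, zero_add] at he
    have : l = D.yR K ^ 1 • (⟨l', hl'⟩ : B.L1) := Subtype.ext (by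
      rw [pow_one]; exact he)
    rw [this]
    exact Submodule.smul_mem_smul (Ideal.mem_span_singleton_self _) trivial
  obtain ⟨-, hrank⟩ := finrank_quotient_pow_smul B 1
  have : Subsingleton (B.L1 ⧸ (I • (⊤ : Submodule (D.R1 K) B.L1))) :=
    Submodule.Quotient.subsingleton_iff.2 htop
  rw [Module.finrank_zero_of_subsingleton] at hrank
  have := D.n_pos
  omega

/-- A section which does not vanish at infinity and generates over the first chart trivialises the
bundle. -/
theorem Bundle.isom_struct_of_generates (B : D.Bundle K) {s : B.M} (h0 : s ∈ B.L0) (h1 : s ∈ B.L1)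
    (hgen : B.GenInfty s) (hle : B.L0 ≤ Submodule.span (D.R0 K) {s}) :
    (D.structBundle K).Isom B := by
  -- every section near infinity is a multiple of `s` up to a power of the coordinate
  have hpow : ∀ l ∈ B.L1, ∃ e : ℕ, ∃ a : D.R1 K, D.yR K ^ e • l = a • s := by
    intro l _
    obtain ⟨N, hN⟩ := B.exists_mem0 l
    obtain ⟨a, ha⟩ := Submodule.mem_span_singleton.1 (hle hN)
    obtain ⟨e, a1, ha1⟩ := D.exists_pow_mul_r1 K (D.r0 K a)
    refine ⟨e, D.yR K ^ N * a1, ?_⟩
    rw [mul_smul, ← B.smul1 a1, ← ha1, mul_smul, B.smul0, ha, ← map_pow, B.smul1,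
      smul_comm (D.yR K ^ N) (D.yR K ^ e), B.yR_pow_smul_xR_pow_smul]
  -- uniformly in the section
  have hfg : B.L1.FG := Module.Finite.iff_fg.1 inferInstance
  obtain ⟨G, hG⟩ := hfg
  have hG' : ∀ g ∈ G, g ∈ B.L1 := fun g hg => hG ▸ Submodule.subset_span hg
  obtain ⟨e, he⟩ : ∃ e : ℕ, ∀ g ∈ G, D.yR K ^ e • g ∈ Submodule.span (D.R1 K) {s} := by
    classical
    refine ⟨∑ g ∈ G.attach, (hpow g (hG' g g.2)).choose, fun g hg => ?_⟩
    obtain ⟨a, ha⟩ := (hpow g (hG' g hg)).choose_spec
    obtain ⟨d, hd⟩ := Nat.exists_eq_add_of_le (Finset.single_le_sum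
      (f := fun g : {x // x ∈ G} => (hpow g (hG' g g.2)).choose) (fun _ _ => Nat.zero_le _)
      (Finset.mem_attach G ⟨g, hg⟩))
    rw [hd, add_comm, pow_add, mul_smul, ha]
    exact Submodule.smul_mem _ _ (Submodule.smul_mem _ _ (Submodule.mem_span_singleton_self s))
  have hall : ∀ l ∈ B.L1, D.yR K ^ e • l ∈ Submodule.span (D.R1 K) {s} := by
    intro l hl
    rw [← hG] at hl
    refine Submodule.span_induction he ?_ (fun a b _ _ ha hb => ?_) (fun c a _ ha => ?_) hl
    · simp
    · rw [smul_add]; exact add_mem ha hb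
    · rw [smul_comm]; exact Submodule.smul_mem _ _ ha
  have hiter : ∀ (N : ℕ) (l : B.M), l ∈ B.L1 →
      ∃ a : D.R1 K, ∃ l' ∈ B.L1, l = a • s + D.yR K ^ N • l' := by
    intro N
    induction N with
    | zero => exact fun l hl => ⟨0, l, hl, by simp⟩
    | succ N ih =>
      intro l hl
      obtain ⟨a, l', hl', rfl⟩ := ih l hl
      obtain ⟨a', l'', hl'', rfl⟩ := hgen l' hl'
      refine ⟨a + D.yR K ^ N * a', l'', hl'', ?_⟩
      rw [smul_add, add_smul, smul_smul, smul_smul, pow_succ]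
      abel
  have hle1 : B.L1 ≤ Submodule.span (D.R1 K) {s} := fun l hl => by
    obtain ⟨a, l', hl', rfl⟩ := hiter e l hl
    exact add_mem (Submodule.smul_mem _ _ (Submodule.mem_span_singleton_self s)) (hall l' hl')
  refine Bundle.isom_of_map_eq (LinearMap.toSpanSingleton (D.R01 K) B.M s) ?_ ?_
  · change (Submodule.span (D.R0 K) {(1 : D.R01 K)}).map _ = _
    rw [Submodule.map_span, Set.image_singleton]
    change Submodule.span (D.R0 K) {(1 : D.R01 K) • s} = _
    rw [one_smul]
    exact le_antisymm (Submodule.span_le.2 (Set.singleton_subset_iff.2 h0)) hle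
  · change (Submodule.span (D.R1 K) {(1 : D.R01 K)}).map _ = _
    rw [Submodule.map_span, Set.image_singleton]
    change Submodule.span (D.R1 K) {(1 : D.R01 K) • s} = _
    rw [one_smul]
    exact le_antisymm (Submodule.span_le.2 (Set.singleton_subset_iff.2 h1)) hle1

end Field

section Peel

variable [IsAlgClosed k] {K : Type u} [Field K] [Algebra k K]

/-- A section not generating over the first chart vanishes at some point there. -/
theorem Bundle.exists_point_mem [IsAlgClosed K] (B : D.Bundle K) {s : B.M} (h0 : s ∈ B.L0)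
    (hle : ¬ B.L0 ≤ Submodule.span (D.R0 K) {s}) :
    ∃ c : D.A0 →ₐ[k] K, s ∈ (point0 c).I0 • B.L0 := by
  let P : Submodule (D.R0 K) B.M := Submodule.span (D.R0 K) {s}
  let C : Ideal (D.R0 K) := P.colon (B.L0 : Set B.M)
  have hC : ∀ a, a ∈ C ↔ ∀ l ∈ B.L0, a • l ∈ P := fun a => Submodule.mem_colon
  have hCtop : C ≠ ⊤ := fun h => hle fun l hl => by
    simpa using (hC 1).1 (h.symm ▸ Submodule.mem_top) l hl
  obtain ⟨m, hm, hCm⟩ := Ideal.exists_le_maximal C hCtop
  have := D.finiteType_A0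
  let _ := Ideal.Quotient.field m
  have : Algebra.FiniteType K (D.R0 K ⧸ m) :=
    Algebra.FiniteType.of_surjective (Ideal.Quotient.mkₐ K m) (Ideal.Quotient.mkₐ_surjective K m)
  have : Module.Finite K (D.R0 K ⧸ m) := finite_of_finite_type_of_isJacobsonRing K _
  have hbij : Function.Bijective (algebraMap K (D.R0 K ⧸ m)) :=
    IsAlgClosed.algebraMap_bijective_of_isIntegral
  let ψ : D.R0 K →ₐ[K] K :=
    (AlgEquiv.ofBijective (Algebra.ofId K _) hbij).symm.toAlgHom.comp (Ideal.Quotient.mkₐ K m)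
  let c : D.A0 →ₐ[k] K := (ψ.restrictScalars k).comp Algebra.TensorProduct.includeRight
  have hψ : ev0 c = ψ := Algebra.TensorProduct.ext' fun r a => by
    change r * ψ ((1 : K) ⊗ₜ[k] a) = ψ (r ⊗ₜ[k] a)
    rw [← smul_eq_mul, ← map_smul, TensorProduct.smul_tmul', smul_eq_mul, mul_one]
  have hIm : (point0 c).I0 = m := by
    rw [point0_I0_eq_ker, hψ]
    ext z
    rw [RingHom.mem_ker]
    simp only [ψ, AlgHom.comp_apply, Ideal.Quotient.mkₐ_eq_mk]
    exact (map_eq_zero_iff _ (AlgEquiv.injective _)).trans Ideal.Quotient.eq_zero_iff_mem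
  refine ⟨c, ?_⟩
  by_contra hs
  -- otherwise the section generates modulo the point, hence nearby
  let N : Submodule (D.R0 K) B.L0 := (point0 c).I0 • ⊤
  have hN : ∀ l : B.L0, l ∈ N ↔ (l : B.M) ∈ (point0 c).I0 • B.L0 := fun l => by
    have h : N.map B.L0.subtype = (point0 c).I0 • B.L0 := by
      rw [Submodule.map_smul'', Submodule.map_subtype_top]
    rw [← h]
    exact ⟨fun hl => ⟨l, hl, rfl⟩, fun ⟨a, ha, he⟩ => Subtype.ext he ▸ ha⟩
  obtain ⟨-, hrank⟩ := finrank_quotient_point0 c B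
  have hne : (Submodule.Quotient.mk ⟨s, h0⟩ : B.L0 ⧸ N) ≠ 0 := fun h =>
    hs ((hN _).1 ((Submodule.Quotient.mk_eq_zero _).1 h))
  have hspan : ∀ l ∈ B.L0, l ∈ P ⊔ (point0 c).I0 • B.L0 := fun l hl => by
    obtain ⟨r, hr⟩ := (finrank_eq_one_iff_of_nonzero' _ hne).1 hrank
      (Submodule.Quotient.mk ⟨l, hl⟩)
    rw [← Submodule.Quotient.mk_smul, Submodule.Quotient.eq] at hr
    refine Submodule.mem_sup.2 ⟨r • s, Submodule.smul_of_tower_mem _ _
      (Submodule.mem_span_singleton_self s), l - r • s, ?_, add_sub_cancel _ _⟩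
    have h := (point0 c).I0 • B.L0 |>.neg_mem ((hN _).1 hr)
    simpa using h
  have hmap : B.L0.map P.mkQ ≤ (point0 c).I0 • B.L0.map P.mkQ := by
    rw [← Submodule.map_smul'']
    refine (Submodule.map_mono hspan).trans ?_
    rw [Submodule.map_sup, Submodule.mkQ_map_self, bot_sup_eq]
  obtain ⟨r, hr, hr'⟩ := Submodule.exists_sub_one_mem_and_smul_eq_zero_of_fg_of_le_smul _ _
    (Submodule.FG.map _ (Module.Finite.iff_fg.1 inferInstance)) hmap
  have hrC : r ∈ C := (hC r).2 fun l hl => by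
    have h := hr' _ (Submodule.mem_map_of_mem hl)
    rwa [Submodule.mkQ_apply, ← Submodule.Quotient.mk_smul, Submodule.Quotient.mk_eq_zero] at h
  rw [hIm] at hr
  exact hm.ne_top ((Ideal.eq_top_iff_one m).2 (by simpa using m.sub_mem (hCm hrC) hr))

end Peel

end ChartData

end FermatLib.AV
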