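import Fermat.Agent.AV.Jac.Core.Chi
import Fermat.Agent.AV.Jac.Points.DivTwist
import Fermat.Agent.AV.Jac.Points.PointMap

/-!
Twisting down by a point lowers the Euler characteristic by one.
-/

set_option autoImplicit false
set_option linter.unusedSectionVars false

universe u

open scoped TensorProduct

namespace FermatLib.AV

namespace ChartData

variable {k : Type u} [Field k] [IsAlgClosed k] {D : ChartData k}
  {K : Type u} [Field K] [Algebra k K] (c : D.A0 →ₐ[k] K) (B : D.Bundle K)

theorem finrank_quotient_point0 :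
    Module.Finite K (B.L0 ⧸ ((point0 c).I0 • (⊤ : Submodule (D.R0 K) B.L0))) ∧
      Module.finrank K (B.L0 ⧸ ((point0 c).I0 • (⊤ : Submodule (D.R0 K) B.L0))) = 1 := by
  have hsurj : Function.Surjective (ev0 c) := fun r => ⟨algebraMap K (D.R0 K) r, by simp⟩
  rw [point0_I0_eq_ker]
  let I : Ideal (D.R0 K) := RingHom.ker (ev0 c)
  let Q := D.R0 K ⧸ I
  let eQ : Q ≃ₐ[K] K := Ideal.quotientKerAlgEquivOfSurjective hsurj
  have hQ : Module.Finite K Q := Module.Finite.equiv eQ.symm.toLinearEquiv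
  have : IsArtinianRing Q := IsArtinianRing.of_finite K Q
  obtain ⟨e⟩ : Nonempty ((Q ⊗[D.R0 K] B.L0) ≃ₗ[Q] Q) :=
    Module.Invertible.free_iff_linearEquiv.1 (inferInstance : Module.Free Q (Q ⊗[D.R0 K] B.L0))
  have e' : (B.L0 ⧸ (I • (⊤ : Submodule (D.R0 K) B.L0))) ≃ₗ[K] K :=
    ((TensorProduct.quotTensorEquivQuotSMul B.L0 I).symm.restrictScalars K).trans
      ((e.restrictScalars K).trans eQ.toLinearEquiv)
  exact ⟨Module.Finite.equiv e'.symm, e'.finrank_eq.trans (Module.finrank_self K)⟩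

theorem mem_sup_twist_L1 (m : B.M) :
    m ∈ ((point0 c).I01 • (⊤ : Submodule (D.R01 K) B.M)).restrictScalars K ⊔
      B.L1.restrictScalars K := by
  obtain ⟨N, hN⟩ := B.exists_mem1 m
  induction N generalizing m with
  | zero => exact Submodule.mem_sup_right (by simpa using hN)
  | succ N ih =>
    have h : D.yR K • m ∈ ((point0 c).I01 • (⊤ : Submodule (D.R01 K) B.M)).restrictScalars K ⊔
        B.L1.restrictScalars K := ih _ (by rwa [← mul_smul, ← pow_succ])
    have hm : m = (point0 c).P1 • m + c D.x • (D.yR K • m) := by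
      rw [point0_P1, sub_smul, one_smul, mul_smul, IsScalarTower.algebraMap_smul, sub_add_cancel]
    rw [hm]
    refine Submodule.add_mem _ (Submodule.mem_sup_left ?_) (Submodule.smul_mem _ _ h)
    change (point0 c).P1 • m ∈ (point0 c).I01 • (⊤ : Submodule (D.R01 K) B.M)
    rw [← B.smul1]
    exact Submodule.smul_mem_smul ((point0 c).r1_mem_I01 (point0 c).P1_mem) trivial

theorem mem_I1_smul {m : B.M} (hm : m ∈ B.L1)
    (hN : m ∈ (point0 c).I01 • (⊤ : Submodule (D.R01 K) B.M)) :
    m ∈ (point0 c).I1 • B.L1 := by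
  obtain ⟨N, hN⟩ := (point0 c).exists_pow_smul1 B hN
  induction N with
  | zero => simpa using hN
  | succ N ih =>
    refine ih ?_
    have he : D.yR K ^ N • m = c D.x • (D.yR K ^ (N + 1) • m) +
        (point0 c).P1 • (D.yR K ^ N • m) := by
      rw [point0_P1, sub_smul, one_smul, mul_smul, IsScalarTower.algebraMap_smul, pow_succ',
        mul_smul]
      abel
    rw [he]
    exact add_mem (Submodule.smul_of_tower_mem _ _ hN)
      (Submodule.smul_mem_smul (point0 c).P1_mem (B.L1.smul_mem _ hm))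

theorem mem_I0_smul {m : B.M} (hx : c D.x ≠ 0) (hm : m ∈ B.L0)
    (hN : m ∈ (point0 c).I01 • (⊤ : Submodule (D.R01 K) B.M)) :
    m ∈ (point0 c).I0 • B.L0 := by
  obtain ⟨N, hN⟩ := (point0 c).exists_pow_smul0 B hN
  induction N with
  | zero => simpa using hN
  | succ N ih =>
    refine ih ?_
    have hP : (point0 c).P0 = D.xR K - algebraMap K (D.R0 K) (c D.x) := by
      change D.map0 c (Points.diagDelta k D.A0 D.x) = _
      simp [Points.diagDelta, ChartData.map0]
    have he : D.xR K ^ N • m = (c D.x)⁻¹ • (D.xR K ^ (N + 1) • m) -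
        (c D.x)⁻¹ • ((point0 c).P0 • (D.xR K ^ N • m)) := by
      rw [hP, sub_smul, IsScalarTower.algebraMap_smul, pow_succ', mul_smul, smul_sub,
        smul_smul ((c D.x)⁻¹), inv_mul_cancel₀ hx, one_smul]
      abel
    rw [he]
    exact sub_mem (Submodule.smul_of_tower_mem _ _ hN) (Submodule.smul_of_tower_mem _ _
      (Submodule.smul_mem_smul (point0 c).P0_mem (B.L0.smul_mem _ hm)))

/-- Twisting down by a point of the first chart lowers the characteristic by one. -/
theorem chi_twist_point0 : ((point0 c).twist B).chi = B.chi - 1 := by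
  let E := point0 c
  let L0' : Submodule K B.M := (E.I0 • B.L0).restrictScalars K
  let L1' : Submodule K B.M := (E.I1 • B.L1).restrictScalars K
  let NK : Submodule K B.M := (E.I01 • (⊤ : Submodule (D.R01 K) B.M)).restrictScalars K
  have hle : L0' ≤ B.L0.restrictScalars K := fun m hm =>
    (Submodule.smul_le_right : E.I0 • B.L0 ≤ B.L0) hm
  have hle1 : L1' ≤ B.L1.restrictScalars K := fun m hm =>
    (Submodule.smul_le_right : E.I1 • B.L1 ≤ B.L1) hm
  have hN0 : L0' ≤ NK := fun m hm => E.smul0_le B m hm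
  have hN1 : L1' ≤ NK := fun m hm => E.smul1_le B m hm
  have hinter : ∀ m ∈ B.L1.restrictScalars K, m ∈ NK → m ∈ L1' :=
    fun m h h' => mem_I1_smul c B h h'
  -- the inclusion
  let ι : (E.twist B).M →ₗ[K] B.M := (E.twistIncl B).restrictScalars K
  have hιinj : Function.Injective ι := E.incl_injective B
  have hι0 : ((E.twist B).L0.restrictScalars K).map ι = L0' := by
    refine le_antisymm ?_ fun m hm => ⟨⟨m, E.smul0_le B m hm⟩, hm, rfl⟩
    rintro _ ⟨z, hz, rfl⟩
    exact hz
  have hι1 : ((E.twist B).L1.restrictScalars K).map ι = L1' := by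
    refine le_antisymm ?_ fun m hm => ⟨⟨m, E.smul1_le B m hm⟩, hm, rfl⟩
    rintro _ ⟨z, hz, rfl⟩
    exact hz
  have hH0 : (E.twist B).H0.map ι = B.L1.restrictScalars K ⊓ L0' := by
    rw [Bundle.H0, Submodule.map_inf _ hιinj, hι0, hι1]
    refine le_antisymm (fun m hm => ⟨hle1 hm.2, hm.1⟩) fun m hm => ⟨hm.2, ?_⟩
    exact hinter m hm.1 (hN0 hm.2)
  let q : (E.twist B).M →ₗ[K] B.M ⧸ (B.L1.restrictScalars K ⊔ L0') := (Submodule.mkQ _).comp ι
  have hq : Function.Surjective q := fun z => by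
    obtain ⟨m, rfl⟩ := Submodule.mkQ_surjective _ z
    obtain ⟨n, hn, b, hb, rfl⟩ := Submodule.mem_sup.1 (mem_sup_twist_L1 c B m)
    refine ⟨⟨n, hn⟩, (Submodule.Quotient.eq _).2 ?_⟩
    change n - (n + b) ∈ _
    rw [sub_add_cancel_left]
    exact Submodule.mem_sup_left (Submodule.neg_mem _ hb)
  have hkq : LinearMap.ker q =
      (E.twist B).L0.restrictScalars K ⊔ (E.twist B).L1.restrictScalars K := by
    refine Submodule.map_injective_of_injective hιinj ?_
    rw [Submodule.map_sup, hι0, hι1]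
    refine le_antisymm ?_ ?_
    · rintro _ ⟨z, hz, rfl⟩
      have hz' : ι z ∈ B.L1.restrictScalars K ⊔ L0' :=
        (Submodule.Quotient.mk_eq_zero _).1 (LinearMap.mem_ker.1 hz)
      obtain ⟨b, hb, a, ha, hab⟩ := Submodule.mem_sup.1 hz'
      have hbN : b ∈ NK := by
        rw [eq_sub_of_add_eq hab]
        exact Submodule.sub_mem _ z.2 (hN0 ha)
      rw [← hab]
      exact add_mem (Submodule.mem_sup_right (hinter b hb hbN)) (Submodule.mem_sup_left ha)
    · intro m hm
      refine ⟨⟨m, sup_le hN0 hN1 hm⟩, LinearMap.mem_ker.2 ((Submodule.Quotient.mk_eq_zero _).2 ?_),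
        rfl⟩
      exact (sup_le le_sup_right (hle1.trans le_sup_left) :
        L0' ⊔ L1' ≤ B.L1.restrictScalars K ⊔ L0') hm
  let e0 := (Submodule.equivMapOfInjective ι hιinj (E.twist B).H0).trans
    (LinearEquiv.ofEq _ _ hH0)
  let e1 : (E.twist B).H1 ≃ₗ[K] _ :=
    (Submodule.quotEquivOfEq _ _ hkq.symm).trans (q.quotKerEquivOfSurjective hq)
  -- the one dimensional jump
  let φ : B.L0 →ₗ[K] (B.L0.restrictScalars K ⧸ L0'.comap (B.L0.restrictScalars K).subtype) :=
    { toFun := fun m => Submodule.Quotient.mk ⟨(m : B.M), m.2⟩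
      map_add' := fun _ _ => rfl
      map_smul' := fun _ _ => rfl }
  have hφ : Function.Surjective φ := fun z => by
    obtain ⟨⟨m, hm⟩, rfl⟩ := Submodule.mkQ_surjective _ z
    exact ⟨⟨m, hm⟩, rfl⟩
  have hφk : LinearMap.ker φ = (E.I0 • (⊤ : Submodule (D.R0 K) B.L0)).restrictScalars K := by
    ext m
    rw [LinearMap.mem_ker, Submodule.restrictScalars_mem]
    change Submodule.Quotient.mk _ = 0 ↔ _
    rw [Submodule.Quotient.mk_eq_zero]
    change (m : B.M) ∈ E.I0 • B.L0 ↔ _
    have h : (E.I0 • (⊤ : Submodule (D.R0 K) B.L0)).map B.L0.subtype = E.I0 • B.L0 := by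
      rw [Submodule.map_smul'', Submodule.map_subtype_top]
    rw [← h]
    exact ⟨fun ⟨a, ha, he⟩ => Subtype.ext he ▸ ha, fun h => ⟨m, h, rfl⟩⟩
  obtain ⟨hfin, hrank⟩ := finrank_quotient_point0 c B
  let e2 := ((Submodule.Quotient.restrictScalarsEquiv K
    (E.I0 • (⊤ : Submodule (D.R0 K) B.L0))).symm.trans
    (Submodule.quotEquivOfEq _ _ hφk.symm)).trans (φ.quotKerEquivOfSurjective hφ)
  have : Module.Finite K _ := Module.Finite.equiv e2
  have := (E.twist B).finite_H0_field
  have := (E.twist B).finite_H1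
  have : Module.Finite K (B.L1.restrictScalars K ⊓ L0' : Submodule K B.M) := Module.Finite.equiv e0
  have : Module.Finite K (B.M ⧸ (B.L1.restrictScalars K ⊔ L0')) := Module.Finite.equiv e1
  have key := finrank_inf_sub_finrank_quotient_sup (A := B.L1.restrictScalars K) hle
  rw [← e0.finrank_eq, ← e1.finrank_eq, ← e2.finrank_eq, hrank, inf_comm,
    (Submodule.quotEquivOfEq _ _ (sup_comm (B.L1.restrictScalars K)
      (B.L0.restrictScalars K))).finrank_eq] at key
  change (Module.finrank K (E.twist B).H0 : ℤ) - Module.finrank K (E.twist B).H1 =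
    (Module.finrank K B.H0 : ℤ) - Module.finrank K B.H1 - 1
  change (Module.finrank K B.H0 : ℤ) - Module.finrank K B.H1 =
    (Module.finrank K (E.twist B).H0 : ℤ) - Module.finrank K (E.twist B).H1 + ((1 : ℕ) : ℤ) at key
  omega

/-- A point at which a section does not vanish. -/
theorem finrank_H0_twist_lt {s : B.M} (hs : s ∈ B.H0)
    (hs' : s ∉ (point0 c).I01 • (⊤ : Submodule (D.R01 K) B.M)) :
    Module.finrank K ((point0 c).twist B).H0 < Module.finrank K B.H0 := by
  let E := point0 c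
  let ι : (E.twist B).M →ₗ[K] B.M := (E.twistIncl B).restrictScalars K
  have hle : (E.twist B).H0.map ι ≤ B.H0 := by
    rintro _ ⟨z, hz, rfl⟩
    have h0 : E.twistIncl B z ∈ E.I0 • B.L0 := hz.1
    have h1 : E.twistIncl B z ∈ E.I1 • B.L1 := hz.2
    exact ⟨(Submodule.smul_le_right : E.I0 • B.L0 ≤ B.L0) h0,
      (Submodule.smul_le_right : E.I1 • B.L1 ≤ B.L1) h1⟩
  have hlt : (E.twist B).H0.map ι < B.H0 := lt_of_le_of_ne hle fun h => hs' (by
    obtain ⟨z, -, hz⟩ := h.ge hs
    rw [← hz]
    exact z.2)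
  have := B.finite_H0_field
  rw [(Submodule.equivMapOfInjective ι (E.incl_injective B) (E.twist B).H0).finrank_eq]
  exact Submodule.finrank_lt_finrank_of_lt hlt

end ChartData

end FermatLib.AV
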